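import Mathlib

/-!
# S52: short Weierstrass curves `y² = x³ + A x + B`, coordinates, collinearity criterion
-/

set_option autoImplicit false
set_option linter.unusedSectionVars false
set_option linter.unusedVariables false

namespace Fermat.Agent.S52Lib

open WeierstrassCurve

section Defs

variable {K : Type*} [CommRing K]

/-- the short Weierstrass curve `y² = x³ + A x + B` -/
def SW (A B : K) : WeierstrassCurve K := ⟨0, 0, 0, A, B⟩

/-- its (nonsingular) points -/
abbrev Pt (A B : K) := (SW A B).toAffine.Point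

/-- affine coordinates of a point (`none` for the point at infinity) -/
def co {A B : K} : Pt A B → Option (K × K)
  | .zero => none
  | .some x y _ => some (x, y)

/-- projective `x`-coordinate -/
def xr {A B : K} (P : Pt A B) : K × K :=
  match co P with
  | none => (1, 0)
  | some (x, _) => (x, 1)

end Defs

section Field

variable {K : Type*} [Field K] [DecidableEq K] {A B : K}

theorem co_zero : co (0 : Pt A B) = none := rfl

theorem SW_equation_iff {x y : K} :
    (SW A B).toAffine.Equation x y ↔ y ^ 2 = x ^ 3 + A * x + B := by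
  rw [Affine.equation_iff]
  simp [SW]

theorem SW_nonsingular_iff {x y : K} :
    (SW A B).toAffine.Nonsingular x y ↔
      y ^ 2 = x ^ 3 + A * x + B ∧ (3 * x ^ 2 + A ≠ 0 ∨ 2 * y ≠ 0) := by
  rw [Affine.nonsingular_iff', SW_equation_iff]
  have e1 : (SW A B).toAffine.a₁ * y - (3 * x ^ 2 + 2 * (SW A B).toAffine.a₂ * x +
      (SW A B).toAffine.a₄) = -(3 * x ^ 2 + A) := by
    simp only [SW]; ring
  have e2 : 2 * y + (SW A B).toAffine.a₁ * x + (SW A B).toAffine.a₃ = 2 * y := by
    simp only [SW]; ring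
  rw [e1, e2, neg_ne_zero]

theorem SW_negY {x y : K} : (SW A B).toAffine.negY x y = -y := by
  simp [Affine.negY, SW]

theorem co_some {x y : K} (h : (SW A B).toAffine.Nonsingular x y) :
    co (Affine.Point.some x y h : Pt A B) = some (x, y) := rfl

theorem SW_exists_some {P : Pt A B} {x y : K} (h : co P = some (x, y)) :
    ∃ hn : (SW A B).toAffine.Nonsingular x y, P = Affine.Point.some x y hn := by
  cases P with
  | zero => simp [co] at h
  | some x' y' h' =>
    simp only [co, Option.some.injEq, Prod.mk.injEq] at h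
    obtain ⟨rfl, rfl⟩ := h
    exact ⟨h', rfl⟩

theorem co_eq_none {P : Pt A B} : co P = none ↔ P = 0 := by
  cases P with
  | zero => simp [co, Affine.Point.zero_def]
  | some x y h => simp [co, Affine.Point.some_ne_zero]

theorem co_injective : Function.Injective (co : Pt A B → Option (K × K)) := by
  intro P Q h
  cases P with
  | zero =>
    have : co Q = none := h.symm
    rw [co_eq_none] at this
    rw [this]; rfl
  | some x y hn =>
    have : co Q = some (x, y) := h.symm
    obtain ⟨hn', rfl⟩ := SW_exists_some this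
    rfl

theorem co_eqn {P : Pt A B} {x y : K} (h : co P = some (x, y)) : y ^ 2 = x ^ 3 + A * x + B := by
  obtain ⟨hn, rfl⟩ := SW_exists_some h
  exact (SW_nonsingular_iff.mp hn).1

theorem co_neg {P : Pt A B} {x y : K} (h : co P = some (x, y)) : co (-P) = some (x, -y) := by
  obtain ⟨hn, rfl⟩ := SW_exists_some h
  rw [Affine.Point.neg_some, co_some, SW_negY]

/-- every solution of the equation is a point, if the discriminant is nonzero -/
theorem exists_pt (h2 : (2 : K) ≠ 0) (hd : 4 * A ^ 3 + 27 * B ^ 2 ≠ 0) {x y : K}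
    (h : y ^ 2 = x ^ 3 + A * x + B) : ∃ P : Pt A B, co P = some (x, y) := by
  have hn : (SW A B).toAffine.Nonsingular x y := by
    rw [SW_nonsingular_iff]
    refine ⟨h, ?_⟩
    by_contra hc
    push Not at hc
    obtain ⟨h3, hy⟩ := hc
    have hy0 : y = 0 := by
      rcases mul_eq_zero.mp hy with h' | h'
      · exact absurd h' h2
      · exact h'
    subst hy0
    apply hd
    have hA : A = -3 * x ^ 2 := by linear_combination h3
    have hB : B = 2 * x ^ 3 := by
      have : (0 : K) ^ 2 = x ^ 3 + A * x + B := h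
      rw [hA] at this
      linear_combination -this
    rw [hA, hB]; ring
  exact ⟨Affine.Point.some x y hn, rfl⟩

/-- two points with the same `x` are equal or opposite -/
theorem eq_or_eq_neg {P Q : Pt A B} {x y₁ y₂ : K} (hP : co P = some (x, y₁))
    (hQ : co Q = some (x, y₂)) : P = Q ∨ P = -Q := by
  have e1 := co_eqn hP
  have e2 := co_eqn hQ
  have : (y₁ - y₂) * (y₁ + y₂) = 0 := by linear_combination e1 - e2
  rcases mul_eq_zero.mp this with h | h
  · left
    apply co_injective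
    rw [hP, hQ, sub_eq_zero.mp h]
  · right
    apply co_injective
    rw [hP, co_neg hQ, eq_neg_of_add_eq_zero_left h]

/-- chord formula -/
theorem co_add_of_ne {P Q : Pt A B} {x₁ y₁ x₂ y₂ : K} (hP : co P = some (x₁, y₁))
    (hQ : co Q = some (x₂, y₂)) (hx : x₁ ≠ x₂) :
    co (P + Q) = some (((y₁ - y₂) / (x₁ - x₂)) ^ 2 - x₁ - x₂,
      -(((y₁ - y₂) / (x₁ - x₂)) * (((y₁ - y₂) / (x₁ - x₂)) ^ 2 - x₁ - x₂ - x₁) + y₁)) := by
  obtain ⟨hn₁, rfl⟩ := SW_exists_some hP
  obtain ⟨hn₂, rfl⟩ := SW_exists_some hQ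
  rw [Affine.Point.add_of_X_ne hx, co_some, Affine.slope_of_X_ne hx]
  simp [Affine.addX, Affine.addY, Affine.negAddY, Affine.negY, SW]

/-- tangent formula -/
theorem co_dbl (h2 : (2 : K) ≠ 0) {P : Pt A B} {x y : K} (hP : co P = some (x, y)) (hy : y ≠ 0) :
    co (P + P) = some (((3 * x ^ 2 + A) / (2 * y)) ^ 2 - 2 * x,
      -(((3 * x ^ 2 + A) / (2 * y)) * (((3 * x ^ 2 + A) / (2 * y)) ^ 2 - 2 * x - x) + y)) := by
  obtain ⟨hn, rfl⟩ := SW_exists_some hP
  have hne : y ≠ (SW A B).toAffine.negY x y := by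
    rw [SW_negY]
    intro h
    have : 2 * y = 0 := by linear_combination h
    rcases mul_eq_zero.mp this with h' | h'
    · exact h2 h'
    · exact hy h'
  rw [Affine.Point.add_self_of_Y_ne hne, co_some, Affine.slope_of_Y_ne rfl hne]
  have e : (3 * x ^ 2 + 2 * (SW A B).toAffine.a₂ * x + (SW A B).toAffine.a₄ -
      (SW A B).toAffine.a₁ * y) / (y - (SW A B).toAffine.negY x y) = (3 * x ^ 2 + A) / (2 * y) := by
    rw [SW_negY]
    simp only [SW]
    congr 1 <;> ring
  rw [e]
  simp only [Affine.addX, Affine.addY, Affine.negAddY, Affine.negY, SW]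
  congr 2 <;> ring

theorem dbl_eq_zero (h2 : (2 : K) ≠ 0) {P : Pt A B} {x : K} (hP : co P = some (x, 0)) :
    P + P = 0 := by
  obtain ⟨hn, rfl⟩ := SW_exists_some hP
  apply Affine.Point.add_self_of_Y_eq
  rw [SW_negY]; simp

/-- **collinearity criterion** (sufficient direction) -/
theorem col (h2 : (2 : K) ≠ 0) {P₁ P₂ P₃ : Pt A B} {x₁ y₁ x₂ y₂ x₃ y₃ l n : K}
    (h₁ : co P₁ = some (x₁, y₁)) (h₂ : co P₂ = some (x₂, y₂)) (h₃ : co P₃ = some (x₃, y₃))
    (e₁ : y₁ = l * x₁ + n) (e₂ : y₂ = l * x₂ + n) (e₃ : y₃ = l * x₃ + n)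
    (s₁ : x₁ + x₂ + x₃ = l ^ 2) (s₂ : x₁ * x₂ + x₁ * x₃ + x₂ * x₃ = A - 2 * l * n)
    (s₃ : x₁ * x₂ * x₃ = n ^ 2 - B) : P₁ + P₂ + P₃ = 0 := by
  rw [add_eq_zero_iff_eq_neg]
  apply co_injective
  rw [co_neg h₃]
  by_cases hx : x₁ = x₂
  · subst hx
    have hy : y₁ = y₂ := by rw [e₁, e₂]
    subst hy
    have hPP : P₁ = P₂ := co_injective (h₁.trans h₂.symm)
    subst hPP
    have key : 3 * x₁ ^ 2 + A = 2 * l * y₁ := by
      have hx3 : x₃ = l ^ 2 - 2 * x₁ := by linear_combination s₁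
      rw [hx3] at s₂
      rw [e₁]
      linear_combination -s₂
    have hy0 : y₁ ≠ 0 := by
      intro hy0
      obtain ⟨hn, -⟩ := SW_exists_some h₁
      rcases (SW_nonsingular_iff.mp hn).2 with h | h
      · apply h; rw [key, hy0]; ring
      · apply h; rw [hy0]; ring
    rw [co_dbl h2 h₁ hy0]
    have hsl : (3 * x₁ ^ 2 + A) / (2 * y₁) = l := by
      rw [key]; field_simp
    rw [hsl]
    have hx3 : x₃ = l ^ 2 - 2 * x₁ := by linear_combination s₁
    rw [hx3] at e₃ ⊢
    rw [e₃, e₁]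
    congr 2
    ring
  · rw [co_add_of_ne h₁ h₂ hx]
    have hsl : (y₁ - y₂) / (x₁ - x₂) = l := by
      have : x₁ - x₂ ≠ 0 := sub_ne_zero.mpr hx
      rw [e₁, e₂]; field_simp; ring
    rw [hsl]
    have hx3 : x₃ = l ^ 2 - x₁ - x₂ := by linear_combination s₁
    rw [hx3] at e₃ ⊢
    rw [e₃, e₁]
    congr 2
    ring

/-- **collinearity criterion** (necessary direction) -/
theorem col' (h2 : (2 : K) ≠ 0) {P₁ P₂ P₃ : Pt A B} {x₁ y₁ x₂ y₂ x₃ y₃ : K}
    (h₁ : co P₁ = some (x₁, y₁)) (h₂ : co P₂ = some (x₂, y₂)) (h₃ : co P₃ = some (x₃, y₃))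
    (h : P₁ + P₂ + P₃ = 0) :
    ∃ l n : K, y₁ = l * x₁ + n ∧ y₂ = l * x₂ + n ∧ y₃ = l * x₃ + n ∧ x₁ + x₂ + x₃ = l ^ 2 ∧
      x₁ * x₂ + x₁ * x₃ + x₂ * x₃ = A - 2 * l * n ∧ x₁ * x₂ * x₃ = n ^ 2 - B := by
  rw [add_eq_zero_iff_eq_neg] at h
  have hco : co (P₁ + P₂) = some (x₃, -y₃) := by rw [h, co_neg h₃]
  have q₁ := co_eqn h₁
  have q₂ := co_eqn h₂
  by_cases hx : x₁ = x₂
  · subst hx
    rcases eq_or_eq_neg h₁ h₂ with hPP | hPP
    · subst hPP
      have hy : y₁ = y₂ := by
        have := h₁.symm.trans h₂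
        simpa using this
      subst hy
      have hy0 : y₁ ≠ 0 := by
        intro hy0
        subst hy0
        rw [dbl_eq_zero h2 h₁, co_zero] at hco
        simp at hco
      rw [co_dbl h2 h₁ hy0] at hco
      simp only [Option.some.injEq, Prod.mk.injEq, neg_inj] at hco
      obtain ⟨c1, c2⟩ := hco
      have hl' : (3 * x₁ ^ 2 + A) / (2 * y₁) * (2 * y₁) = 3 * x₁ ^ 2 + A := by
        field_simp
      generalize (3 * x₁ ^ 2 + A) / (2 * y₁) = l at c1 c2 hl'
      refine ⟨l, y₁ - l * x₁, by ring, by ring, ?_, ?_, ?_, ?_⟩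
      · rw [← c2, ← c1]; ring
      · rw [← c1]; ring
      · rw [← c1]; linear_combination hl'
      · rw [← c1]; linear_combination x₁ * hl' - q₁
    · exfalso
      rw [hPP] at hco
      simp [co_zero] at hco
  · rw [co_add_of_ne h₁ h₂ hx] at hco
    simp only [Option.some.injEq, Prod.mk.injEq, neg_inj] at hco
    obtain ⟨c1, c2⟩ := hco
    have hne : x₁ - x₂ ≠ 0 := sub_ne_zero.mpr hx
    have hl' : (y₁ - y₂) / (x₁ - x₂) * (x₁ - x₂) = y₁ - y₂ := by
      field_simp
    generalize (y₁ - y₂) / (x₁ - x₂) = l at c1 c2 hl'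
    -- `l (y₁ + y₂) = x₁² + x₁x₂ + x₂² + A`
    have hl2 : l * (y₁ + y₂) = x₁ ^ 2 + x₁ * x₂ + x₂ ^ 2 + A := by
      apply mul_right_cancel₀ hne
      linear_combination (y₁ + y₂) * hl' + q₁ - q₂
    refine ⟨l, y₁ - l * x₁, by ring, by linear_combination hl', ?_, ?_, ?_, ?_⟩
    · rw [← c2, ← c1]; ring
    · rw [← c1]; ring
    · rw [← c1]; linear_combination hl2 - l * hl'
    · rw [← c1]; linear_combination x₁ * hl2 - x₁ * l * hl' - q₁

end Field

/-- a map between abelian groups which is odd and preserves "sum zero" for nonzero triples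
is additive -/
theorem additive_of_col {G H : Type*} [AddCommGroup G] [AddCommGroup H] (θ : G → H)
    (h0 : θ 0 = 0) (hneg : ∀ P, θ (-P) = -θ P)
    (hcol : ∀ P Q R : G, P ≠ 0 → Q ≠ 0 → R ≠ 0 → P + Q + R = 0 → θ P + θ Q + θ R = 0) :
    ∀ P Q, θ (P + Q) = θ P + θ Q := by
  intro P Q
  by_cases hP : P = 0
  · subst hP; simp [h0]
  by_cases hQ : Q = 0
  · subst hQ; simp [h0]
  by_cases hR : P + Q = 0
  · rw [hR, h0]
    have : Q = -P := by rw [eq_neg_iff_add_eq_zero, add_comm]; exact hR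
    rw [this, hneg]; simp
  · have := hcol P Q (-(P + Q)) hP hQ (neg_ne_zero.mpr hR) (by abel)
    rw [hneg] at this
    rw [← sub_eq_zero]
    rw [← neg_eq_zero]
    rw [← this]; abel

end Fermat.Agent.S52Lib
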