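import Fermat.Statements.S52
import Fermat.Agent.S52.SW

/-!
# S52: the number of points mod `ℓ ≥ 5` can be computed on the short model
-/

set_option autoImplicit false
set_option linter.unusedSectionVars false
set_option linter.unusedVariables false

namespace Fermat.Agent.S52Lib

open WeierstrassCurve

section General

variable {F : Type*} [Field F] [DecidableEq F]

/-- the basic identity between the long and the short equation -/
theorem Card_identity (V : WeierstrassCurve F) (x y : F) :
    (108 * (2 * y + V.a₁ * x + V.a₃)) ^ 2 - ((36 * x + 3 * V.b₂) ^ 3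
        + (-27 * V.c₄) * (36 * x + 3 * V.b₂) + (-54 * V.c₆))
      = 46656 * (y ^ 2 + V.a₁ * x * y + V.a₃ * y
          - (x ^ 3 + V.a₂ * x ^ 2 + V.a₄ * x + V.a₆)) := by
  simp only [WeierstrassCurve.c₄, WeierstrassCurve.c₆, WeierstrassCurve.b₂, WeierstrassCurve.b₄,
    WeierstrassCurve.b₆]
  ring

theorem Card_disc (V : WeierstrassCurve F) :
    4 * (-27 * V.c₄) ^ 3 + 27 * (-54 * V.c₆) ^ 2 = -(2 ^ 8 * 3 ^ 12 * V.Δ) := by
  have := V.c_relation
  linear_combination (78732 : F) * this

theorem Card_general (h2 : (2 : F) ≠ 0) (h3 : (3 : F) ≠ 0) (V : WeierstrassCurve F)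
    (hΔ : V.Δ ≠ 0) :
    Nat.card V.toAffine.Point = Nat.card (Pt (-27 * V.c₄) (-54 * V.c₆)) := by
  have hd : 4 * (-27 * V.c₄) ^ 3 + 27 * (-54 * V.c₆) ^ 2 ≠ 0 := by
    rw [Card_disc]
    exact neg_ne_zero.mpr (mul_ne_zero (mul_ne_zero (pow_ne_zero _ h2) (pow_ne_zero _ h3)) hΔ)
  have h46656 : (46656 : F) ≠ 0 := by
    have : (46656 : F) = 2 ^ 6 * 3 ^ 6 := by norm_num
    rw [this]
    exact mul_ne_zero (pow_ne_zero _ h2) (pow_ne_zero _ h3)
  have h36 : (36 : F) ≠ 0 := by
    have : (36 : F) = 2 ^ 2 * 3 ^ 2 := by norm_num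
    rw [this]
    exact mul_ne_zero (pow_ne_zero _ h2) (pow_ne_zero _ h3)
  have h108 : (108 : F) ≠ 0 := by
    have : (108 : F) = 2 ^ 2 * 3 ^ 3 := by norm_num
    rw [this]
    exact mul_ne_zero (pow_ne_zero _ h2) (pow_ne_zero _ h3)
  have key : ∀ P : V.toAffine.Point, ∃ Q : Pt (-27 * V.c₄) (-54 * V.c₆),
      (P = 0 → Q = 0) ∧ ∀ x y h, P = Affine.Point.some x y h →
        co Q = some (36 * x + 3 * V.b₂, 108 * (2 * y + V.a₁ * x + V.a₃)) := by
    intro P
    cases P with
    | zero => exact ⟨0, fun _ => rfl, fun x y h hP => by cases hP⟩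
    | some x y h =>
      have he := (Affine.equation_iff' (W := V.toAffine) x y).mp h.1
      obtain ⟨Q, hQ⟩ := exists_pt (A := -27 * V.c₄) (B := -54 * V.c₆) h2 hd
        (x := 36 * x + 3 * V.b₂) (y := 108 * (2 * y + V.a₁ * x + V.a₃)) (by
          have := Card_identity V x y
          rw [he, mul_zero, sub_eq_zero] at this
          exact this)
      refine ⟨Q, fun h0 => absurd h0 (Affine.Point.some_ne_zero h), ?_⟩
      intro x' y' h' hP
      cases hP
      exact hQ
  choose f hf0 hf using key
  apply Nat.card_eq_of_bijective f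
  constructor
  · intro P P' hPP
    cases P with
    | zero =>
      cases P' with
      | zero => rfl
      | some x y h =>
        exfalso
        have h1 := hf0 Affine.Point.zero rfl
        have h2' := hf _ x y h rfl
        rw [← hPP, h1, co_zero] at h2'
        simp at h2'
    | some x y h =>
      cases P' with
      | zero =>
        exfalso
        have h1 := hf0 Affine.Point.zero rfl
        have h2' := hf _ x y h rfl
        rw [hPP, h1, co_zero] at h2'
        simp at h2'
      | some x' y' h' =>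
        have h1 := hf _ x y h rfl
        have h2' := hf _ x' y' h' rfl
        rw [hPP, h2'] at h1
        simp only [Option.some.injEq, Prod.mk.injEq] at h1
        obtain ⟨e1, e2⟩ := h1
        have ex : x' = x := by
          have : 36 * x' = 36 * x := by linear_combination e1
          exact mul_left_cancel₀ h36 this
        subst ex
        have ey : y' = y := by
          have e3 := mul_left_cancel₀ h108 e2
          have : 2 * y' = 2 * y := by linear_combination e3
          exact mul_left_cancel₀ h2 this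
        subst ey
        rfl
  · intro Q
    rcases hQ : co Q with _ | ⟨X, Y⟩
    · refine ⟨0, ?_⟩
      rw [hf0 0 rfl, co_eq_none.mp hQ]
    · have hq := co_eqn hQ
      set x : F := (X - 3 * V.b₂) / 36 with hx
      set y : F := (Y / 108 - V.a₁ * x - V.a₃) / 2 with hy
      have hX : 36 * x + 3 * V.b₂ = X := by rw [hx]; field_simp; ring
      have hY : 108 * (2 * y + V.a₁ * x + V.a₃) = Y := by rw [hy]; field_simp; ring
      have he : V.toAffine.Equation x y := by
        rw [Affine.equation_iff']
        have := Card_identity V x y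
        rw [hX, hY, hq, sub_self] at this
        rcases mul_eq_zero.mp this.symm with h | h
        · exact absurd h h46656
        · exact h
      have hn : V.toAffine.Nonsingular x y :=
        (Affine.equation_iff_nonsingular_of_Δ_ne_zero (W := V.toAffine) hΔ).mp he
      refine ⟨Affine.Point.some x y hn, ?_⟩
      apply co_injective
      rw [hf _ x y hn rfl, hQ, hX, hY]

end General

/-- (CARD) `(x, y) ↦ (36 x + 3 b₂, 108 (2 y + a₁ x + a₃))` -/
theorem card_eq_short (W : WeierstrassCurve ℤ) {ℓ : ℕ} (hℓ : ℓ.Prime) (h5 : 5 ≤ ℓ)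
    (hgood : ¬ (ℓ : ℤ) ∣ W.Δ) :
    (W.reductionMod ℓ).card
      = Nat.card (Pt (((-27 * W.c₄ : ℤ) : ZMod ℓ)) (((-54 * W.c₆ : ℤ) : ZMod ℓ))) := by
  have : Fact ℓ.Prime := ⟨hℓ⟩
  have h2 : (2 : ZMod ℓ) ≠ 0 := by
    intro h
    have : ((2 : ℕ) : ZMod ℓ) = 0 := by exact_mod_cast h
    rw [ZMod.natCast_eq_zero_iff] at this
    have := Nat.le_of_dvd (by norm_num) this
    omega
  have h3 : (3 : ZMod ℓ) ≠ 0 := by
    intro h
    have : ((3 : ℕ) : ZMod ℓ) = 0 := by exact_mod_cast h
    rw [ZMod.natCast_eq_zero_iff] at this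
    have := Nat.le_of_dvd (by norm_num) this
    omega
  have hΔ : (W.reductionMod ℓ).Δ ≠ 0 := by
    unfold WeierstrassCurve.reductionMod
    rw [WeierstrassCurve.map_Δ]
    intro h
    apply hgood
    exact (ZMod.intCast_zmod_eq_zero_iff_dvd _ _).mp h
  have e4 : (((-27 * W.c₄ : ℤ) : ZMod ℓ)) = -27 * (W.reductionMod ℓ).c₄ := by
    unfold WeierstrassCurve.reductionMod
    rw [WeierstrassCurve.map_c₄]
    push_cast
    rfl
  have e6 : (((-54 * W.c₆ : ℤ) : ZMod ℓ)) = -54 * (W.reductionMod ℓ).c₆ := by
    unfold WeierstrassCurve.reductionMod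
    rw [WeierstrassCurve.map_c₆]
    push_cast
    rfl
  rw [e4, e6]
  exact Card_general h2 h3 _ hΔ

end Fermat.Agent.S52Lib
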