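import Fermat.Agent.S52.Maps

/-!
# S52: every `(c₄, c₆)` with nonzero discriminant is `(c4K v, c6K v)` over an algebraically closed field
-/

set_option autoImplicit false

namespace Fermat.Agent.S52Lib

variable {F : Type*} [Field F]

/-- (KZ) the Klein forms `fK`, `c4K` have no common zero -/
theorem klein_no_common_zero (h5 : (5 : F) ≠ 0) {a b : F} (hf : fK a b = 0) (hc : c4K a b = 0) :
    a = 0 ∧ b = 0 := by
  by_cases ha : a = 0
  · subst ha
    refine ⟨rfl, ?_⟩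
    have : b ^ 20 = 0 := by
      rw [← hc]; unfold c4K; ring
    exact pow_eq_zero_iff (by norm_num) |>.mp this
  by_cases hb : b = 0
  · subst hb
    refine ⟨?_, rfl⟩
    have : a ^ 20 = 0 := by
      rw [← hc]; unfold c4K; ring
    exact pow_eq_zero_iff (by norm_num) |>.mp this
  exfalso
  have hw : (a ^ 5) ^ 2 + 11 * a ^ 5 * b ^ 5 - (b ^ 5) ^ 2 = 0 := by
    have e : fK a b = -(a * b) * ((a ^ 5) ^ 2 + 11 * a ^ 5 * b ^ 5 - (b ^ 5) ^ 2) := by
      unfold fK; ring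
    rw [e] at hf
    rcases mul_eq_zero.mp hf with h | h
    · exact absurd (neg_eq_zero.mp h) (mul_ne_zero ha hb)
    · exact h
  have h1 : 3125 * (b ^ 5) ^ 3 * (b ^ 5 - 11 * a ^ 5) = 0 := by
    have e : c4K a b = ((a ^ 5) ^ 2 - 239 * a ^ 5 * b ^ 5 + 3124 * (b ^ 5) ^ 2)
        * ((a ^ 5) ^ 2 + 11 * a ^ 5 * b ^ 5 - (b ^ 5) ^ 2)
        + 3125 * (b ^ 5) ^ 3 * (b ^ 5 - 11 * a ^ 5) := by
      unfold c4K; ring
    rw [e, hw, mul_zero, zero_add] at hc
    exact hc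
  have h3125 : (3125 : F) ≠ 0 := by
    have : (3125 : F) = 5 ^ 5 := by norm_num
    rw [this]; exact pow_ne_zero 5 h5
  have h2 : b ^ 5 - 11 * a ^ 5 = 0 := by
    rcases mul_eq_zero.mp h1 with h | h
    · exact absurd h (mul_ne_zero h3125 (pow_ne_zero 3 (pow_ne_zero 5 hb)))
    · exact h
  have h3 : (a ^ 5) ^ 2 = 0 := by
    have hb5 : b ^ 5 = 11 * a ^ 5 := sub_eq_zero.mp h2
    rw [hb5] at hw
    linear_combination hw
  exact ha (pow_eq_zero_iff (by norm_num) |>.mp (pow_eq_zero_iff (by norm_num) |>.mp h3))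

theorem ExistsV_c4K_smul (s z : F) : c4K (s * z) s = s ^ 20 * c4K z 1 := by
  unfold c4K; ring

theorem ExistsV_c6K_smul (s z : F) : c6K (s * z) s = s ^ 30 * c6K z 1 := by
  unfold c6K; ring

open Polynomial in
/-- a root of the `j`-equation -/
theorem ExistsV_root [IsAlgClosed F] (c₄ c₆ : F) (hΔ : c₄ ^ 3 ≠ c₆ ^ 2) :
    ∃ z : F, c4K z 1 ^ 3 * c₆ ^ 2 = c6K z 1 ^ 2 * c₄ ^ 3 := by
  set Cz : F[X] := X ^ 20 - 228 * X ^ 15 + 494 * X ^ 10 + 228 * X ^ 5 + 1 with hCz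
  set fz : F[X] := X - 11 * X ^ 6 - X ^ 11 with hfz
  have hmon : Cz.Monic := by
    rw [hCz]; monicity!
  have hdeg : Cz.natDegree = 20 := by
    rw [hCz]; compute_degree!
  have hfdeg : fz.natDegree ≤ 11 := by
    rw [hfz]; compute_degree
  have hc : c₆ ^ 2 - c₄ ^ 3 ≠ 0 := fun h => hΔ (sub_eq_zero.mp h).symm
  set P : F[X] := C (c₆ ^ 2 - c₄ ^ 3) * Cz ^ 3 + C (1728 * c₄ ^ 3) * fz ^ 5 with hP
  have hd1 : (C (c₆ ^ 2 - c₄ ^ 3) * Cz ^ 3).degree = 60 := by
    rw [degree_C_mul hc, degree_eq_natDegree (hmon.pow 3).ne_zero, hmon.natDegree_pow, hdeg]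
    norm_num
  have hd2 : (C (1728 * c₄ ^ 3) * fz ^ 5).degree < 60 := by
    refine lt_of_le_of_lt (degree_le_natDegree) ?_
    have : (C (1728 * c₄ ^ 3) * fz ^ 5).natDegree ≤ 55 :=
      (natDegree_C_mul_le _ _).trans ((natDegree_pow_le_of_le 5 hfdeg).trans (by norm_num))
    exact lt_of_le_of_lt (Nat.cast_le.mpr this) (by norm_num)
  have hdP : P.degree ≠ 0 := by
    rw [hP, degree_add_eq_left_of_degree_lt (by rw [hd1]; exact hd2), hd1]
    norm_num
  obtain ⟨z, hz⟩ := IsAlgClosed.exists_root P hdP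
  refine ⟨z, ?_⟩
  have e1 : Cz.eval z = c4K z 1 := by
    rw [hCz]; unfold c4K; simp
  have e2 : fz.eval z = fK z 1 := by
    rw [hfz]; unfold fK; simp
  rw [IsRoot.def, hP] at hz
  simp only [eval_add, eval_mul, eval_C, eval_pow, e1, e2] at hz
  have hs := klein_syzygy z (1 : F)
  linear_combination hz + c₄ ^ 3 * hs

/-- (EXV) -/
theorem exists_v [IsAlgClosed F] (h2 : (2 : F) ≠ 0) (h3 : (3 : F) ≠ 0) (h5 : (5 : F) ≠ 0)
    (c₄ c₆ : F) (hΔ : c₄ ^ 3 ≠ c₆ ^ 2) : ∃ a b : F, c4K a b = c₄ ∧ c6K a b = c₆ := by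
  obtain ⟨z, hz⟩ := ExistsV_root c₄ c₆ hΔ
  set Cc := c4K z 1 with hCc
  set S := c6K z 1 with hS
  have hCS : ¬ (Cc = 0 ∧ S = 0) := by
    rintro ⟨hC0, hS0⟩
    have hs := klein_syzygy z (1 : F)
    rw [← hCc, ← hS, hC0, hS0] at hs
    have h1728 : (1728 : F) ≠ 0 := by
      have : (1728 : F) = 2 ^ 6 * 3 ^ 3 := by norm_num
      rw [this]; exact mul_ne_zero (pow_ne_zero 6 h2) (pow_ne_zero 3 h3)
    have hf : fK z 1 = 0 := by
      have : 1728 * fK z 1 ^ 5 = 0 := by rw [← hs]; ring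
      rcases mul_eq_zero.mp this with h | h
      · exact absurd h h1728
      · exact pow_eq_zero_iff (by norm_num) |>.mp h
    exact one_ne_zero (klein_no_common_zero h5 hf hC0).2
  -- it suffices to find `s`
  suffices h : ∃ s : F, s ^ 20 * Cc = c₄ ∧ s ^ 30 * S = c₆ by
    obtain ⟨s, h1, h2⟩ := h
    exact ⟨s * z, s, by rw [ExistsV_c4K_smul, h1], by rw [ExistsV_c6K_smul, h2]⟩
  by_cases hc4 : c₄ = 0
  · subst hc4
    have hc6 : c₆ ≠ 0 := by
      rintro rfl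
      exact hΔ (by ring)
    have hC0 : Cc = 0 := by
      have : Cc ^ 3 * c₆ ^ 2 = 0 := by rw [hz]; ring
      rcases mul_eq_zero.mp this with h | h
      · exact pow_eq_zero_iff (by norm_num) |>.mp h
      · exact absurd (pow_eq_zero_iff (by norm_num) |>.mp h) hc6
    have hS0 : S ≠ 0 := fun h => hCS ⟨hC0, h⟩
    obtain ⟨s, hs⟩ := IsAlgClosed.exists_pow_nat_eq (c₆ / S) (n := 30) (by norm_num)
    exact ⟨s, by rw [hC0, mul_zero], by rw [hs]; field_simp⟩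
  by_cases hc6 : c₆ = 0
  · subst hc6
    have hS0 : S = 0 := by
      have : S ^ 2 * c₄ ^ 3 = 0 := by rw [← hz]; ring
      rcases mul_eq_zero.mp this with h | h
      · exact pow_eq_zero_iff (by norm_num) |>.mp h
      · exact absurd (pow_eq_zero_iff (by norm_num) |>.mp h) hc4
    have hC0 : Cc ≠ 0 := fun h => hCS ⟨h, hS0⟩
    obtain ⟨s, hs⟩ := IsAlgClosed.exists_pow_nat_eq (c₄ / Cc) (n := 20) (by norm_num)
    exact ⟨s, by rw [hs]; field_simp, by rw [hS0, mul_zero]⟩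
  have hC0 : Cc ≠ 0 := by
    intro h
    apply hCS
    refine ⟨h, ?_⟩
    have : S ^ 2 * c₄ ^ 3 = 0 := by rw [← hz, h]; ring
    rcases mul_eq_zero.mp this with h' | h'
    · exact pow_eq_zero_iff (by norm_num) |>.mp h'
    · exact absurd (pow_eq_zero_iff (by norm_num) |>.mp h') hc4
  have hS0 : S ≠ 0 := by
    intro h
    apply hCS
    refine ⟨?_, h⟩
    have : Cc ^ 3 * c₆ ^ 2 = 0 := by rw [hz, h]; ring
    rcases mul_eq_zero.mp this with h' | h'
    · exact pow_eq_zero_iff (by norm_num) |>.mp h'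
    · exact absurd (pow_eq_zero_iff (by norm_num) |>.mp h') hc6
  obtain ⟨s, hs⟩ := IsAlgClosed.exists_pow_nat_eq ((c₆ / S) / (c₄ / Cc)) (n := 10) (by norm_num)
  refine ⟨s, ?_, ?_⟩
  · have : s ^ 20 = (s ^ 10) ^ 2 := by ring
    rw [this, hs]
    field_simp
    linear_combination hz
  · have : s ^ 30 = (s ^ 10) ^ 3 := by ring
    rw [this, hs]
    field_simp
    linear_combination hz

end Fermat.Agent.S52Lib
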