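import Fermat.Agent.S52.Defs

set_option autoImplicit false

namespace Fermat.Agent.S52Lib

variable {R : Type*} [CommRing R]

set_option maxHeartbeats 4000000 in
/-- (R1) the syzygy. -/
theorem syzygy (c₄ c₆ t : R) :
    C4p c₄ c₆ t ^ 3 - C6p c₄ c₆ t ^ 2 = (c₄ ^ 3 - c₆ ^ 2) * Dp c₄ c₆ t ^ 5 := by
  unfold C4p C6p G4 G6 Dp
  ring

end Fermat.Agent.S52Lib
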