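import Fermat.Agent.S52.Klein

set_option autoImplicit false

namespace Fermat.Agent.S52Lib

variable {R : Type*} [CommRing R]

set_option maxHeartbeats 40000000 in
theorem klein_C4 (a b t : R) :
    c4K (a - t * fKb a b) (b + t * fKa a b) = C4p (c4K a b) (c6K a b) t := by
  unfold C4p G4 c4K c6K fKa fKb
  ring

end Fermat.Agent.S52Lib
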