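import Fermat.Agent.S52.Tate
import Fermat.Agent.S52.ExistsV
import Fermat.Agent.S52.KleinC4
import Fermat.Agent.S52.Ident

/-!
# S52: the generic member of the family has a point of order 5 over `F(t)`, `F` algebraically closed
-/

set_option autoImplicit false

namespace Fermat.Agent.S52Lib

section aux

variable {R S : Type*} [CommRing R] [CommRing S]

theorem Generic_map_c4K (φ : R →+* S) (a b : R) : φ (c4K a b) = c4K (φ a) (φ b) := by
  unfold c4K
  simp only [map_add, map_sub, map_mul, map_pow, map_ofNat, map_neg]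

theorem Generic_map_c6K (φ : R →+* S) (a b : R) : φ (c6K a b) = c6K (φ a) (φ b) := by
  unfold c6K
  simp only [map_add, map_sub, map_mul, map_pow, map_ofNat, map_neg]

theorem Generic_map_fK (φ : R →+* S) (a b : R) : φ (fK a b) = fK (φ a) (φ b) := by
  unfold fK
  simp only [map_add, map_sub, map_mul, map_pow, map_ofNat, map_neg]

theorem Generic_map_Dp (φ : R →+* S) (a b t : R) : φ (Dp a b t) = Dp (φ a) (φ b) (φ t) := by
  unfold Dp
  simp only [map_add, map_sub, map_mul, map_pow, map_ofNat, map_neg, map_one]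

theorem Generic_Dp_zero (a b : R) : Dp a b 0 = 1 := by
  unfold Dp
  ring

end aux

section five

variable {K : Type*} [Field K] [DecidableEq K]

theorem Generic_five_of_sq (h2 : (2 : K) ≠ 0) (h3 : (3 : K) ≠ 0) (i : K) (hi : i ^ 2 = -1)
    (w₁ w₂ : K) (hf : fK w₁ w₂ ≠ 0) (c₄ c₆ : K) (h4 : c₄ = c4K w₁ w₂)
    (h6 : c₆ ^ 2 = c6K w₁ w₂ ^ 2) :
    ∃ u : Pt (-27 * c₄) (-54 * c₆), u ≠ 0 ∧ (5 : ℕ) • u = 0 := by
  have hq : w₁ ^ 2 + w₁ * w₂ - w₂ ^ 2 ≠ 0 := by
    intro h
    apply hf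
    rw [fK_factor, h, mul_zero]
  have hΔ : pK w₁ w₂ * qK w₁ w₂ * (pK w₁ w₂ ^ 2 - 11 * pK w₁ w₂ * qK w₁ w₂ - qK w₁ w₂ ^ 2) ≠ 0 := by
    rw [disc_K]
    exact mul_ne_zero hf (pow_ne_zero _ hq)
  have hT := tate_point h2 h3 (pK w₁ w₂) (qK w₁ w₂) hΔ
  rw [c4T_K, c6T_K, ← h4] at hT
  rcases sq_eq_sq_iff_eq_or_eq_neg.mp h6 with h | h
  · rw [← h] at hT
    exact hT
  · obtain ⟨T, hT0, hT5⟩ := hT
    have hi0 : i ≠ 0 := by
      intro h0
      rw [h0] at hi
      have : (0 : K) = -1 := by simpa using hi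
      exact one_ne_zero (neg_eq_zero.mp this.symm)
    have hA : -27 * c₄ = i ^ 4 * (RingHom.id K) (-27 * c₄) := by
      have : i ^ 4 = 1 := by
        have : i ^ 4 = (i ^ 2) ^ 2 := by ring
        rw [this, hi]; ring
      rw [this]; simp
    have hB : -54 * c₆ = i ^ 6 * (RingHom.id K) (-54 * c6K w₁ w₂) := by
      have : i ^ 6 = -1 := by
        have : i ^ 6 = (i ^ 2) ^ 3 := by ring
        rw [this, hi]; ring
      rw [this, h]; simp
    refine ⟨mapScale h2 (RingHom.id K) i hi0 hA hB T, ?_, ?_⟩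
    · intro h0
      apply hT0
      apply mapScale_injective h2 (RingHom.id K) i hi0 hA hB
      rw [h0, map_zero]
    · rw [← map_nsmul, hT5, map_zero]

end five

variable {F : Type*} [Field F] [IsAlgClosed F] [DecidableEq (RatFunc F)]

/-- (GEN) -/
theorem exists_generic_five (h2 : (2 : F) ≠ 0) (h3 : (3 : F) ≠ 0) (h5 : (5 : F) ≠ 0) (c₄ c₆ : F)
    (hΔ : c₄ ^ 3 ≠ c₆ ^ 2) :
    ∃ u : Pt (-27 * C4p (RatFunc.C c₄) (RatFunc.C c₆) (RatFunc.X : RatFunc F))
        (-54 * C6p (RatFunc.C c₄) (RatFunc.C c₆) (RatFunc.X : RatFunc F)),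
      u ≠ 0 ∧ (5 : ℕ) • u = 0 := by
  obtain ⟨a, b, ha, hb⟩ := exists_v h2 h3 h5 c₄ c₆ hΔ
  obtain ⟨i, hi⟩ := IsAlgClosed.exists_pow_nat_eq (-1 : F) (n := 2) (by norm_num)
  have h2K : (2 : RatFunc F) ≠ 0 := by
    have := (map_ne_zero (RatFunc.C : F →+* RatFunc F)).mpr h2
    rwa [map_ofNat] at this
  have h3K : (3 : RatFunc F) ≠ 0 := by
    have := (map_ne_zero (RatFunc.C : F →+* RatFunc F)).mpr h3
    rwa [map_ofNat] at this
  have hiK : (RatFunc.C i : RatFunc F) ^ 2 = -1 := by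
    rw [← map_pow, hi, map_neg, map_one]
  have e4 : c4K (RatFunc.C a : RatFunc F) (RatFunc.C b) = RatFunc.C c₄ := by
    rw [← Generic_map_c4K, ha]
  have e6 : c6K (RatFunc.C a : RatFunc F) (RatFunc.C b) = RatFunc.C c₆ := by
    rw [← Generic_map_c6K, hb]
  have hf0 : fK a b ≠ 0 := by
    intro h
    have := klein_syzygy a b
    rw [h, ha, hb] at this
    apply hΔ
    have h' : c₄ ^ 3 - c₆ ^ 2 = 0 := by rw [this]; ring
    exact sub_eq_zero.mp h'
  have hfK : fK (RatFunc.C a : RatFunc F) (RatFunc.C b) ≠ 0 := by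
    rw [← Generic_map_fK]
    exact (map_ne_zero _).mpr hf0
  have hD : Dp (RatFunc.C c₄) (RatFunc.C c₆) (RatFunc.X : RatFunc F) ≠ 0 := by
    have hp : Dp (Polynomial.C c₄) (Polynomial.C c₆) (Polynomial.X : Polynomial F) ≠ 0 := by
      intro h
      have := congrArg (Polynomial.evalRingHom (0 : F)) h
      rw [Generic_map_Dp] at this
      simp only [Polynomial.coe_evalRingHom, Polynomial.eval_C, Polynomial.eval_X,
        Polynomial.eval_zero, Generic_Dp_zero] at this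
      exact one_ne_zero this
    have e : Dp (RatFunc.C c₄) (RatFunc.C c₆) (RatFunc.X : RatFunc F)
        = algebraMap (Polynomial F) (RatFunc F)
          (Dp (Polynomial.C c₄) (Polynomial.C c₆) (Polynomial.X : Polynomial F)) := by
      rw [Generic_map_Dp, RatFunc.algebraMap_C, RatFunc.algebraMap_C, RatFunc.algebraMap_X]
    rw [e]
    exact (map_ne_zero_iff _ (RatFunc.algebraMap_injective F)).mpr hp
  have k4 := klein_C4 (RatFunc.C a : RatFunc F) (RatFunc.C b) RatFunc.X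
  have kD := klein_D (RatFunc.C a : RatFunc F) (RatFunc.C b) RatFunc.X
  rw [e4, e6] at k4 kD
  refine Generic_five_of_sq h2K h3K (RatFunc.C i) hiK _ _ ?_ _ _ k4.symm ?_
  · rw [kD]
    exact mul_ne_zero hfK hD
  · have s1 := syzygy (RatFunc.C c₄) (RatFunc.C c₆) (RatFunc.X : RatFunc F)
    have s2 := klein_syzygy ((RatFunc.C a : RatFunc F) - RatFunc.X * fKb (RatFunc.C a) (RatFunc.C b))
      (RatFunc.C b + RatFunc.X * fKa (RatFunc.C a) (RatFunc.C b))
    have s3 := klein_syzygy (RatFunc.C a : RatFunc F) (RatFunc.C b)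
    rw [e4, e6] at s3
    rw [k4, kD] at s2
    linear_combination s2 - s1 - Dp (RatFunc.C c₄) (RatFunc.C c₆) (RatFunc.X : RatFunc F) ^ 5 * s3

end Fermat.Agent.S52Lib
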