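import Fermat.Agent.S52.FrobRel
import Fermat.Agent.S52.Generic
import Fermat.Agent.Lib.FrobeniusExists

/-!
# S52: the congruence of point counts
-/

set_option autoImplicit false

namespace Fermat.Agent.S52Lib

open Polynomial
open scoped Pointwise

/-- abstract chain argument -/
theorem fin_chain {G₁ G₂ G₃ : Type*} [AddCommGroup G₁] [AddCommGroup G₂] [AddCommGroup G₃]
    (r₁ : G₁ →+ G₂) (r₂ : G₂ →+ G₃) (S₁ : G₁ →+ G₁) (S₂ : G₂ →+ G₂) (S₃ : G₃ →+ G₃)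
    (c₁ : ∀ x, r₁ (S₁ x) = S₂ (r₁ x)) (c₂ : ∀ x, r₂ (S₂ x) = S₃ (r₂ x))
    (i₁ : ∀ x, x ≠ 0 → (5 : ℕ) • x = 0 → r₁ x ≠ 0) (i₂ : ∀ x, x ≠ 0 → (5 : ℕ) • x = 0 → r₂ x ≠ 0)
    (a l : ℤ)
    (rel : ∀ Q : G₃, Q ≠ 0 → (5 : ℕ) • Q = 0 → (2 : ℕ) • (S₃ (S₃ Q) - a • S₃ Q + l • Q) = 0)
    (u : G₁) (hu : (5 : ℕ) • u = 0) : S₁ (S₁ u) - a • S₁ u + l • u = 0 := by
  by_cases hu0 : u = 0
  · subst hu0; simp
  set w := S₁ (S₁ u) - a • S₁ u + l • u with hw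
  have h5w : (5 : ℕ) • w = 0 := by
    rw [hw, smul_add, smul_sub, ← map_nsmul, ← map_nsmul, hu, smul_comm, ← map_nsmul, hu,
      smul_comm, hu]
    simp
  have hQ0 : r₂ (r₁ u) ≠ 0 := by
    apply i₂ _ (i₁ u hu0 hu)
    rw [← map_nsmul, hu, map_zero]
  have hQ5 : (5 : ℕ) • r₂ (r₁ u) = 0 := by
    rw [← map_nsmul, ← map_nsmul, hu, map_zero, map_zero]
  have hrel := rel _ hQ0 hQ5
  have himg : r₂ (r₁ w) = S₃ (S₃ (r₂ (r₁ u))) - a • S₃ (r₂ (r₁ u)) + l • r₂ (r₁ u) := by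
    rw [hw]
    simp only [map_add, map_sub, map_zsmul, c₁, c₂]
  have h2w : (2 : ℕ) • w = 0 := by
    by_contra hne
    have h5 : (5 : ℕ) • ((2 : ℕ) • w) = 0 := by rw [smul_comm, h5w, smul_zero]
    have h1 := i₁ _ hne h5
    have h2 := i₂ _ h1 (by rw [← map_nsmul, h5, map_zero])
    apply h2
    rw [map_nsmul, map_nsmul, himg, hrel]
  have : w = (5 : ℕ) • w - (2 : ℕ) • ((2 : ℕ) • w) := by
    rw [smul_smul]
    have : (5 : ℕ) • w = (2 * 2 : ℕ) • w + w := by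
      rw [show (5 : ℕ) = 2 * 2 + 1 from rfl, add_smul, one_smul]
    rw [this]; abel
  rw [this, h5w, h2w]; simp

local notation "Qbar" => AlgebraicClosure ℚ

theorem frob_relation' {ℓ : ℕ} [Fact ℓ.Prime] {F : Type*} [Field F] [CharP F ℓ] [DecidableEq F]
    (h5 : 5 ≤ ℓ) (h2 : (2 : F) ≠ 0) (a b : ℤ)
    (hd : ((4 * a ^ 3 + 27 * b ^ 2 : ℤ) : F) ≠ 0) (A B : F) (hA : A = a) (hB : B = b)
    (hfA : frobenius F ℓ A = A) (hfB : frobenius F ℓ B = B) (Q : Pt A B) (hQ0 : Q ≠ 0)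
    (hQ5 : (5 : ℕ) • Q = 0) :
    (2 : ℕ) • (mapPt h2 (frobenius F ℓ) hfA hfB (mapPt h2 (frobenius F ℓ) hfA hfB Q)
      - ((ℓ : ℤ) + 1 - (Nat.card (Pt ((a : ℤ) : ZMod ℓ) ((b : ℤ) : ZMod ℓ)) : ℤ)) •
        mapPt h2 (frobenius F ℓ) hfA hfB Q + (ℓ : ℤ) • Q) = 0 := by
  subst hA hB
  rcases hc : co Q with _ | ⟨x, y⟩
  · exact absurd (co_eq_none.mp hc) hQ0
  have hy : y ≠ 0 := by
    rintro rfl
    have h2Q := dbl_eq_zero h2 hc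
    apply hQ0
    have : Q = (5 : ℕ) • Q - (2 : ℕ) • (Q + Q) := by
      rw [show (5 : ℕ) = 4 + 1 from rfl, add_smul, one_smul, smul_add, ← add_smul]
      abel
    rw [this, hQ5, h2Q]; simp
  exact frob_relation h5 h2 a b hd Q hc hy

/-- facts about a Frobenius element -/
theorem frob_facts (𝔄 : ValuationSubring Qbar) (σ : Qbar ≃ₐ[ℚ] Qbar) {ℓ : ℕ}
    (hσ : 𝔄.IsFrobeniusAt σ ℓ) :
    (∀ x : Qbar, σ x ∈ 𝔄 ↔ x ∈ 𝔄) ∧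
    (∀ (x : 𝔄) (h : σ (x : Qbar) ∈ 𝔄), IsLocalRing.residue 𝔄 ⟨σ (x : Qbar), h⟩
      = (IsLocalRing.residue 𝔄 x) ^ ℓ) := by
  obtain ⟨hdec, hfr⟩ := hσ
  have hmem : ∀ x : Qbar, x ∈ 𝔄 → σ x ∈ 𝔄 := by
    intro x hx
    have h1 : σ • 𝔄 = 𝔄 := hdec
    rw [← h1]
    exact ⟨x, hx, rfl⟩
  have hmem' : ∀ x : Qbar, σ x ∈ 𝔄 → x ∈ 𝔄 := by
    intro x hx
    have h1 : σ • 𝔄 = 𝔄 := hdec
    rw [← h1] at hx
    obtain ⟨y, hy, hyx⟩ := hx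
    have : y = x := σ.injective hyx
    exact this ▸ hy
  refine ⟨fun x => ⟨hmem' x, hmem x⟩, ?_⟩
  intro x h
  have := hfr (IsLocalRing.residue 𝔄 x)
  rw [← this, ← IsLocalRing.ResidueField.residue_smul]
  rfl


/-- polynomial coefficients of the generic member of the family -/
noncomputable def pA (c₄ c₆ : ℤ) : Qbar[X] := -27 * C4p (C (c₄ : Qbar)) (C (c₆ : Qbar)) X
noncomputable def pB (c₄ c₆ : ℤ) : Qbar[X] := -54 * C6p (C (c₄ : Qbar)) (C (c₆ : Qbar)) X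

theorem pA_eval (c₄ c₆ τ : ℤ) : (pA c₄ c₆).eval (τ : Qbar) = ((-27 * C4p c₄ c₆ τ : ℤ) : Qbar) := by
  have h := map_C4p (Polynomial.evalRingHom (τ : Qbar)) (C (c₄ : Qbar)) (C (c₆ : Qbar)) X
  have h' := map_C4p (Int.castRingHom Qbar) c₄ c₆ τ
  simp only [coe_evalRingHom, eval_C, eval_X, eq_intCast] at h h'
  unfold pA
  rw [eval_mul, h]
  push_cast
  rw [h']
  simp

theorem pB_eval (c₄ c₆ τ : ℤ) : (pB c₄ c₆).eval (τ : Qbar) = ((-54 * C6p c₄ c₆ τ : ℤ) : Qbar) := by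
  have h := map_C6p (Polynomial.evalRingHom (τ : Qbar)) (C (c₄ : Qbar)) (C (c₆ : Qbar)) X
  have h' := map_C6p (Int.castRingHom Qbar) c₄ c₆ τ
  simp only [coe_evalRingHom, eval_C, eval_X, eq_intCast] at h h'
  unfold pB
  rw [eval_mul, h]
  push_cast
  rw [h']
  simp

theorem pA_map (c₄ c₆ : ℤ) (σ : Qbar →+* Qbar) : (pA c₄ c₆).map σ = pA c₄ c₆ := by
  have h := map_C4p (Polynomial.mapRingHom σ) (C (c₄ : Qbar)) (C (c₆ : Qbar)) X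
  have e1 : Polynomial.mapRingHom σ (C (c₄ : Qbar)) = C (c₄ : Qbar) := by simp
  have e2 : Polynomial.mapRingHom σ (C (c₆ : Qbar)) = C (c₆ : Qbar) := by simp
  have e3 : Polynomial.mapRingHom σ (X : Qbar[X]) = X := by simp
  rw [e1, e2, e3] at h
  unfold pA
  rw [← coe_mapRingHom, map_mul, h, map_neg, map_ofNat]

theorem pB_map (c₄ c₆ : ℤ) (σ : Qbar →+* Qbar) : (pB c₄ c₆).map σ = pB c₄ c₆ := by
  have h := map_C6p (Polynomial.mapRingHom σ) (C (c₄ : Qbar)) (C (c₆ : Qbar)) X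
  have e1 : Polynomial.mapRingHom σ (C (c₄ : Qbar)) = C (c₄ : Qbar) := by simp
  have e2 : Polynomial.mapRingHom σ (C (c₆ : Qbar)) = C (c₆ : Qbar) := by simp
  have e3 : Polynomial.mapRingHom σ (X : Qbar[X]) = X := by simp
  rw [e1, e2, e3] at h
  unfold pB
  rw [← coe_mapRingHom, map_mul, h, map_neg, map_ofNat]

theorem pA_algebraMap (c₄ c₆ : ℤ) : algebraMap Qbar[X] (RatFunc Qbar) (pA c₄ c₆)
    = -27 * C4p (RatFunc.C (c₄ : Qbar)) (RatFunc.C (c₆ : Qbar)) (RatFunc.X : RatFunc Qbar) := by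
  have h := map_C4p (algebraMap Qbar[X] (RatFunc Qbar)) (C (c₄ : Qbar)) (C (c₆ : Qbar)) X
  simp only [RatFunc.algebraMap_C, RatFunc.algebraMap_X] at h
  unfold pA
  rw [map_mul, h, map_neg, map_ofNat]

theorem pB_algebraMap (c₄ c₆ : ℤ) : algebraMap Qbar[X] (RatFunc Qbar) (pB c₄ c₆)
    = -54 * C6p (RatFunc.C (c₄ : Qbar)) (RatFunc.C (c₆ : Qbar)) (RatFunc.X : RatFunc Qbar) := by
  have h := map_C6p (algebraMap Qbar[X] (RatFunc Qbar)) (C (c₄ : Qbar)) (C (c₆ : Qbar)) X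
  simp only [RatFunc.algebraMap_C, RatFunc.algebraMap_X] at h
  unfold pB
  rw [map_mul, h, map_neg, map_ofNat]


theorem disc_int (c₄ c₆ τ : ℤ) :
    4 * (-27 * C4p c₄ c₆ τ) ^ 3 + 27 * (-54 * C6p c₄ c₆ τ) ^ 2
      = -78732 * ((c₄ ^ 3 - c₆ ^ 2) * Dp c₄ c₆ τ ^ 5) := by
  rw [← syzygy]; ring

theorem fin_one [DecidableEq Qbar] [DecidableEq (RatFunc Qbar)] (c₄ c₆ τ : ℤ) {ℓ : ℕ}
    (hℓ : ℓ.Prime) (h7 : 7 ≤ ℓ) (hgood : ¬ (ℓ : ℤ) ∣ (c₄ ^ 3 - c₆ ^ 2) * Dp c₄ c₆ τ)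
    (𝔄 : ValuationSubring Qbar) (σ : Qbar ≃ₐ[ℚ] Qbar) (h𝔄 : 𝔄.LiesOverPrime ℓ)
    (hσ : 𝔄.IsFrobeniusAt σ ℓ) (h2K : (2 : RatFunc Qbar) ≠ 0)
    (hA : ratMap (σ : Qbar →+* Qbar) (algebraMap Qbar[X] (RatFunc Qbar) (pA c₄ c₆))
      = algebraMap Qbar[X] (RatFunc Qbar) (pA c₄ c₆))
    (hB : ratMap (σ : Qbar →+* Qbar) (algebraMap Qbar[X] (RatFunc Qbar) (pB c₄ c₆))
      = algebraMap Qbar[X] (RatFunc Qbar) (pB c₄ c₆))
    (u : Pt (algebraMap Qbar[X] (RatFunc Qbar) (pA c₄ c₆))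
      (algebraMap Qbar[X] (RatFunc Qbar) (pB c₄ c₆))) (hu : (5 : ℕ) • u = 0) :
    mapPt h2K (ratMap (σ : Qbar →+* Qbar)) hA hB (mapPt h2K (ratMap (σ : Qbar →+* Qbar)) hA hB u)
      - ((ℓ : ℤ) + 1 - (Nat.card (Pt (((-27 * C4p c₄ c₆ τ : ℤ) : ZMod ℓ))
          (((-54 * C6p c₄ c₆ τ : ℤ) : ZMod ℓ))) : ℤ)) •
        mapPt h2K (ratMap (σ : Qbar →+* Qbar)) hA hB u + (ℓ : ℤ) • u = 0 := by
  classical
  have : Fact ℓ.Prime := ⟨hℓ⟩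
  have hprime : Prime (ℓ : ℤ) := Nat.prime_iff_prime_int.mp hℓ
  obtain ⟨hO𝔄, hπ𝔄⟩ := frob_facts 𝔄 σ hσ
  -- the residue field
  have hℓκ : ((ℓ : ℕ) : (IsLocalRing.ResidueField 𝔄)) = 0 := by
    have h1 : ((ℓ : ℕ) : 𝔄) ∈ IsLocalRing.maximalIdeal 𝔄 := by
      rw [IsLocalRing.mem_maximalIdeal, mem_nonunits_iff]
      intro hunit
      have := (ValuationSubring.mem_nonunits_iff_exists_mem_maximalIdeal).mp h𝔄
      obtain ⟨ha, hm⟩ := this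
      rw [IsLocalRing.mem_maximalIdeal, mem_nonunits_iff] at hm
      apply hm
      have e : (⟨((ℓ : ℕ) : Qbar), ha⟩ : 𝔄) = ((ℓ : ℕ) : 𝔄) := Subtype.ext (by simp)
      rw [e]; exact hunit
    have := (IsLocalRing.residue_eq_zero_iff _).mpr h1
    rwa [map_natCast] at this
  have : CharP (IsLocalRing.ResidueField 𝔄) ℓ := (CharP.charP_iff_prime_eq_zero hℓ).mpr hℓκ
  have hκint : ∀ n : ℤ, ¬ (ℓ : ℤ) ∣ n → ((n : ℤ) : (IsLocalRing.ResidueField 𝔄)) ≠ 0 := by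
    intro n hn h
    exact hn ((CharP.intCast_eq_zero_iff (IsLocalRing.ResidueField 𝔄) ℓ n).mp h)
  have hsmall : ∀ n : ℤ, 0 < n → n < 7 → ¬ (ℓ : ℤ) ∣ n := by
    intro n h0 h1 h
    have := Int.le_of_dvd h0 h
    omega
  have h2κ : (2 : (IsLocalRing.ResidueField 𝔄)) ≠ 0 := by simpa using hκint 2 (hsmall 2 (by norm_num) (by norm_num))
  have h3κ : (3 : (IsLocalRing.ResidueField 𝔄)) ≠ 0 := by simpa using hκint 3 (hsmall 3 (by norm_num) (by norm_num))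
  have h5κ : (5 : (IsLocalRing.ResidueField 𝔄)) ≠ 0 := by simpa using hκint 5 (hsmall 5 (by norm_num) (by norm_num))
  have h2Q : (2 : Qbar) ≠ 0 := by norm_num
  have h3Q : (3 : Qbar) ≠ 0 := by norm_num
  have h5Q : (5 : Qbar) ≠ 0 := by norm_num
  -- the integers
  obtain ⟨a, ha⟩ : ∃ a : ℤ, a = -27 * C4p c₄ c₆ τ := ⟨_, rfl⟩
  obtain ⟨b, hb⟩ : ∃ b : ℤ, b = -54 * C6p c₄ c₆ τ := ⟨_, rfl⟩
  rw [← ha, ← hb]
  have hdisc : ¬ (ℓ : ℤ) ∣ 4 * a ^ 3 + 27 * b ^ 2 := by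
    rw [ha, hb, disc_int]
    intro h
    rcases hprime.dvd_or_dvd h with h | h
    · have h6 : (ℓ : ℤ) ∣ 6 ^ 9 := h.trans (by norm_num)
      exact hsmall 6 (by norm_num) (by norm_num) (hprime.dvd_of_dvd_pow h6)
    · rcases hprime.dvd_or_dvd h with h | h
      · exact hgood (Dvd.dvd.mul_right h _)
      · exact hgood (Dvd.dvd.mul_left (hprime.dvd_of_dvd_pow h) _)
  -- first place
  let AO : evO (τ : Qbar) := ⟨algebraMap Qbar[X] (RatFunc Qbar) (pA c₄ c₆), algebraMap_mem_evO _ _⟩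
  let BO : evO (τ : Qbar) := ⟨algebraMap Qbar[X] (RatFunc Qbar) (pB c₄ c₆), algebraMap_mem_evO _ _⟩
  have hAO : evπ (τ : Qbar) AO = ((a : ℤ) : Qbar) := by
    rw [ha, ← pA_eval]; exact evπ_algebraMap _ _
  have hBO : evπ (τ : Qbar) BO = ((b : ℤ) : Qbar) := by
    rw [hb, ← pB_eval]; exact evπ_algebraMap _ _
  have hd₁ : evπ (τ : Qbar) (4 * AO ^ 3 + 27 * BO ^ 2) ≠ 0 := by
    rw [map_add, map_mul, map_mul, map_pow, map_pow, hAO, hBO, map_ofNat, map_ofNat]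
    have : (4 * ((a : ℤ) : Qbar) ^ 3 + 27 * ((b : ℤ) : Qbar) ^ 2) = ((4 * a ^ 3 + 27 * b ^ 2 : ℤ) : Qbar) := by
      push_cast; rfl
    rw [this]
    intro h
    apply hdisc
    have : (4 * a ^ 3 + 27 * b ^ 2 : ℤ) = 0 := by exact_mod_cast h
    rw [this]; exact dvd_zero _
  have hστ : (σ : Qbar →+* Qbar) (τ : Qbar) = τ := by simp
  -- second place
  have hA₂mem : evπ (τ : Qbar) AO ∈ 𝔄 := by rw [hAO]; exact intCast_mem 𝔄 a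
  have hB₂mem : evπ (τ : Qbar) BO ∈ 𝔄 := by rw [hBO]; exact intCast_mem 𝔄 b
  let A₂ : 𝔄 := ⟨evπ (τ : Qbar) AO, hA₂mem⟩
  let B₂ : 𝔄 := ⟨evπ (τ : Qbar) BO, hB₂mem⟩
  have hA₂ : A₂ = ((a : ℤ) : 𝔄) := Subtype.ext (by simpa [A₂] using hAO)
  have hB₂ : B₂ = ((b : ℤ) : 𝔄) := Subtype.ext (by simpa [B₂] using hBO)
  have hrA : IsLocalRing.residue 𝔄 A₂ = ((a : ℤ) : (IsLocalRing.ResidueField 𝔄)) := by rw [hA₂, map_intCast]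
  have hrB : IsLocalRing.residue 𝔄 B₂ = ((b : ℤ) : (IsLocalRing.ResidueField 𝔄)) := by rw [hB₂, map_intCast]
  have hd₂ : IsLocalRing.residue 𝔄 (4 * A₂ ^ 3 + 27 * B₂ ^ 2) ≠ 0 := by
    rw [map_add, map_mul, map_mul, map_pow, map_pow, hrA, hrB, map_ofNat, map_ofNat]
    have : (4 * ((a : ℤ) : (IsLocalRing.ResidueField 𝔄)) ^ 3 + 27 * ((b : ℤ) : (IsLocalRing.ResidueField 𝔄)) ^ 2) = ((4 * a ^ 3 + 27 * b ^ 2 : ℤ) : (IsLocalRing.ResidueField 𝔄)) := by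
      push_cast; rfl
    rw [this]
    exact hκint _ hdisc
  have hσA₂ : (σ : Qbar →+* Qbar) (evπ (τ : Qbar) AO) = evπ (τ : Qbar) AO := by rw [hAO]; simp
  have hσB₂ : (σ : Qbar →+* Qbar) (evπ (τ : Qbar) BO) = evπ (τ : Qbar) BO := by rw [hBO]; simp
  have hfA : frobenius (IsLocalRing.ResidueField 𝔄) ℓ (IsLocalRing.residue 𝔄 A₂) = IsLocalRing.residue 𝔄 A₂ := by
    rw [hrA]; simp
  have hfB : frobenius (IsLocalRing.ResidueField 𝔄) ℓ (IsLocalRing.residue 𝔄 B₂) = IsLocalRing.residue 𝔄 B₂ := by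
    rw [hrB]; simp
  refine fin_chain
    (red (evO (τ : Qbar)) (evπ (τ : Qbar)) h2Q AO BO hd₁)
    (red 𝔄 (IsLocalRing.residue 𝔄) h2κ A₂ B₂ hd₂)
    (mapPt h2K (ratMap (σ : Qbar →+* Qbar)) hA hB)
    (mapPt h2Q (σ : Qbar →+* Qbar) hσA₂ hσB₂)
    (mapPt h2κ (frobenius (IsLocalRing.ResidueField 𝔄) ℓ) hfA hfB)
    ?_ ?_ ?_ ?_ _ _ ?_ u hu
  · intro x
    exact red_mapPt (evO (τ : Qbar)) (evπ (τ : Qbar)) h2Q AO BO hd₁ h2K (ratMap (σ : Qbar →+* Qbar))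
      (σ : Qbar →+* Qbar) (fun g => ratMap_mem_evO_iff _ hστ g)
      (fun g h => evπ_ratMap _ hστ g h) hA hB hσA₂ hσB₂ x
  · intro x
    exact red_mapPt 𝔄 (IsLocalRing.residue 𝔄) h2κ A₂ B₂ hd₂ h2Q (σ : Qbar →+* Qbar)
      (frobenius (IsLocalRing.ResidueField 𝔄) ℓ) hO𝔄 (fun g h => hπ𝔄 g h) hσA₂ hσB₂ hfA hfB x
  · intro x hx h5x
    exact red_ne_zero_of_five _ _ h2Q AO BO hd₁ h3Q h5Q hx h5x
  · intro x hx h5x
    exact red_ne_zero_of_five _ _ h2κ A₂ B₂ hd₂ h3κ h5κ hx h5x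
  · intro Q hQ0 hQ5
    exact frob_relation' (by omega) h2κ a b (hκint _ hdisc) _ _ hrA hrB hfA hfB Q hQ0 hQ5



/-- (FIN) -/
theorem card_congr (c₄ c₆ μ : ℤ) {ℓ : ℕ} (hℓ : ℓ.Prime) (h7 : 7 ≤ ℓ)
    (hgood : ¬ (ℓ : ℤ) ∣ (c₄ ^ 3 - c₆ ^ 2) * Dp c₄ c₆ μ) :
    (5 : ℤ) ∣ (Nat.card (Pt (((-27 * C4p c₄ c₆ μ : ℤ) : ZMod ℓ))
        (((-54 * C6p c₄ c₆ μ : ℤ) : ZMod ℓ))) : ℤ)
      - (Nat.card (Pt (((-27 * c₄ : ℤ) : ZMod ℓ)) (((-54 * c₆ : ℤ) : ZMod ℓ))) : ℤ) := by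
  classical
  obtain ⟨𝔄, σ, h𝔄, hσ⟩ := FrobLib.exists_place_and_frobenius hℓ
  have hΔ0 : c₄ ^ 3 - c₆ ^ 2 ≠ 0 := by
    intro h
    apply hgood
    rw [h, zero_mul]
    exact dvd_zero _
  have hΔQ : (c₄ : Qbar) ^ 3 ≠ (c₆ : Qbar) ^ 2 := by
    intro h
    apply hΔ0
    have : ((c₄ ^ 3 - c₆ ^ 2 : ℤ) : Qbar) = 0 := by push_cast; rw [h, sub_self]
    exact_mod_cast this
  obtain ⟨u, hu0, hu5⟩ : ∃ u : Pt (algebraMap Qbar[X] (RatFunc Qbar) (pA c₄ c₆))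
      (algebraMap Qbar[X] (RatFunc Qbar) (pB c₄ c₆)), u ≠ 0 ∧ (5 : ℕ) • u = 0 := by
    rw [pA_algebraMap, pB_algebraMap]
    exact exists_generic_five (F := Qbar) (by norm_num) (by norm_num) (by norm_num)
      (c₄ : Qbar) (c₆ : Qbar) hΔQ
  have h2K : (2 : RatFunc Qbar) ≠ 0 := by
    have : (2 : RatFunc Qbar) = RatFunc.C (2 : Qbar) := (map_ofNat _ 2).symm
    rw [this]
    intro h
    have h' : (2 : Qbar) = 0 := RatFunc.C_injective (by rw [h, map_zero])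
    norm_num at h'
  have hA : ratMap (σ : Qbar →+* Qbar) (algebraMap Qbar[X] (RatFunc Qbar) (pA c₄ c₆))
      = algebraMap Qbar[X] (RatFunc Qbar) (pA c₄ c₆) := by
    rw [ratMap_algebraMap, pA_map]
  have hB : ratMap (σ : Qbar →+* Qbar) (algebraMap Qbar[X] (RatFunc Qbar) (pB c₄ c₆))
      = algebraMap Qbar[X] (RatFunc Qbar) (pB c₄ c₆) := by
    rw [ratMap_algebraMap, pB_map]
  have hgood0 : ¬ (ℓ : ℤ) ∣ (c₄ ^ 3 - c₆ ^ 2) * Dp c₄ c₆ 0 := by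
    rw [Dp_zero, mul_one]
    intro h
    exact hgood (Dvd.dvd.mul_right h _)
  have r0 := fin_one c₄ c₆ 0 hℓ h7 hgood0 𝔄 σ h𝔄 hσ h2K hA hB u hu5
  have rμ := fin_one c₄ c₆ μ hℓ h7 hgood 𝔄 σ h𝔄 hσ h2K hA hB u hu5
  rw [C4p_zero, C6p_zero] at r0
  set S := mapPt h2K (ratMap (σ : Qbar →+* Qbar)) hA hB with hS
  set N0 : ℤ := (Nat.card (Pt (((-27 * c₄ : ℤ) : ZMod ℓ)) (((-54 * c₆ : ℤ) : ZMod ℓ))) : ℤ) with hN0
  set Nμ : ℤ := (Nat.card (Pt (((-27 * C4p c₄ c₆ μ : ℤ) : ZMod ℓ))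
        (((-54 * C6p c₄ c₆ μ : ℤ) : ZMod ℓ))) : ℤ) with hNμ
  have hdiff : (Nμ - N0) • S u = 0 := by
    have : (Nμ - N0) • S u = (S (S u) - ((ℓ : ℤ) + 1 - Nμ) • S u + (ℓ : ℤ) • u)
        - (S (S u) - ((ℓ : ℤ) + 1 - N0) • S u + (ℓ : ℤ) • u) := by
      simp only [sub_smul, add_smul, one_smul]
      abel
    rw [this, r0, rμ, sub_zero]
  have hSu0 : S u ≠ 0 := by
    intro h
    apply hu0
    apply mapPt_injective h2K (ratMap (σ : Qbar →+* Qbar)) hA hB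
    rw [← hS, h, map_zero]
  have hSu5 : (5 : ℤ) • S u = 0 := by
    have : (5 : ℕ) • S u = 0 := by rw [← map_nsmul, hu5, map_zero]
    exact_mod_cast this
  by_contra hnd
  have hcop : IsCoprime (5 : ℤ) (Nμ - N0) := by
    have h5p : Prime (5 : ℤ) := by norm_num
    exact (Prime.coprime_iff_not_dvd h5p).mpr hnd
  obtain ⟨x, y, hxy⟩ := hcop
  apply hSu0
  have : S u = (x * 5 + y * (Nμ - N0)) • S u := by rw [hxy, one_smul]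
  rw [this, add_smul, mul_smul, mul_smul, hSu5, hdiff, smul_zero, smul_zero, add_zero]

end Fermat.Agent.S52Lib
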