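import Fermat.Agent.S52.Coprime

/-!
# S52: an auxiliary prime `p ∤ 30 Δ` and `n` with `p ‖ Dp c₄ c₆ n`
-/

set_option autoImplicit false

namespace Fermat.Agent.S52Lib

open Polynomial

theorem AuxPrime_Dp_poly_eq {R : Type*} [CommRing R] (c₄ c₆ : R) :
    Dp (C c₄) (C c₆) (X : R[X]) =
      C 1 + C (-66 * c₄) * X ^ 2 + C (440 * c₆) * X ^ 3 + X ^ 4 * (C (-1485 * c₄ ^ 2)
    + C (3168 * c₄ * c₆) * X
    + C (5940 * c₄ ^ 3 - 10560 * c₆ ^ 2) * X ^ 2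
    + C (4752 * c₄ ^ 2 * c₆) * X ^ 3
    + C (-66825 * c₄ ^ 4 + 63360 * c₄ * c₆ ^ 2) * X ^ 4
    + C (142560 * c₄ ^ 3 * c₆ - 140800 * c₆ ^ 3) * X ^ 5
    + C (-133650 * c₄ ^ 5 + 133056 * c₄ ^ 2 * c₆ ^ 2) * X ^ 6
    + C (61560 * c₄ ^ 4 * c₆ - 61440 * c₄ * c₆ ^ 3) * X ^ 7
    + C (91125 * c₄ ^ 6 - 193536 * c₄ ^ 3 * c₆ ^ 2 + 102400 * c₆ ^ 4) * X ^ 8) := by
  simp only [Dp, map_mul, map_add, map_sub, map_neg, map_pow, map_ofNat, map_one]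
  ring

theorem AuxPrime_coeff_zero {R : Type*} [CommRing R] (c₄ c₆ : R) :
    (Dp (C c₄) (C c₆) (X : R[X])).coeff 0 = 1 := by
  rw [AuxPrime_Dp_poly_eq]
  simp only [coeff_add, coeff_C_mul_X_pow, coeff_X_pow_mul', coeff_C]
  norm_num

theorem AuxPrime_coeff_two {R : Type*} [CommRing R] (c₄ c₆ : R) :
    (Dp (C c₄) (C c₆) (X : R[X])).coeff 2 = -66 * c₄ := by
  rw [AuxPrime_Dp_poly_eq]
  simp only [coeff_add, coeff_C_mul_X_pow, coeff_X_pow_mul', coeff_C]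
  norm_num

theorem AuxPrime_coeff_three {R : Type*} [CommRing R] (c₄ c₆ : R) :
    (Dp (C c₄) (C c₆) (X : R[X])).coeff 3 = 440 * c₆ := by
  rw [AuxPrime_Dp_poly_eq]
  simp only [coeff_add, coeff_C_mul_X_pow, coeff_X_pow_mul', coeff_C]
  norm_num

theorem AuxPrime_eval_Dp {R : Type*} [CommRing R] (c₄ c₆ t : R) :
    (Dp (C c₄) (C c₆) (X : R[X])).eval t = Dp c₄ c₆ t := by
  simp [Dp]

/-- there is a multiple `n` of `k ≠ 0` with `Dp n ∉ {0, 1, -1}` -/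
theorem AuxPrime_exists_value (c₄ c₆ k : ℤ) (hc : c₄ ≠ 0 ∨ c₆ ≠ 0) (hk : k ≠ 0) :
    ∃ s : ℤ, Dp c₄ c₆ (k * s) ≠ 0 ∧ Dp c₄ c₆ (k * s) ≠ 1 ∧ Dp c₄ c₆ (k * s) ≠ -1 := by
  set P : ℤ[X] := Dp (C c₄) (C c₆) (X : ℤ[X]) with hP
  have h0 : P ≠ 0 := by
    intro h
    have := AuxPrime_coeff_zero c₄ c₆
    rw [← hP, h] at this
    simp at this
  have h1 : P - 1 ≠ 0 := by
    intro h
    rcases hc with hc | hc
    · have := AuxPrime_coeff_two c₄ c₆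
      rw [← hP, sub_eq_zero.mp h] at this
      simp [coeff_one] at this
      exact hc this
    · have := AuxPrime_coeff_three c₄ c₆
      rw [← hP, sub_eq_zero.mp h] at this
      simp [coeff_one] at this
      exact hc this
  have h2 : P + 1 ≠ 0 := by
    intro h
    have := AuxPrime_coeff_zero c₄ c₆
    have h3 : (P + 1).coeff 0 = 0 := by rw [h]; simp
    rw [coeff_add, ← hP] at *
    rw [this] at h3
    simp at h3
  have hR : (P * (P - 1) * (P + 1)).comp (C k * X) ≠ 0 := by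
    intro h
    rw [comp_eq_zero_iff] at h
    rcases h with h | ⟨-, h⟩
    · exact mul_ne_zero (mul_ne_zero h0 h1) h2 h
    · have := congrArg (fun q : ℤ[X] => q.coeff 1) h
      simp at this
      exact hk this
  by_contra hcon
  apply hR
  apply Polynomial.funext
  intro s
  rw [eval_comp, eval_mul, eval_mul, eval_sub, eval_add, eval_mul, eval_C, eval_X, eval_one, hP,
    AuxPrime_eval_Dp, eval_zero]
  by_contra hne
  apply hcon
  refine ⟨s, ?_, ?_, ?_⟩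
  · intro h; apply hne; rw [h]; ring
  · intro h; apply hne; rw [h]; ring
  · intro h; apply hne; rw [h]; ring

/-- (AUX) -/
theorem exists_aux_prime (c₄ c₆ Δ : ℤ) (hrel : c₄ ^ 3 - c₆ ^ 2 = 1728 * Δ) (hΔ : Δ ≠ 0) :
    ∃ (p : ℕ) (n : ℤ), p.Prime ∧ ¬ (p : ℤ) ∣ 30 * Δ ∧ (p : ℤ) ∣ Dp c₄ c₆ n ∧
      ¬ (p : ℤ) ^ 2 ∣ Dp c₄ c₆ n := by
  have hc : c₄ ≠ 0 ∨ c₆ ≠ 0 := by
    by_contra h
    push Not at h
    obtain ⟨h4, h6⟩ := h
    rw [h4, h6] at hrel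
    apply hΔ
    have : 1728 * Δ = 0 := by rw [← hrel]; ring
    simpa using this
  have hk : 30 * Δ ≠ 0 := mul_ne_zero (by norm_num) hΔ
  obtain ⟨s, hs0, hs1, hs2⟩ := AuxPrime_exists_value c₄ c₆ (30 * Δ) hc hk
  set n₀ : ℤ := 30 * Δ * s with hn₀
  set P : ℤ[X] := Dp (C c₄) (C c₆) (X : ℤ[X]) with hP
  have hev : ∀ t : ℤ, P.eval t = Dp c₄ c₆ t := fun t => AuxPrime_eval_Dp c₄ c₆ t
  have hnat : (Dp c₄ c₆ n₀).natAbs ≠ 1 := by
    intro h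
    rcases Int.natAbs_eq (Dp c₄ c₆ n₀) with h' | h' <;> rw [h] at h'
    · exact hs1 (by simpa using h')
    · exact hs2 (by simpa using h')
  obtain ⟨p, hp, hpd⟩ := Nat.exists_prime_and_dvd hnat
  have hpD : (p : ℤ) ∣ Dp c₄ c₆ n₀ := Int.natCast_dvd.mpr hpd
  have hpZ : Prime (p : ℤ) := Nat.prime_iff_prime_int.mp hp
  have hpk : ¬ (p : ℤ) ∣ 30 * Δ := by
    intro h
    have h1 : (p : ℤ) ∣ n₀ - 0 := by rw [sub_zero, hn₀]; exact Dvd.dvd.mul_right h s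
    have h2 := h1.trans (Polynomial.sub_dvd_eval_sub n₀ 0 P)
    rw [hev, hev, Dp_zero] at h2
    have h3 := dvd_sub hpD h2
    rw [sub_sub_cancel] at h3
    exact hpZ.not_isUnit (isUnit_of_dvd_one h3)
  by_cases hsq : (p : ℤ) ^ 2 ∣ Dp c₄ c₆ n₀
  · refine ⟨p, n₀ + p, hp, hpk, ?_, ?_⟩
    · have h1 : (p : ℤ) ∣ (n₀ + p) - n₀ := by simp
      have h2 := h1.trans (Polynomial.sub_dvd_eval_sub (n₀ + p) n₀ P)
      rw [hev, hev] at h2
      have := dvd_add h2 hpD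
      simpa using this
    · intro hcon
      obtain ⟨k, hk'⟩ := Polynomial.binomExpansion P n₀ (p : ℤ)
      rw [hev, hev] at hk'
      have hsep := separable_int hp c₄ c₆ Δ n₀ hrel hpk hpD
      apply hsep
      have h1 : (p : ℤ) ^ 2 ∣ (derivative P).eval n₀ * p := by
        have e : (derivative P).eval n₀ * p = Dp c₄ c₆ (n₀ + p) - Dp c₄ c₆ n₀ - k * (p : ℤ) ^ 2 := by
          rw [hk']; ring
        rw [e]
        exact dvd_sub (dvd_sub hcon hsq) (dvd_mul_left _ _)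
      rw [pow_two, mul_comm ((derivative P).eval n₀)] at h1
      exact (mul_dvd_mul_iff_left hpZ.ne_zero).mp h1
  · exact ⟨p, n₀, hp, hpk, hpD, hsq⟩

end Fermat.Agent.S52Lib
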