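import Mathlib

/-!
# S52: a Hilbert-irreducibility type lemma

If a monic quartic whose coefficients are integer polynomials in `p ν` has, for every `ν : ℕ`, an
integer root `f ν` in a fixed residue class mod `p` which is a simple root mod `p`, then `f` is a
polynomial function.

Proof. (a) Newton iteration `g₁ = z₀`, `g_{k+1} = g_k - c F(g_k)` (`c` = inverse of `F'(z₀)` mod `p`)
gives integer polynomials `P_k` with `f ν ≡ P_k (p ν) mod p^k`; (b) so `p^k ∣ Δ^k f (0)` (`Δ^k` kills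
`ν^j`, `j < k`, and `p^j ν^j ≡ 0` for `j ≥ k`); (c) `|f ν| ≤ 1 + |a| + |b| + |c|` grows polynomially,
so `|Δ^k f(0)| ≤ 2^k C (1+k)^d < p^k` for `k` large, hence `Δ^k f (0) = 0`; (d) Newton's forward
difference formula (`shift_eq_sum_fwdDiff_iter`).
-/

set_option autoImplicit false

namespace Fermat.Agent.S52Lib

open Polynomial

theorem HIT_fwdDiff_cast (g : ℤ → ℤ) (k : ℕ) :
    (fwdDiff (1 : ℕ))^[k] (fun ν : ℕ => g ν) 0 = (fwdDiff (1 : ℤ))^[k] g 0 := by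
  rw [fwdDiff_iter_eq_sum_shift, fwdDiff_iter_eq_sum_shift]
  refine Finset.sum_congr rfl fun i _ => ?_
  simp

theorem HIT_dvd_poly (p : ℤ) (P : ℤ[X]) (k : ℕ) :
    p ^ k ∣ (fwdDiff (1 : ℤ))^[k] (fun x : ℤ => P.eval (p * x)) 0 := by
  induction P using Polynomial.induction_on' with
  | add P Q hP hQ =>
    have : (fun x : ℤ => (P + Q).eval (p * x))
        = (fun x : ℤ => P.eval (p * x)) + (fun x : ℤ => Q.eval (p * x)) := by
      ext x; simp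
    rw [this, fwdDiff_iter_add]
    exact dvd_add hP hQ
  | monomial j c =>
    have : (fun x : ℤ => (monomial j c).eval (p * x)) = (c * p ^ j) • (fun x : ℤ => x ^ j) := by
      ext x; simp [mul_pow, mul_assoc]
    rw [this, fwdDiff_iter_const_smul]
    rcases lt_or_ge j k with h | h
    · rw [fwdDiff_iter_pow_eq_zero_of_lt h]; simp
    · rw [Pi.smul_apply, smul_eq_mul]
      exact Dvd.dvd.mul_right (Dvd.dvd.mul_left (pow_dvd_pow p h) c) _

theorem HIT_approx {p : ℕ} (hp : p.Prime) (a b c : ℤ[X]) (z₀ : ℤ) (f : ℕ → ℤ)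
    (hroot : ∀ ν : ℕ, f ν ^ 4 + a.eval ((p : ℤ) * ν) * f ν ^ 2 + b.eval ((p : ℤ) * ν) * f ν
      + c.eval ((p : ℤ) * ν) = 0)
    (hz : ∀ ν, (p : ℤ) ∣ f ν - z₀)
    (hsimple : ¬ (p : ℤ) ∣ 4 * z₀ ^ 3 + 2 * a.eval 0 * z₀ + b.eval 0) (k : ℕ) :
    ∃ P : ℤ[X], ∀ ν : ℕ, (p : ℤ) ^ (k + 1) ∣ f ν - P.eval ((p : ℤ) * ν) := by
  have hpZ : Prime (p : ℤ) := Nat.prime_iff_prime_int.mp hp
  obtain ⟨c', hc'⟩ : ∃ c' : ℤ, (p : ℤ) ∣ 1 - c' * (4 * z₀ ^ 3 + 2 * a.eval 0 * z₀ + b.eval 0) := by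
    have hcop : IsCoprime (4 * z₀ ^ 3 + 2 * a.eval 0 * z₀ + b.eval 0) (p : ℤ) :=
      ((hpZ.irreducible.coprime_iff_not_dvd).mpr hsimple).symm
    obtain ⟨u, v, huv⟩ := hcop
    exact ⟨u, v, by linear_combination -huv⟩
  induction k with
  | zero =>
    refine ⟨C z₀, fun ν => ?_⟩
    simpa using hz ν
  | succ k ih =>
    obtain ⟨P, hP⟩ := ih
    refine ⟨P - C c' * (P ^ 4 + a * P ^ 2 + b * P + c), fun ν => ?_⟩
    set x : ℤ := (p : ℤ) * ν with hx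
    set g : ℤ := P.eval x with hg
    set t : ℤ := f ν with ht
    have h1 : (p : ℤ) ^ (k + 1) ∣ t - g := hP ν
    have hpg : (p : ℤ) ∣ t - g := (dvd_pow_self _ (Nat.succ_ne_zero k)).trans h1
    have htz : (p : ℤ) ∣ t - z₀ := hz ν
    have hgz : (p : ℤ) ∣ g - z₀ := by
      have := dvd_sub htz hpg
      simpa using this
    have ha : (p : ℤ) ∣ a.eval x - a.eval 0 := by
      have := Polynomial.sub_dvd_eval_sub x 0 a
      exact (by rw [sub_zero, hx]; exact dvd_mul_right _ _ : (p : ℤ) ∣ x - 0).trans this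
    have hb : (p : ℤ) ∣ b.eval x - b.eval 0 := by
      have := Polynomial.sub_dvd_eval_sub x 0 b
      exact (by rw [sub_zero, hx]; exact dvd_mul_right _ _ : (p : ℤ) ∣ x - 0).trans this
    set Q : ℤ := t ^ 3 + t ^ 2 * g + t * g ^ 2 + g ^ 3 + a.eval x * (t + g) + b.eval x with hQ
    have hQ' : (p : ℤ) ∣ 1 - c' * Q := by
      obtain ⟨u1, hu1⟩ := htz
      obtain ⟨u2, hu2⟩ := hgz
      obtain ⟨u3, hu3⟩ := ha
      obtain ⟨u4, hu4⟩ := hb
      have e1 : t = z₀ + p * u1 := by linear_combination hu1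
      have e2 : g = z₀ + p * u2 := by linear_combination hu2
      have e3 : a.eval x = a.eval 0 + p * u3 := by linear_combination hu3
      have e4 : b.eval x = b.eval 0 + p * u4 := by linear_combination hu4
      have : (p : ℤ) ∣ Q - (4 * z₀ ^ 3 + 2 * a.eval 0 * z₀ + b.eval 0) := by
        rw [hQ, e1, e2, e3, e4]
        refine ⟨(z₀ + p * u1) ^ 2 * u1 + (z₀ + p * u1) * z₀ * u1 + z₀ ^ 2 * u1
          + ((z₀ + p * u1) ^ 2 * u2 + (z₀ + p * u1) * z₀ * u1 + z₀ ^ 2 * u1)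
          + ((z₀ + p * u1) * (z₀ + p * u2) * u2 + (z₀ + p * u1) * z₀ * u2 + z₀ ^ 2 * u1)
          + ((z₀ + p * u2) ^ 2 * u2 + (z₀ + p * u2) * z₀ * u2 + z₀ ^ 2 * u2)
          + (a.eval 0 * (u1 + u2) + u3 * (2 * z₀ + p * u1 + p * u2)) + u4, ?_⟩
        ring
      have h3 := dvd_sub hc' (Dvd.dvd.mul_left this c')
      have h4 : 1 - c' * (4 * z₀ ^ 3 + 2 * a.eval 0 * z₀ + b.eval 0)
          - c' * (Q - (4 * z₀ ^ 3 + 2 * a.eval 0 * z₀ + b.eval 0)) = 1 - c' * Q := by ring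
      rwa [h4] at h3
    have hr : t ^ 4 + a.eval x * t ^ 2 + b.eval x * t + c.eval x = 0 := hroot ν
    have key : t - (P - C c' * (P ^ 4 + a * P ^ 2 + b * P + c)).eval x = (t - g) * (1 - c' * Q) := by
      simp only [eval_sub, eval_mul, eval_C, eval_add, eval_pow]
      rw [← hg, hQ]
      linear_combination c' * hr
    rw [key, pow_succ]
    exact mul_dvd_mul h1 hQ'

/-- (HITa) `p`-adic analyticity: `p ^ k ∣ Δ^k f (0)`. -/
theorem hit_dvd {p : ℕ} (hp : p.Prime) (a b c : ℤ[X]) (z₀ : ℤ) (f : ℕ → ℤ)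
    (hroot : ∀ ν : ℕ, f ν ^ 4 + a.eval ((p : ℤ) * ν) * f ν ^ 2 + b.eval ((p : ℤ) * ν) * f ν
      + c.eval ((p : ℤ) * ν) = 0)
    (hz : ∀ ν, (p : ℤ) ∣ f ν - z₀)
    (hsimple : ¬ (p : ℤ) ∣ 4 * z₀ ^ 3 + 2 * a.eval 0 * z₀ + b.eval 0) (k : ℕ) :
    (p : ℤ) ^ k ∣ (fwdDiff (1 : ℕ))^[k] f 0 := by
  obtain ⟨P, hP⟩ := HIT_approx hp a b c z₀ f hroot hz hsimple k
  have hP' : ∀ ν : ℕ, (p : ℤ) ^ k ∣ f ν - P.eval ((p : ℤ) * ν) := fun ν =>
    (pow_dvd_pow _ (Nat.le_succ k)).trans (hP ν)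
  choose e he using hP'
  have hf : f = (fun ν : ℕ => (fun x : ℤ => P.eval ((p : ℤ) * x)) ν) + ((p : ℤ) ^ k) • e := by
    ext ν
    simp only [Pi.add_apply, Pi.smul_apply, smul_eq_mul]
    linear_combination he ν
  rw [hf, fwdDiff_iter_add, fwdDiff_iter_const_smul, Pi.add_apply,
    HIT_fwdDiff_cast (fun x : ℤ => P.eval ((p : ℤ) * x)) k, Pi.smul_apply, smul_eq_mul]
  exact dvd_add (HIT_dvd_poly p P k) (dvd_mul_right _ _)

theorem HIT_abs_fwdDiff_le (f : ℕ → ℤ) (C d : ℕ) (hgrowth : ∀ ν : ℕ, |f ν| ≤ C * (1 + ν) ^ d)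
    (k : ℕ) : |(fwdDiff (1 : ℕ))^[k] f 0| ≤ 2 ^ k * (C * (1 + k) ^ d) := by
  rw [fwdDiff_iter_eq_sum_shift]
  calc |∑ i ∈ Finset.range (k + 1), ((-1 : ℤ) ^ (k - i) * (k.choose i : ℤ)) • f (0 + i • 1)|
      ≤ ∑ i ∈ Finset.range (k + 1), |((-1 : ℤ) ^ (k - i) * (k.choose i : ℤ)) • f (0 + i • 1)| :=
        Finset.abs_sum_le_sum_abs _ _
    _ ≤ ∑ i ∈ Finset.range (k + 1), (k.choose i : ℤ) * (C * (1 + k) ^ d) := by
        refine Finset.sum_le_sum fun i hi => ?_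
        have hik : i ≤ k := Nat.lt_succ_iff.mp (Finset.mem_range.mp hi)
        rw [smul_eq_mul, abs_mul, abs_mul, abs_pow, abs_neg, abs_one, one_pow, one_mul,
          Nat.abs_cast]
        refine mul_le_mul_of_nonneg_left ?_ (Nat.cast_nonneg _)
        have h1 : (0 + i • 1 : ℕ) = i := by simp
        rw [h1]
        refine (hgrowth i).trans ?_
        refine mul_le_mul_of_nonneg_left ?_ (Nat.cast_nonneg _)
        have : (1 + (i : ℤ)) ≤ 1 + k := by exact_mod_cast Nat.add_le_add_left hik 1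
        exact pow_le_pow_left₀ (by positivity) this d
    _ = 2 ^ k * (C * (1 + k) ^ d) := by
        rw [← Finset.sum_mul]
        congr 1
        exact_mod_cast Nat.sum_range_choose k

theorem HIT_eventually (C d : ℕ) :
    ∃ k₀ : ℕ, ∀ k ≥ k₀, (2 : ℤ) ^ k * (C * (1 + k) ^ d) < 3 ^ k := by
  have h := tendsto_pow_const_div_const_pow_of_one_lt d (r := (3 / 2 : ℝ)) (by norm_num)
  have hε : (0 : ℝ) < 1 / (2 * (C + 1)) := by positivity
  have h2 := (h.eventually (gt_mem_nhds hε))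
  obtain ⟨n₀, hn₀⟩ := Filter.eventually_atTop.mp h2
  refine ⟨n₀, fun k hk => ?_⟩
  have h3 := hn₀ (k + 1) (by omega)
  have hpos : (0 : ℝ) < (3 / 2 : ℝ) ^ (k + 1) := by positivity
  rw [div_lt_iff₀ hpos] at h3
  have h4 : ((2 : ℝ) ^ k * (C * (1 + k) ^ d)) < 3 ^ k := by
    have e1 : ((k + 1 : ℕ) : ℝ) = 1 + k := by push_cast; ring
    rw [e1] at h3
    have e2 : (3 / 2 : ℝ) ^ (k + 1) = 3 ^ k / 2 ^ k * (3 / 2) := by
      rw [pow_succ, div_pow]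
    rw [e2] at h3
    have h2k : (0 : ℝ) < 2 ^ k := by positivity
    have h3k : (0 : ℝ) < 3 ^ k := by positivity
    have hC : (0 : ℝ) ≤ C := Nat.cast_nonneg _
    calc (2 : ℝ) ^ k * (C * (1 + k) ^ d) ≤ 2 ^ k * (C * (1 / (2 * (C + 1)) * (3 ^ k / 2 ^ k * (3 / 2)))) := by
          gcongr
      _ = 3 ^ k * (C * 3 / (4 * (C + 1))) := by
          field_simp
          ring
      _ < 3 ^ k * 1 := by
          refine mul_lt_mul_of_pos_left ?_ h3k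
          rw [div_lt_one (by positivity)]
          linarith
      _ = 3 ^ k := mul_one _
  exact_mod_cast h4

/-- (HITb) an integer sequence of polynomial growth with `p ^ k ∣ Δ^k f (0)`, `p ≥ 3`, is a
polynomial. -/
theorem hit_poly {p : ℕ} (hp3 : 3 ≤ p) (f : ℕ → ℤ) (C d : ℕ)
    (hgrowth : ∀ ν : ℕ, |f ν| ≤ C * (1 + ν) ^ d)
    (hdvd : ∀ k : ℕ, (p : ℤ) ^ k ∣ (fwdDiff (1 : ℕ))^[k] f 0) :
    ∃ P : ℚ[X], ∀ ν : ℕ, (f ν : ℚ) = P.eval (ν : ℚ) := by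
  obtain ⟨k₀, hk₀⟩ := HIT_eventually C d
  have hzero : ∀ k ≥ k₀, (fwdDiff (1 : ℕ))^[k] f 0 = 0 := by
    intro k hk
    apply Int.eq_zero_of_abs_lt_dvd (hdvd k)
    refine (HIT_abs_fwdDiff_le f C d hgrowth k).trans_lt ((hk₀ k hk).trans_le ?_)
    exact pow_le_pow_left₀ (by norm_num) (by exact_mod_cast hp3) k
  refine ⟨∑ k ∈ Finset.range k₀,
    Polynomial.C (((fwdDiff (1 : ℕ))^[k] f 0 : ℤ) / (k.factorial : ℚ)) * descPochhammer ℚ k,
    fun ν => ?_⟩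
  have h1 := shift_eq_sum_fwdDiff_iter (1 : ℕ) f ν 0
  have h2 : (0 + ν • 1 : ℕ) = ν := by simp
  rw [h2] at h1
  have h3 : f ν = ∑ k ∈ Finset.range k₀, (ν.choose k : ℤ) * (fwdDiff (1 : ℕ))^[k] f 0 := by
    rw [h1]
    simp only [nsmul_eq_mul]
    rcases le_total (ν + 1) k₀ with h | h
    · refine Finset.sum_subset (Finset.range_subset_range.mpr h) fun k _ hk => ?_
      have : ν < k := by
        by_contra hlt
        exact hk (Finset.mem_range.mpr (by omega))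
      rw [Nat.choose_eq_zero_of_lt this]; simp
    · refine (Finset.sum_subset (Finset.range_subset_range.mpr h) fun k _ hk => ?_).symm
      have : k₀ ≤ k := by
        by_contra hlt
        exact hk (Finset.mem_range.mpr (by omega))
      rw [hzero k this]; simp
  rw [h3, Polynomial.eval_finsetSum]
  push_cast
  refine Finset.sum_congr rfl fun k _ => ?_
  rw [eval_mul, eval_C, descPochhammer_eval_eq_descFactorial, Nat.descFactorial_eq_factorial_mul_choose]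
  have : (k.factorial : ℚ) ≠ 0 := by exact_mod_cast k.factorial_ne_zero
  push_cast
  field_simp

theorem HIT_growth (p : ℕ) (P : ℤ[X]) :
    ∃ C d : ℕ, ∀ ν : ℕ, |P.eval ((p : ℤ) * ν)| ≤ C * (1 + ν) ^ d := by
  induction P using Polynomial.induction_on' with
  | add P Q hP hQ =>
    obtain ⟨C1, d1, h1⟩ := hP
    obtain ⟨C2, d2, h2⟩ := hQ
    refine ⟨C1 + C2, max d1 d2, fun ν => ?_⟩
    rw [eval_add]
    have hb : (1 : ℤ) ≤ 1 + ν := by have := Int.natCast_nonneg ν; linarith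
    calc |P.eval ((p : ℤ) * ν) + Q.eval ((p : ℤ) * ν)|
        ≤ |P.eval ((p : ℤ) * ν)| + |Q.eval ((p : ℤ) * ν)| := abs_add_le _ _
      _ ≤ C1 * (1 + ν) ^ d1 + C2 * (1 + ν) ^ d2 := add_le_add (h1 ν) (h2 ν)
      _ ≤ C1 * (1 + ν) ^ (max d1 d2) + C2 * (1 + ν) ^ (max d1 d2) := by
          have e1 : (1 + (ν : ℤ)) ^ d1 ≤ (1 + ν) ^ (max d1 d2) :=
            pow_le_pow_right₀ hb (le_max_left _ _)
          have e2 : (1 + (ν : ℤ)) ^ d2 ≤ (1 + ν) ^ (max d1 d2) :=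
            pow_le_pow_right₀ hb (le_max_right _ _)
          gcongr
      _ = ((C1 + C2 : ℕ) : ℤ) * (1 + ν) ^ (max d1 d2) := by push_cast; ring
  | monomial j c =>
    refine ⟨c.natAbs * p ^ j, j, fun ν => ?_⟩
    rw [eval_monomial, abs_mul, abs_pow, abs_mul, Nat.abs_cast, Nat.abs_cast, mul_pow]
    push_cast
    rw [Int.abs_eq_natAbs, mul_assoc]
    gcongr
    linarith

theorem HIT_root_bound (t a b c : ℤ) (h : t ^ 4 + a * t ^ 2 + b * t + c = 0) :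
    |t| ≤ 1 + |a| + |b| + |c| := by
  by_contra hlt
  push Not at hlt
  have ha := abs_nonneg a
  have hb := abs_nonneg b
  have hc := abs_nonneg c
  set T := |t| with hT
  have hT1 : 1 ≤ T := by linarith
  have h1 : T ^ 4 = |a * t ^ 2 + b * t + c| := by
    have : t ^ 4 = -(a * t ^ 2 + b * t + c) := by linear_combination h
    rw [hT, ← abs_pow, this, abs_neg]
  have h2 : |a * t ^ 2 + b * t + c| ≤ |a| * T ^ 2 + |b| * T + |c| := by
    calc |a * t ^ 2 + b * t + c| ≤ |a * t ^ 2 + b * t| + |c| := abs_add_le _ _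
      _ ≤ |a * t ^ 2| + |b * t| + |c| := by gcongr; exact abs_add_le _ _
      _ = |a| * T ^ 2 + |b| * T + |c| := by rw [abs_mul, abs_mul, abs_pow]
  have h3 : |a| * T ^ 2 + |b| * T + |c| ≤ (|a| + |b| + |c|) * T ^ 3 := by
    have e1 : T ^ 2 ≤ T ^ 3 := pow_le_pow_right₀ hT1 (by norm_num)
    have e2 : T ≤ T ^ 3 := by
      calc T = T ^ 1 := (pow_one T).symm
        _ ≤ T ^ 3 := pow_le_pow_right₀ hT1 (by norm_num)
    have e3 : 1 ≤ T ^ 3 := one_le_pow₀ hT1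
    nlinarith
  have h4 : T ^ 4 = T * T ^ 3 := by ring
  have h5 : 0 < T ^ 3 := by positivity
  nlinarith

/-- (HIT) -/
theorem hit {p : ℕ} (hp : p.Prime) (hp3 : 3 ≤ p) (a b c : ℤ[X]) (z₀ : ℤ) (f : ℕ → ℤ)
    (hroot : ∀ ν : ℕ, f ν ^ 4 + a.eval ((p : ℤ) * ν) * f ν ^ 2 + b.eval ((p : ℤ) * ν) * f ν
      + c.eval ((p : ℤ) * ν) = 0)
    (hz : ∀ ν, (p : ℤ) ∣ f ν - z₀)
    (hsimple : ¬ (p : ℤ) ∣ 4 * z₀ ^ 3 + 2 * a.eval 0 * z₀ + b.eval 0) :
    ∃ P : ℚ[X], ∀ ν : ℕ, (f ν : ℚ) = P.eval (ν : ℚ) := by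
  obtain ⟨C1, d1, h1⟩ := HIT_growth p a
  obtain ⟨C2, d2, h2⟩ := HIT_growth p b
  obtain ⟨C3, d3, h3⟩ := HIT_growth p c
  refine hit_poly hp3 f (1 + C1 + C2 + C3) (max d1 (max d2 d3)) (fun ν => ?_)
    (hit_dvd hp a b c z₀ f hroot hz hsimple)
  have hb : (1 : ℤ) ≤ 1 + ν := by have := Int.natCast_nonneg ν; linarith
  set D := max d1 (max d2 d3) with hD
  have e0 : (1 : ℤ) ≤ (1 + ν) ^ D := one_le_pow₀ hb
  have e1 : (1 + (ν : ℤ)) ^ d1 ≤ (1 + ν) ^ D := pow_le_pow_right₀ hb (le_max_left _ _)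
  have e2 : (1 + (ν : ℤ)) ^ d2 ≤ (1 + ν) ^ D :=
    pow_le_pow_right₀ hb ((le_max_left _ _).trans (le_max_right _ _))
  have e3 : (1 + (ν : ℤ)) ^ d3 ≤ (1 + ν) ^ D :=
    pow_le_pow_right₀ hb ((le_max_right _ _).trans (le_max_right _ _))
  calc |f ν| ≤ 1 + |a.eval ((p : ℤ) * ν)| + |b.eval ((p : ℤ) * ν)| + |c.eval ((p : ℤ) * ν)| :=
        HIT_root_bound _ _ _ _ (hroot ν)
    _ ≤ 1 + C1 * (1 + ν) ^ d1 + C2 * (1 + ν) ^ d2 + C3 * (1 + ν) ^ d3 := by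
        gcongr
        · exact h1 ν
        · exact h2 ν
        · exact h3 ν
    _ ≤ (1 + ν) ^ D + C1 * (1 + ν) ^ D + C2 * (1 + ν) ^ D + C3 * (1 + ν) ^ D := by
        gcongr
    _ = ((1 + C1 + C2 + C3 : ℕ) : ℤ) * (1 + ν) ^ D := by push_cast; ring

end Fermat.Agent.S52Lib
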