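import Fermat.Agent.S52.Coprime

/-!
# S52: the quartic of the family has no polynomial root
-/

set_option autoImplicit false

namespace Fermat.Agent.S52Lib

open Polynomial

theorem NPR_Dp_poly_eq {R : Type*} [CommRing R] (c₄ c₆ : R) :
    Dp (C c₄) (C c₆) (X : R[X]) =
      C 1 + C (-66 * c₄) * X ^ 2 + C (440 * c₆) * X ^ 3 + C (-1485 * c₄ ^ 2) * X ^ 4
    + C (3168 * c₄ * c₆) * X ^ 5
    + C (5940 * c₄ ^ 3 - 10560 * c₆ ^ 2) * X ^ 6
    + X ^ 7 * (C (4752 * c₄ ^ 2 * c₆)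
    + C (-66825 * c₄ ^ 4 + 63360 * c₄ * c₆ ^ 2) * X
    + C (142560 * c₄ ^ 3 * c₆ - 140800 * c₆ ^ 3) * X ^ 2
    + C (-133650 * c₄ ^ 5 + 133056 * c₄ ^ 2 * c₆ ^ 2) * X ^ 3
    + C (61560 * c₄ ^ 4 * c₆ - 61440 * c₄ * c₆ ^ 3) * X ^ 4
    + C (91125 * c₄ ^ 6 - 193536 * c₄ ^ 3 * c₆ ^ 2 + 102400 * c₆ ^ 4) * X ^ 5) := by
  simp only [Dp, map_mul, map_add, map_sub, map_neg, map_pow, map_ofNat, map_one]
  ring

theorem NPR_coeff_five {R : Type*} [CommRing R] (c₄ c₆ : R) :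
    (Dp (C c₄) (C c₆) (X : R[X])).coeff 5 = 3168 * c₄ * c₆ := by
  rw [NPR_Dp_poly_eq]
  simp only [coeff_add, coeff_C_mul_X_pow, coeff_X_pow_mul', coeff_C]
  norm_num

theorem NPR_coeff_six {R : Type*} [CommRing R] (c₄ c₆ : R) :
    (Dp (C c₄) (C c₆) (X : R[X])).coeff 6 = 5940 * c₄ ^ 3 - 10560 * c₆ ^ 2 := by
  rw [NPR_Dp_poly_eq]
  simp only [coeff_add, coeff_C_mul_X_pow, coeff_X_pow_mul', coeff_C]
  norm_num

theorem NPR_five_le (c₄ c₆ : ℚ) (h : c₄ ^ 3 ≠ c₆ ^ 2) :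
    5 ≤ (Dp (C c₄) (C c₆) (X : ℚ[X])).natDegree := by
  by_cases h0 : c₄ * c₆ = 0
  · refine le_trans (by norm_num) (le_natDegree_of_ne_zero (n := 6) ?_)
    rw [NPR_coeff_six]
    rcases mul_eq_zero.mp h0 with h1 | h1
    · rw [h1] at h ⊢
      intro h2
      apply h
      have : c₆ ^ 2 = 0 := by linarith
      rw [this]; ring
    · rw [h1] at h ⊢
      intro h2
      apply h
      have : c₄ ^ 3 = 0 := by linarith
      rw [this]; ring
  · refine le_natDegree_of_ne_zero (n := 5) ?_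
    rw [NPR_coeff_five, mul_assoc]
    exact mul_ne_zero (by norm_num) h0

set_option maxHeartbeats 1000000 in
theorem NPR_natDegree_C4p (c₄ c₆ : ℚ) : (C4p (C c₄) (C c₆) (X : ℚ[X])).natDegree ≤ 20 := by
  unfold C4p G4
  compute_degree

set_option maxHeartbeats 1000000 in
theorem NPR_natDegree_C6p (c₄ c₆ : ℚ) : (C6p (C c₄) (C c₆) (X : ℚ[X])).natDegree ≤ 30 := by
  unfold C6p G6
  compute_degree


section prime

variable (c₄ c₆ : ℚ) (π : ℚ[X])

theorem NPR_facts (h : c₄ ^ 3 ≠ c₆ ^ 2) (hπ : Irreducible π)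
    (hD : π ∣ Dp (C c₄) (C c₆) (X : ℚ[X])) :
    ¬ π ∣ C4p (C c₄) (C c₆) (X : ℚ[X]) ∧ ¬ π ∣ derivative (Dp (C c₄) (C c₆) (X : ℚ[X])) := by
  have : Fact (Irreducible π) := ⟨hπ⟩
  let F := AdjoinRoot π
  let φ : ℚ[X] →+* F := AdjoinRoot.mk π
  have hinj : Function.Injective (AdjoinRoot.of π) := (AdjoinRoot.of π).injective
  have hn : ∀ n : ℕ, n ≠ 0 → ((n : ℕ) : F) ≠ 0 := by
    intro n hn0 h0
    have h1 : AdjoinRoot.of π (n : ℚ) = 0 := by rw [map_natCast]; exact h0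
    have h2 : (n : ℚ) = 0 := hinj (by rw [h1, map_zero])
    exact hn0 (by exact_mod_cast h2)
  have h2 : (2 : F) ≠ 0 := by exact_mod_cast hn 2 (by norm_num)
  have h3 : (3 : F) ≠ 0 := by exact_mod_cast hn 3 (by norm_num)
  have h5 : (5 : F) ≠ 0 := by exact_mod_cast hn 5 (by norm_num)
  set a : F := AdjoinRoot.of π c₄ with ha
  set b : F := AdjoinRoot.of π c₆ with hb
  set t : F := AdjoinRoot.root π with ht
  have hΔ : a ^ 3 ≠ b ^ 2 := by
    intro hab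
    apply h
    apply hinj
    rw [map_pow, map_pow]
    exact hab
  have hφC : ∀ x : ℚ, φ (C x) = AdjoinRoot.of π x := fun x => rfl
  have hφX : φ X = t := rfl
  have hD0 : Dp a b t = 0 := by
    have h1 := map_Dp φ (C c₄) (C c₆) X
    rw [hφC, hφC, hφX] at h1
    rw [← h1]
    exact AdjoinRoot.mk_eq_zero.mpr hD
  refine ⟨fun hC => ?_, fun hd => ?_⟩
  · apply coprime_field h2 h3 h5 a b t hΔ hD0
    have h1 := map_C4p φ (C c₄) (C c₆) X
    rw [hφC, hφC, hφX] at h1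
    rw [← h1]
    exact AdjoinRoot.mk_eq_zero.mpr hC
  · apply separable_field h2 h3 h5 a b t hΔ hD0
    have h1 := map_Dp (mapRingHom (AdjoinRoot.of π)) (C c₄) (C c₆) X
    simp only [coe_mapRingHom, map_C, map_X] at h1
    rw [← h1, derivative_map, eval_map]
    have h4 : eval₂ (AdjoinRoot.of π) t (derivative (Dp (C c₄) (C c₆) (X : ℚ[X])))
        = φ (derivative (Dp (C c₄) (C c₆) (X : ℚ[X]))) := by
      have := AdjoinRoot.aeval_eq (f := π) (derivative (Dp (C c₄) (C c₆) (X : ℚ[X])))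
      rw [← this]
      rfl
    rw [h4]
    exact AdjoinRoot.mk_eq_zero.mpr hd

theorem NPR_not_dvd_C (hπ : Irreducible π) {x : ℚ} (hx : x ≠ 0) : ¬ π ∣ C x := fun h =>
  hπ.not_isUnit (isUnit_of_dvd_unit h (Polynomial.isUnit_C.mpr (isUnit_iff_ne_zero.mpr hx)))

end prime

theorem NPR_natDegree_le (C4 C6 R : ℚ[X]) (h4 : C4.natDegree ≤ 20) (h6 : C6.natDegree ≤ 30)
    (hq : quart C4 C6 R = 0) : R.natDegree ≤ 10 := by
  by_contra hlt
  push Not at hlt
  have e : R ^ 4 = C 6 * (C4 * R ^ 2) + C 8 * (C6 * R) + C 3 * C4 ^ 2 := by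
    have e6 : (C 6 : ℚ[X]) = 6 := map_ofNat C 6
    have e8 : (C 8 : ℚ[X]) = 8 := map_ofNat C 8
    have e3 : (C 3 : ℚ[X]) = 3 := map_ofNat C 3
    rw [e6, e8, e3]
    unfold quart at hq
    linear_combination hq
  have h1 : (R ^ 4).natDegree = 4 * R.natDegree := natDegree_pow R 4
  have h2 : (C 6 * (C4 * R ^ 2)).natDegree ≤ 20 + 2 * R.natDegree :=
    (natDegree_C_mul_le _ _).trans (natDegree_mul_le.trans
      (add_le_add h4 (natDegree_pow_le)))
  have h3 : (C 8 * (C6 * R)).natDegree ≤ 30 + R.natDegree :=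
    (natDegree_C_mul_le _ _).trans (natDegree_mul_le.trans (add_le_add h6 le_rfl))
  have h5 : (C 3 * C4 ^ 2).natDegree ≤ 40 :=
    (natDegree_C_mul_le _ _).trans (natDegree_pow_le.trans (by omega))
  have h7 : (C 6 * (C4 * R ^ 2) + C 8 * (C6 * R) + C 3 * C4 ^ 2).natDegree
      ≤ max (max (20 + 2 * R.natDegree) (30 + R.natDegree)) 40 :=
    (natDegree_add_le _ _).trans (max_le_max ((natDegree_add_le _ _).trans (max_le_max h2 h3)) h5)
  rw [← e, h1] at h7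
  rcases le_max_iff.mp h7 with h8 | h8
  · rcases le_max_iff.mp h8 with h9 | h9 <;> omega
  · omega

/-- (NPR) -/
theorem no_poly_root (c₄ c₆ : ℚ) (h : c₄ ^ 3 ≠ c₆ ^ 2) (R : ℚ[X]) :
    quart (C4p (C c₄) (C c₆) (X : ℚ[X])) (C6p (C c₄) (C c₆) X) R ≠ 0 := by
  intro hq
  set C4 : ℚ[X] := C4p (C c₄) (C c₆) (X : ℚ[X]) with hC4
  set C6 : ℚ[X] := C6p (C c₄) (C c₆) (X : ℚ[X]) with hC6
  set D : ℚ[X] := Dp (C c₄) (C c₆) (X : ℚ[X]) with hD
  set δ : ℚ := c₄ ^ 3 - c₆ ^ 2 with hδdef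
  have hδ : δ ≠ 0 := sub_ne_zero.mpr h
  have h64 : (64 : ℚ[X]) = C 64 := (map_ofNat C 64).symm
  have h8 : (8 : ℚ[X]) = C 8 := (map_ofNat C 8).symm
  have h9 : (9 : ℚ[X]) = C 9 := (map_ofNat C 9).symm
  have hsyz : C4 ^ 3 - C6 ^ 2 = C δ * D ^ 5 := by
    have := syzygy (C c₄) (C c₆) (X : ℚ[X])
    rw [hδdef, map_sub, map_pow, map_pow]
    exact this
  have hid : (R ^ 2 - C4) ^ 3 * (9 * C4 - R ^ 2) = 64 * R ^ 2 * (C δ * D ^ 5) := by
    have := quart_identity C4 C6 R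
    rw [hq, zero_mul, hsyz] at this
    linear_combination this
  set A : ℚ[X] := R ^ 2 - C4 with hA
  set B : ℚ[X] := 9 * C4 - R ^ 2 with hB
  have hdeg5 : 5 ≤ D.natDegree := NPR_five_le c₄ c₆ h
  have hD0 : D ≠ 0 := by
    intro h0
    rw [h0, natDegree_zero] at hdeg5
    omega
  have hcop : IsCoprime A D := by
    refine isCoprime_of_irreducible_dvd (fun hh => hD0 hh.2) fun π hπ hπA hπD => ?_
    have hπp : Prime π := hπ.prime
    obtain ⟨hn4, hnd⟩ := NPR_facts c₄ c₆ π h hπ hπD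
    have hnB : ¬ π ∣ B := by
      intro hπB
      have h1 : π ∣ C 8 * C4 := by
        have : C 8 * C4 = A + B := by rw [hA, hB, ← h8]; ring
        rw [this]
        exact dvd_add hπA hπB
      rcases hπp.dvd_or_dvd h1 with h2 | h2
      · exact NPR_not_dvd_C π hπ (by norm_num) h2
      · exact hn4 h2
    have hnR : ¬ π ∣ R := by
      intro hπR
      apply hn4
      have : C4 = R ^ 2 - A := by rw [hA]; ring
      rw [← hC4, this]
      exact dvd_sub (Dvd.dvd.pow hπR (by norm_num)) hπA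
    obtain ⟨D1, hD1⟩ := hπD
    have hnD1 : ¬ π ∣ D1 := by
      rintro ⟨E, hE⟩
      apply hnd
      rw [← hD, hD1, hE, derivative_mul, derivative_mul]
      exact ⟨derivative π * E + (derivative π * E + π * derivative E), by ring⟩
    obtain ⟨A1, hA1⟩ := hπA
    have hπ0 : π ≠ 0 := hπ.ne_zero
    have e1 : A1 ^ 3 * B = π ^ 2 * (64 * R ^ 2 * (C δ * D1 ^ 5)) := by
      have : π ^ 3 * (A1 ^ 3 * B) = π ^ 3 * (π ^ 2 * (64 * R ^ 2 * (C δ * D1 ^ 5))) := by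
        rw [hA1, hD1] at hid
        linear_combination hid
      exact mul_left_cancel₀ (pow_ne_zero 3 hπ0) this
    have hπA1 : π ∣ A1 := by
      have h1 : π ∣ A1 ^ 3 * B := by
        rw [e1]
        exact Dvd.dvd.mul_right (dvd_pow_self π (by norm_num)) _
      rcases hπp.dvd_or_dvd h1 with h2 | h2
      · exact hπp.dvd_of_dvd_pow h2
      · exact absurd h2 hnB
    obtain ⟨A2, hA2⟩ := hπA1
    have e2 : π * (A2 ^ 3 * B) = 64 * R ^ 2 * (C δ * D1 ^ 5) := by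
      have : π ^ 2 * (π * (A2 ^ 3 * B)) = π ^ 2 * (64 * R ^ 2 * (C δ * D1 ^ 5)) := by
        rw [hA2] at e1
        linear_combination e1
      exact mul_left_cancel₀ (pow_ne_zero 2 hπ0) this
    have h1 : π ∣ 64 * R ^ 2 * (C δ * D1 ^ 5) := ⟨_, e2.symm⟩
    rcases hπp.dvd_or_dvd h1 with h2 | h2
    · rcases hπp.dvd_or_dvd h2 with h3 | h3
      · rw [h64] at h3
        exact NPR_not_dvd_C π hπ (by norm_num) h3
      · exact hnR (hπp.dvd_of_dvd_pow h3)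
    · rcases hπp.dvd_or_dvd h2 with h3 | h3
      · exact NPR_not_dvd_C π hπ hδ h3
      · exact hnD1 (hπp.dvd_of_dvd_pow h3)
  have hdvd : D ^ 5 ∣ B := by
    have h1 : D ^ 5 ∣ A ^ 3 * B := by
      rw [hid]
      exact ⟨64 * R ^ 2 * C δ, by ring⟩
    exact (IsCoprime.pow (m := 5) (n := 3) hcop.symm).dvd_of_dvd_mul_left h1
  have h4 : C4.natDegree ≤ 20 := NPR_natDegree_C4p c₄ c₆
  have h6 : C6.natDegree ≤ 30 := NPR_natDegree_C6p c₄ c₆
  have hR : R.natDegree ≤ 10 := NPR_natDegree_le C4 C6 R h4 h6 hq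
  have hB0 : B = 0 := by
    by_contra hne
    have h1 := natDegree_le_of_dvd hdvd hne
    rw [natDegree_pow] at h1
    have h2 : B.natDegree ≤ 20 := by
      rw [hB, h9]
      refine (natDegree_sub_le _ _).trans (max_le ((natDegree_C_mul_le _ _).trans h4) ?_)
      exact natDegree_pow_le.trans (by omega)
    omega
  have hR0 : R = 0 := by
    rw [hB0, mul_zero] at hid
    have h1 : (64 : ℚ[X]) * R ^ 2 * (C δ * D ^ 5) = 0 := hid.symm
    rcases mul_eq_zero.mp h1 with h2 | h2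
    · rcases mul_eq_zero.mp h2 with h3 | h3
      · rw [h64] at h3
        exact absurd (C_eq_zero.mp h3) (by norm_num)
      · exact pow_eq_zero_iff (by norm_num) |>.mp h3
    · rcases mul_eq_zero.mp h2 with h3 | h3
      · exact absurd (C_eq_zero.mp h3) hδ
      · exact absurd (pow_eq_zero_iff (by norm_num) |>.mp h3) hD0
  have hC40 : C4 = 0 := by
    rw [hB, hR0, h9] at hB0
    have h1 : C 9 * C4 = 0 := by linear_combination hB0
    rcases mul_eq_zero.mp h1 with h2 | h2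
    · exact absurd (C_eq_zero.mp h2) (by norm_num)
    · exact h2
  obtain ⟨π, hπ, hπD⟩ := Polynomial.exists_irreducible_of_natDegree_pos (f := D) (by omega)
  exact (NPR_facts c₄ c₆ π h hπ hπD).1 (by rw [← hC4, hC40]; exact dvd_zero π)

/-- (NPR') -/
theorem no_poly_root' (c₄ c₆ : ℚ) (h : c₄ ^ 3 ≠ c₆ ^ 2) (μ₀ M : ℚ) (hM : M ≠ 0) (R : ℚ[X]) :
    quart (C4p (C c₄) (C c₆) (C μ₀ + C M * X : ℚ[X])) (C6p (C c₄) (C c₆) (C μ₀ + C M * X)) R ≠ 0 := by
  intro hq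
  let L' : ℚ[X] := C (-μ₀ / M) + C (1 / M) * X
  let φ : ℚ[X] →+* ℚ[X] := compRingHom L'
  have hφC : ∀ x : ℚ, φ (C x) = C x := fun x => by simp [φ]
  have hφL : φ (C μ₀ + C M * X) = X := by
    simp only [φ, coe_compRingHom_apply, add_comp, C_comp, mul_comp, X_comp, L']
    rw [mul_add, ← mul_assoc, ← C_mul, ← C_mul, ← add_assoc, ← C_add]
    have e1 : μ₀ + M * (-μ₀ / M) = 0 := by field_simp; ring
    have e2 : M * (1 / M) = 1 := by field_simp
    rw [e1, e2]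
    simp
  have h1 := map_quart φ (C4p (C c₄) (C c₆) (C μ₀ + C M * X : ℚ[X]))
    (C6p (C c₄) (C c₆) (C μ₀ + C M * X)) R
  rw [hq, map_zero, map_C4p, map_C6p, hφC, hφC, hφL] at h1
  exact no_poly_root c₄ c₆ h (φ R) h1.symm

end Fermat.Agent.S52Lib
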