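import Fermat.Agent.S52.Klein

/-!
# S52: functoriality of the family polynomials, the 3-division quartic
-/

set_option autoImplicit false

namespace Fermat.Agent.S52Lib

variable {R S : Type*} [CommRing R] [CommRing S]

theorem map_Dp (φ : R →+* S) (c₄ c₆ t : R) : φ (Dp c₄ c₆ t) = Dp (φ c₄) (φ c₆) (φ t) := by
  simp only [Dp, map_add, map_sub, map_mul, map_neg, map_pow, map_ofNat, map_one]

theorem map_G4 (φ : R →+* S) (c₄ c₆ t : R) : φ (G4 c₄ c₆ t) = G4 (φ c₄) (φ c₆) (φ t) := by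
  simp only [G4, map_add, map_sub, map_mul, map_neg, map_pow, map_ofNat, map_one]

theorem map_G6 (φ : R →+* S) (c₄ c₆ t : R) : φ (G6 c₄ c₆ t) = G6 (φ c₄) (φ c₆) (φ t) := by
  simp only [G6, map_add, map_sub, map_mul, map_neg, map_pow, map_ofNat, map_one]

theorem map_C4p (φ : R →+* S) (c₄ c₆ t : R) : φ (C4p c₄ c₆ t) = C4p (φ c₄) (φ c₆) (φ t) := by
  simp [C4p, map_G4]

theorem map_C6p (φ : R →+* S) (c₄ c₆ t : R) : φ (C6p c₄ c₆ t) = C6p (φ c₄) (φ c₆) (φ t) := by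
  simp [C6p, map_G6]

theorem Dp_zero (c₄ c₆ : R) : Dp c₄ c₆ 0 = 1 := by simp [Dp]

theorem C4p_zero (c₄ c₆ : R) : C4p c₄ c₆ 0 = c₄ := by simp [C4p]

theorem C6p_zero (c₄ c₆ : R) : C6p c₄ c₆ 0 = c₆ := by simp [C6p]

/-- the `3`-division quartic in terms of `c₄`, `c₆` (`x = 3 Z` on `y² = x³ - 27 c₄ x - 54 c₆`) -/
def quart (c₄ c₆ Z : R) : R := Z ^ 4 - 6 * c₄ * Z ^ 2 - 8 * c₆ * Z - 3 * c₄ ^ 2

theorem map_quart (φ : R →+* S) (c₄ c₆ Z : R) : φ (quart c₄ c₆ Z) = quart (φ c₄) (φ c₆) (φ Z) := by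
  simp only [quart, map_add, map_sub, map_mul, map_neg, map_pow, map_ofNat, map_one]

/-- key identity for roots of the quartic -/
theorem quart_identity (c₄ c₆ Z : R) :
    (Z ^ 2 - c₄) ^ 3 * (9 * c₄ - Z ^ 2) - 64 * Z ^ 2 * (c₄ ^ 3 - c₆ ^ 2)
      = quart c₄ c₆ Z * (quart c₄ c₆ Z - 2 * (Z ^ 4 - 6 * c₄ * Z ^ 2 - 3 * c₄ ^ 2)) := by
  unfold quart; ring

end Fermat.Agent.S52Lib
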