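import Fermat.Statements.S52
import Fermat.Agent.S52.Maps
import Fermat.Agent.S51.Rat3
import Fermat.Agent.S51.Nontriv3

/-!
# S52: a reducible mod 3 representation gives an integer root of the quartic; location of the root
modulo a prime of multiplicative reduction
-/

set_option autoImplicit false

namespace Fermat.Agent.S52Lib

open WeierstrassCurve WeierstrassCurve.Affine WeierstrassCurve.Affine.Point Polynomial

/-- a rational root of the (monic, integral) quartic is an integer -/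
theorem quart_int_of_rat (c₄ c₆ : ℤ) (z : ℚ) (hz : quart (c₄ : ℚ) (c₆ : ℚ) z = 0) :
    ∃ Z : ℤ, quart c₄ c₆ Z = 0 := by
  have hmonic : (X ^ 4 - C (6 * c₄) * X ^ 2 - C (8 * c₆) * X - C (3 * c₄ ^ 2) : ℤ[X]).Monic := by
    monicity!
  have hroot : aeval z (X ^ 4 - C (6 * c₄) * X ^ 2 - C (8 * c₆) * X - C (3 * c₄ ^ 2) : ℤ[X]) = 0 := by
    unfold quart at hz
    simp only [map_sub, aeval_C, aeval_X, aeval_X_pow, _root_.map_mul (aeval z)]
    simp only [eq_intCast]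
    push_cast
    linear_combination hz
  obtain ⟨Z, hZ⟩ := isInteger_of_is_root_of_monic hmonic hroot
  refine ⟨Z, ?_⟩
  have h1 := map_quart (Int.castRingHom ℚ) c₄ c₆ Z
  simp only [eq_intCast] at h1 hZ
  rw [hZ, hz] at h1
  exact_mod_cast h1

/-- (RT3) from `S51Lib.exists_rat_three` + `nontrivial_three` + rational root theorem -/
theorem exists_int_root_of_reducible (W : WeierstrassCurve ℤ) (hΔ : W.Δ ≠ 0)
    (h : ¬ W.ModRepIsIrreducible 3) : ∃ Z : ℤ, quart W.c₄ W.c₆ Z = 0 := by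
  have hΔE : (W.map (Int.castRingHom ℚ)).Δ ≠ 0 := by
    rw [WeierstrassCurve.map_Δ]
    simpa using hΔ
  have hc4 : (W.map (Int.castRingHom ℚ)).c₄ = (W.c₄ : ℚ) := by
    rw [WeierstrassCurve.map_c₄]; rfl
  have hc6 : (W.map (Int.castRingHom ℚ)).c₆ = (W.c₆ : ℚ) := by
    rw [WeierstrassCurve.map_c₆]; rfl
  unfold WeierstrassCurve.ModRepIsIrreducible GaloisRepIsIrreducible at h
  rw [not_and] at h
  have h3' := h (S51Lib.nontrivial_three _ hΔE)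
  push Not at h3'
  obtain ⟨N3, hN3, h30, h31⟩ := h3'
  obtain ⟨x0, hx0⟩ := S51Lib.exists_rat_three _ hΔE N3 hN3 h30 h31
  rw [hc4, hc6] at hx0
  apply quart_int_of_rat W.c₄ W.c₆ (x0 / 3)
  unfold quart
  linear_combination hx0 / 243

/-- (RTC) location of a root modulo a prime `p ≥ 5` with `ord_p Δ = 5`, `p ∤ c₄` -/
theorem root_congr {p : ℕ} (hp : p.Prime) (hp5 : 5 ≤ p) (c₄ c₆ Δ d Z : ℤ)
    (hrel : c₄ ^ 3 - c₆ ^ 2 = 1728 * Δ) (hZ : quart c₄ c₆ Z = 0) (hc₄ : ¬ (p : ℤ) ∣ c₄)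
    (hΔ : Δ = (p : ℤ) ^ 5 * d) (hd : ¬ (p : ℤ) ∣ d) :
    (p : ℤ) ∣ Z ^ 2 - 9 * c₄ ∧ (p : ℤ) ∣ c₆ * Z - 3 * c₄ ^ 2 := by
  have hprime : Prime (p : ℤ) := Nat.prime_iff_prime_int.mp hp
  have hsmall : ∀ n : ℤ, n ∣ 6 ^ 10 → n ≠ 0 → ¬ (p : ℤ) ∣ n := by
    intro n hn _ h
    have h6 : (p : ℤ) ∣ 6 := hprime.dvd_of_dvd_pow (h.trans hn)
    have := Int.le_of_dvd (by norm_num) h6
    have h23 : (p : ℤ) ∣ 2 * 3 := by simpa using h6
    rcases hprime.dvd_or_dvd h23 with h | h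
    · have := Int.le_of_dvd (by norm_num) h; omega
    · have := Int.le_of_dvd (by norm_num) h; omega
  have hid := quart_identity c₄ c₆ Z
  rw [hZ, zero_mul, hrel, hΔ] at hid
  -- `p ∤ Z`
  have hpZ : ¬ (p : ℤ) ∣ Z := by
    intro h
    obtain ⟨w, rfl⟩ := h
    have : (p : ℤ) ∣ 3 * c₄ ^ 2 := by
      unfold quart at hZ
      refine ⟨p ^ 3 * w ^ 4 - 6 * c₄ * p * w ^ 2 - 8 * c₆ * w, ?_⟩
      linear_combination -hZ
    rcases hprime.dvd_or_dvd this with h | h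
    · exact hsmall 3 (by norm_num) (by norm_num) h
    · exact hc₄ (hprime.dvd_of_dvd_pow h)
  -- `p ∤ Z² - c₄`
  have h1 : ¬ (p : ℤ) ∣ Z ^ 2 - c₄ := by
    rintro ⟨w, hw⟩
    have h9 : ¬ (p : ℤ) ∣ 9 * c₄ - Z ^ 2 := by
      intro h
      have : (p : ℤ) ∣ 8 * c₄ := by
        have := dvd_add h ⟨w, hw⟩
        have e : 9 * c₄ - Z ^ 2 + (Z ^ 2 - c₄) = 8 * c₄ := by ring
        rwa [e] at this
      rcases hprime.dvd_or_dvd this with h | h
      · exact hsmall 8 (by norm_num) (by norm_num) h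
      · exact hc₄ h
    rw [hw] at hid
    have hp0 : (p : ℤ) ≠ 0 := hprime.ne_zero
    have e1 : w ^ 3 * (9 * c₄ - Z ^ 2) = (p : ℤ) ^ 2 * (64 * Z ^ 2 * 1728 * d) := by
      have : (p : ℤ) ^ 3 * (w ^ 3 * (9 * c₄ - Z ^ 2)) = (p : ℤ) ^ 3 * ((p : ℤ) ^ 2 * (64 * Z ^ 2 * 1728 * d)) := by
        linear_combination hid
      exact mul_left_cancel₀ (pow_ne_zero _ hp0) this
    have hw' : (p : ℤ) ∣ w := by
      have : (p : ℤ) ∣ w ^ 3 * (9 * c₄ - Z ^ 2) := by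
        rw [e1]; exact ⟨p * (64 * Z ^ 2 * 1728 * d), by ring⟩
      rcases hprime.dvd_or_dvd this with h | h
      · exact hprime.dvd_of_dvd_pow h
      · exact absurd h h9
    obtain ⟨w', rfl⟩ := hw'
    have e2 : (p : ℤ) * (w' ^ 3 * (9 * c₄ - Z ^ 2)) = 64 * Z ^ 2 * 1728 * d := by
      have : (p : ℤ) ^ 2 * ((p : ℤ) * (w' ^ 3 * (9 * c₄ - Z ^ 2))) = (p : ℤ) ^ 2 * (64 * Z ^ 2 * 1728 * d) := by
        linear_combination e1
      exact mul_left_cancel₀ (pow_ne_zero _ hp0) this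
    have : (p : ℤ) ∣ 64 * Z ^ 2 * 1728 * d := ⟨_, e2.symm⟩
    rcases hprime.dvd_or_dvd this with h | h
    · rcases hprime.dvd_or_dvd h with h | h
      · rcases hprime.dvd_or_dvd h with h | h
        · exact hsmall 64 (by norm_num) (by norm_num) h
        · exact hpZ (hprime.dvd_of_dvd_pow h)
      · exact hsmall 1728 (by norm_num) (by norm_num) h
    · exact hd h
  have h2 : (p : ℤ) ∣ Z ^ 2 - 9 * c₄ := by
    have : (p : ℤ) ∣ (Z ^ 2 - c₄) ^ 3 * (9 * c₄ - Z ^ 2) := by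
      refine ⟨(p : ℤ) ^ 4 * (64 * Z ^ 2 * 1728 * d), ?_⟩
      linear_combination hid
    rcases hprime.dvd_or_dvd this with h | h
    · exact absurd (hprime.dvd_of_dvd_pow h) h1
    · have := (dvd_neg.mpr h)
      have e : -(9 * c₄ - Z ^ 2) = Z ^ 2 - 9 * c₄ := by ring
      rwa [e] at this
  refine ⟨h2, ?_⟩
  obtain ⟨k, hk⟩ := h2
  have : (p : ℤ) ∣ 8 * (c₆ * Z - 3 * c₄ ^ 2) := by
    unfold quart at hZ
    refine ⟨k * (Z ^ 2 + 3 * c₄), ?_⟩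
    linear_combination -hZ + (Z ^ 2 + 3 * c₄) * hk
  rcases hprime.dvd_or_dvd this with h | h
  · exact absurd h (hsmall 8 (by norm_num) (by norm_num))
  · exact h

/-- (RTS) such a root is simple modulo `p` -/
theorem root_simple {p : ℕ} (hp : p.Prime) (hp5 : 5 ≤ p) (c₄ c₆ Z : ℤ) (hc₄ : ¬ (p : ℤ) ∣ c₄)
    (h1 : (p : ℤ) ∣ Z ^ 2 - 9 * c₄) (h2 : (p : ℤ) ∣ c₆ * Z - 3 * c₄ ^ 2) :
    ¬ (p : ℤ) ∣ 4 * Z ^ 3 + 2 * (-6 * c₄) * Z + (-8 * c₆) := by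
  have hprime : Prime (p : ℤ) := Nat.prime_iff_prime_int.mp hp
  intro h
  obtain ⟨k1, hk1⟩ := h1
  obtain ⟨k2, hk2⟩ := h2
  obtain ⟨k3, hk3⟩ := h
  have : (p : ℤ) ∣ 192 * c₄ ^ 2 := by
    refine ⟨k3 * Z - 4 * k1 * (Z ^ 2 + 9 * c₄) + 12 * c₄ * k1 + 8 * k2, ?_⟩
    linear_combination Z * hk3 - 4 * (Z ^ 2 + 9 * c₄) * hk1 + 12 * c₄ * hk1 + 8 * hk2
  rcases hprime.dvd_or_dvd this with h | h
  · have h6 : (p : ℤ) ∣ 6 := hprime.dvd_of_dvd_pow (h.trans (by norm_num : (192 : ℤ) ∣ 6 ^ 6))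
    have h23 : (p : ℤ) ∣ 2 * 3 := by simpa using h6
    rcases hprime.dvd_or_dvd h23 with h | h
    · have := Int.le_of_dvd (by norm_num) h; omega
    · have := Int.le_of_dvd (by norm_num) h; omega
  · exact hc₄ (hprime.dvd_of_dvd_pow h)

end Fermat.Agent.S52Lib
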