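import Fermat.Agent.S52.Model
import Fermat.Agent.S52.Root
import Fermat.Agent.S52.HIT
import Fermat.Agent.S52.NoPolyRoot
import Fermat.Agent.S52.AuxPrime

/-!
# S52: some member of the family (in the right arithmetic progression) is irreducible mod 3
-/

set_option autoImplicit false

namespace Fermat.Agent.S52Lib

open WeierstrassCurve Polynomial

section evals

variable {R : Type*} [CommRing R]

theorem eval_Dp_lin (c₄ c₆ u v s : R) :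
    (Dp (C c₄) (C c₆) (C u + C v * X)).eval s = Dp c₄ c₆ (u + v * s) := by
  have h := map_Dp (evalRingHom s) (C c₄) (C c₆) (C u + C v * X)
  simpa using h

theorem eval_C4p_lin (c₄ c₆ u v s : R) :
    (C4p (C c₄) (C c₆) (C u + C v * X)).eval s = C4p c₄ c₆ (u + v * s) := by
  have h := map_C4p (evalRingHom s) (C c₄) (C c₆) (C u + C v * X)
  simpa using h

theorem eval_C6p_lin (c₄ c₆ u v s : R) :
    (C6p (C c₄) (C c₆) (C u + C v * X)).eval s = C6p c₄ c₆ (u + v * s) := by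
  have h := map_C6p (evalRingHom s) (C c₄) (C c₆) (C u + C v * X)
  simpa using h

theorem congr_Dp (c₄ c₆ s t q : R) (h : q ∣ s - t) : q ∣ Dp c₄ c₆ s - Dp c₄ c₆ t := by
  have h1 := eval_Dp_lin c₄ c₆ 0 1 s
  have h2 := eval_Dp_lin c₄ c₆ 0 1 t
  rw [zero_add, one_mul] at h1 h2
  rw [← h1, ← h2]
  exact h.trans (sub_dvd_eval_sub _ _ _)

theorem congr_C4p (c₄ c₆ s t q : R) (h : q ∣ s - t) : q ∣ C4p c₄ c₆ s - C4p c₄ c₆ t := by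
  have h1 := eval_C4p_lin c₄ c₆ 0 1 s
  have h2 := eval_C4p_lin c₄ c₆ 0 1 t
  rw [zero_add, one_mul] at h1 h2
  rw [← h1, ← h2]
  exact h.trans (sub_dvd_eval_sub _ _ _)

theorem congr_C6p (c₄ c₆ s t q : R) (h : q ∣ s - t) : q ∣ C6p c₄ c₆ s - C6p c₄ c₆ t := by
  have h1 := eval_C6p_lin c₄ c₆ 0 1 s
  have h2 := eval_C6p_lin c₄ c₆ 0 1 t
  rw [zero_add, one_mul] at h1 h2
  rw [← h1, ← h2]
  exact h.trans (sub_dvd_eval_sub _ _ _)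

end evals

/-- local analysis at the auxiliary prime for one member of the progression -/
theorem irr_local {p : ℕ} (hp : p.Prime) (hp5 : 5 ≤ p) (c₄ c₆ Δ n μ Z : ℤ)
    (hrel : c₄ ^ 3 - c₆ ^ 2 = 1728 * Δ) (hpΔ : ¬ (p : ℤ) ∣ 30 * Δ)
    (hpD : (p : ℤ) ∣ Dp c₄ c₆ n) (hpD2 : ¬ (p : ℤ) ^ 2 ∣ Dp c₄ c₆ n)
    (hμ : (p : ℤ) ^ 2 ∣ μ - n) (hZ : quart (C4p c₄ c₆ μ) (C6p c₄ c₆ μ) Z = 0) :
    ¬ (p : ℤ) ∣ C4p c₄ c₆ μ ∧ ¬ (p : ℤ) ∣ C6p c₄ c₆ μ ∧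
    (p : ℤ) ∣ Z ^ 2 - 9 * C4p c₄ c₆ μ ∧ (p : ℤ) ∣ C6p c₄ c₆ μ * Z - 3 * C4p c₄ c₆ μ ^ 2 := by
  have hprime : Prime (p : ℤ) := Nat.prime_iff_prime_int.mp hp
  have h2 := congr_Dp c₄ c₆ μ n _ hμ
  have hD1 : (p : ℤ) ∣ Dp c₄ c₆ μ := by
    have : (p : ℤ) ∣ Dp c₄ c₆ μ - Dp c₄ c₆ n := (Dvd.intro_left _ (by ring : (p : ℤ) * p = p ^ 2)).trans h2
    have := dvd_add this hpD
    rwa [sub_add_cancel] at this
  have hD2 : ¬ (p : ℤ) ^ 2 ∣ Dp c₄ c₆ μ := by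
    intro h
    apply hpD2
    have := dvd_sub h h2
    rwa [sub_sub_cancel] at this
  obtain ⟨e, he⟩ := hD1
  have hpe : ¬ (p : ℤ) ∣ e := by
    rintro ⟨e', rfl⟩
    apply hD2
    rw [he]
    exact ⟨e', by ring⟩
  have hpΔ' : ¬ (p : ℤ) ∣ Δ := fun h => hpΔ (Dvd.dvd.mul_left h _)
  have hc4 : ¬ (p : ℤ) ∣ C4p c₄ c₆ μ := coprime_int hp c₄ c₆ Δ μ hrel hpΔ ⟨e, he⟩
  have hsyz : C4p c₄ c₆ μ ^ 3 - C6p c₄ c₆ μ ^ 2 = 1728 * (Δ * Dp c₄ c₆ μ ^ 5) := by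
    rw [syzygy, hrel]; ring
  have hc6 : ¬ (p : ℤ) ∣ C6p c₄ c₆ μ := by
    intro h
    apply hc4
    apply hprime.dvd_of_dvd_pow (n := 3)
    have e1 : C4p c₄ c₆ μ ^ 3 = 1728 * (Δ * Dp c₄ c₆ μ ^ 5) + C6p c₄ c₆ μ ^ 2 := by
      rw [← hsyz]; ring
    rw [e1]
    apply dvd_add
    · rw [he]; exact ⟨1728 * Δ * p ^ 4 * e ^ 5, by ring⟩
    · exact Dvd.dvd.trans h (Dvd.intro_left _ (by ring : C6p c₄ c₆ μ * C6p c₄ c₆ μ = _))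
  have := root_congr hp hp5 (C4p c₄ c₆ μ) (C6p c₄ c₆ μ) (Δ * Dp c₄ c₆ μ ^ 5) (Δ * e ^ 5) Z hsyz hZ hc4
    (by rw [he]; ring)
    (by
      intro h
      rcases hprime.dvd_or_dvd h with h | h
      · exact hpΔ' h
      · exact hpe (hprime.dvd_of_dvd_pow h))
  exact ⟨hc4, hc6, this.1, this.2⟩

theorem irr_core (c₄ c₆ Δ : ℤ) (hrel : c₄ ^ 3 - c₆ ^ 2 = 1728 * Δ) (hΔ : Δ ≠ 0) :
    ∃ m : ℤ, 30 * Δ ∣ m ∧ Dp c₄ c₆ (1728 * m) ≠ 0 ∧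
      ∀ Z : ℤ, quart (C4p c₄ c₆ (1728 * m)) (C6p c₄ c₆ (1728 * m)) Z ≠ 0 := by
  by_contra hcon
  push Not at hcon
  obtain ⟨p, n, hp, hpΔ, hpD, hpD2⟩ := exists_aux_prime c₄ c₆ Δ hrel hΔ
  have hprime : Prime (p : ℤ) := Nat.prime_iff_prime_int.mp hp
  have hp30 : ¬ (p : ℤ) ∣ 30 := fun h => hpΔ (Dvd.dvd.mul_right h _)
  have hp5 : 5 ≤ p := by
    by_contra hlt
    push Not at hlt
    have h2 := hp.two_le
    interval_cases p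
    · exact hp30 (by norm_num)
    · exact hp30 (by norm_num)
    · exact absurd hp (by norm_num)
  have hpN : ¬ (p : ℤ) ∣ 1728 * (30 * Δ) := by
    intro h
    rcases hprime.dvd_or_dvd h with h | h
    · exact hp30 (hprime.dvd_of_dvd_pow (h.trans (by norm_num : (1728 : ℤ) ∣ 30 ^ 6)))
    · exact hpΔ h
  have hcop : IsCoprime (1728 * (30 * Δ)) ((p : ℤ) ^ 2) :=
    ((Prime.coprime_iff_not_dvd hprime).mpr hpN).symm.pow_right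
  obtain ⟨x, y, hxy⟩ := hcop
  obtain ⟨μ₀, hμ₀⟩ : ∃ μ₀ : ℤ, μ₀ = 1728 * (30 * Δ) * (x * n) := ⟨_, rfl⟩
  obtain ⟨M', hM'⟩ : ∃ M' : ℤ, M' = 1728 * (30 * Δ) * p := ⟨_, rfl⟩
  have hM'0 : M' ≠ 0 := by
    rw [hM']
    have : (p : ℤ) ≠ 0 := hprime.ne_zero
    positivity
  -- the progression
  have hprog : ∀ ν : ℤ, (p : ℤ) ^ 2 ∣ (μ₀ + M' * (p * ν)) - n := by
    intro ν
    refine ⟨1728 * (30 * Δ) * ν - n * y, ?_⟩
    have : n = n * (x * (1728 * (30 * Δ)) + y * (p : ℤ) ^ 2) := by rw [hxy, mul_one]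
    rw [hμ₀, hM']
    linear_combination -this
  have hD0 : ∀ ν : ℤ, Dp c₄ c₆ (μ₀ + M' * (p * ν)) ≠ 0 := by
    intro ν h
    apply hpD2
    have := congr_Dp c₄ c₆ _ n _ (hprog ν)
    rw [h, zero_sub] at this
    exact (dvd_neg.mp this)
  have hex : ∀ ν : ℕ, ∃ Z : ℤ, quart (C4p c₄ c₆ (μ₀ + M' * (p * ν))) (C6p c₄ c₆ (μ₀ + M' * (p * ν))) Z = 0 := by
    intro ν
    have e : μ₀ + M' * (p * ν) = 1728 * (30 * Δ * (x * n + p ^ 2 * ν)) := by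
      rw [hμ₀, hM']; ring
    have := hcon (30 * Δ * (x * n + p ^ 2 * ν)) (Dvd.intro _ rfl) (by rw [← e]; exact hD0 ν)
    rw [← e] at this
    exact this
  choose f hf using hex
  have hloc := fun ν : ℕ => irr_local hp hp5 c₄ c₆ Δ n _ (f ν) hrel hpΔ hpD hpD2 (hprog ν) (hf ν)
  -- apply HIT
  obtain ⟨P, hP⟩ := hit hp (by omega)
    (-6 * C4p (C c₄) (C c₆) (C μ₀ + C M' * X))
    (-8 * C6p (C c₄) (C c₆) (C μ₀ + C M' * X))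
    (-3 * C4p (C c₄) (C c₆) (C μ₀ + C M' * X) ^ 2) (f 0) f
    (by
      intro ν
      rw [eval_mul, eval_mul, eval_mul, eval_pow, eval_C4p_lin, eval_C6p_lin]
      have := hf ν
      unfold quart at this
      simp only [eval_neg, eval_ofNat]
      linear_combination this)
    (by
      intro ν
      obtain ⟨-, -, -, h1⟩ := hloc ν
      obtain ⟨-, h6, -, h0⟩ := hloc 0
      have hd : (p : ℤ) ∣ (μ₀ + M' * (p * (ν : ℤ))) - (μ₀ + M' * (p * ((0 : ℕ) : ℤ))) :=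
        ⟨M' * ν, by push_cast; ring⟩
      obtain ⟨k4, hk4⟩ := congr_C4p c₄ c₆ _ _ _ hd
      obtain ⟨k6, hk6⟩ := congr_C6p c₄ c₆ _ _ _ hd
      obtain ⟨j1, hj1⟩ := h1
      obtain ⟨j0, hj0⟩ := h0
      have : (p : ℤ) ∣ C6p c₄ c₆ (μ₀ + M' * (p * ((0 : ℕ) : ℤ))) * (f ν - f 0) := by
        refine ⟨j1 - j0 - k6 * f ν + 3 * k4 * (C4p c₄ c₆ (μ₀ + M' * (p * (ν : ℤ))) + C4p c₄ c₆ (μ₀ + M' * (p * ((0 : ℕ) : ℤ)))), ?_⟩
        linear_combination hj1 - hj0 - f ν * hk6 + 3 * (C4p c₄ c₆ (μ₀ + M' * (p * (ν : ℤ))) + C4p c₄ c₆ (μ₀ + M' * (p * ((0 : ℕ) : ℤ)))) * hk4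
      exact (hprime.dvd_or_dvd this).resolve_left h6)
    (by
      obtain ⟨h4, -, h1, h2⟩ := hloc 0
      have := root_simple hp hp5 _ _ (f 0) h4 h1 h2
      rw [eval_mul, eval_mul, eval_C4p_lin, eval_C6p_lin]
      simp only [eval_neg, eval_ofNat]
      simpa using this)
  -- the polynomial identity
  have hne : (c₄ : ℚ) ^ 3 ≠ (c₆ : ℚ) ^ 2 := by
    intro h
    apply hΔ
    have : ((c₄ ^ 3 - c₆ ^ 2 : ℤ) : ℚ) = 0 := by push_cast; rw [h, sub_self]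
    have h0 : c₄ ^ 3 - c₆ ^ 2 = 0 := by exact_mod_cast this
    rw [hrel] at h0
    omega
  have hMp : ((M' * p : ℤ) : ℚ) ≠ 0 := by
    have : M' * p ≠ 0 := mul_ne_zero hM'0 hprime.ne_zero
    exact_mod_cast this
  apply no_poly_root' (c₄ : ℚ) (c₆ : ℚ) hne (μ₀ : ℚ) ((M' * p : ℤ) : ℚ) hMp P
  apply eq_zero_of_infinite_isRoot
  apply Set.Infinite.mono _ (Set.infinite_range_of_injective (Nat.cast_injective (R := ℚ)))
  rintro _ ⟨ν, rfl⟩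
  show eval _ _ = 0
  have h1 := map_quart (evalRingHom (ν : ℚ)) (C4p (C (c₄ : ℚ)) (C (c₆ : ℚ)) (C (μ₀ : ℚ) + C ((M' * p : ℤ) : ℚ) * X))
    (C6p (C (c₄ : ℚ)) (C (c₆ : ℚ)) (C (μ₀ : ℚ) + C ((M' * p : ℤ) : ℚ) * X)) P
  simp only [coe_evalRingHom] at h1
  rw [h1, eval_C4p_lin, eval_C6p_lin, ← hP]
  have h2 := congrArg (Int.castRingHom ℚ) (hf ν)
  rw [map_quart, map_C4p, map_C6p, map_zero] at h2
  simp only [eq_intCast] at h2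
  rw [← h2]
  congr 2 <;> push_cast <;> ring

/-- (IRR) -/
theorem exists_irred (W : WeierstrassCurve ℤ) (hΔ : W.Δ ≠ 0) (hW : W.IsSemistableModel) :
    ∃ m : ℤ, 30 * W.Δ ∣ m ∧ Dp W.c₄ W.c₆ (1728 * m) ≠ 0 ∧ (famW W m).ModRepIsIrreducible 3 := by
  obtain ⟨m, hm, hD, hZ⟩ := irr_core W.c₄ W.c₆ W.Δ W.c_relation.symm hΔ
  refine ⟨m, hm, hD, ?_⟩
  by_contra hred
  have hΔ' : (famW W m).Δ ≠ 0 := by
    rw [famW_Δ]
    exact mul_ne_zero hΔ (pow_ne_zero _ hD)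
  obtain ⟨Z, hZ'⟩ := exists_int_root_of_reducible (famW W m) hΔ' hred
  rw [famW_c₄, famW_c₆] at hZ'
  exact hZ Z hZ'

end Fermat.Agent.S52Lib
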