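import Mathlib

/-!
# S52: the degree of a rational function; exact behaviour under the addition-subtraction forms
-/

set_option autoImplicit false

namespace Fermat.Agent.S52Lib

open Polynomial

section Forms
variable {R : Type*} [CommRing R]

/-- the biquadratic forms: `(x(P+Q) x(P-Q) : x(P+Q) + x(P-Q) : 1) = (AS0 : AS1 : AS2)` evaluated at
`(s₀ : s₁ : s₂) = (x(P) x(Q) : x(P) + x(Q) : 1)`, for `y² = x³ + A x + B` -/
def AS0 (A B s₀ s₁ s₂ : R) : R := s₀ ^ 2 - 2 * A * s₀ * s₂ - 4 * B * s₁ * s₂ + A ^ 2 * s₂ ^ 2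
def AS1 (A B s₀ s₁ s₂ : R) : R := 2 * s₀ * s₁ + 2 * A * s₁ * s₂ + 4 * B * s₂ ^ 2
def AS2 (s₀ s₁ s₂ : R) : R := s₁ ^ 2 - 4 * s₀ * s₂

end Forms

variable {F : Type*} [Field F]

/-- degree of a rational function (as a map `ℙ¹ → ℙ¹`) -/
noncomputable def rdeg (g : RatFunc F) : ℕ := max g.num.natDegree g.denom.natDegree

open Classical in
/-- degree of the point `(p : q)` of `ℙ¹(F(t))` -/
noncomputable def pdeg (p q : RatFunc F) : ℕ := if q = 0 then 0 else rdeg (p / q)

/-- (DG1) -/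
theorem rdeg_div_le (n d : F[X]) (hd : d ≠ 0) :
    rdeg (algebraMap F[X] (RatFunc F) n / algebraMap F[X] (RatFunc F) d)
      ≤ max n.natDegree d.natDegree := by
  by_cases hn : n = 0
  · subst hn
    simp [rdeg]
  · exact max_le_max (natDegree_le_of_dvd (RatFunc.num_div_dvd n hd) hn)
      (natDegree_le_of_dvd (RatFunc.denom_div_dvd n d) hd)

/-- (DG1) -/
theorem rdeg_div_of_coprime (n d : F[X]) (hd : d ≠ 0) (h : IsCoprime n d) :
    rdeg (algebraMap F[X] (RatFunc F) n / algebraMap F[X] (RatFunc F) d)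
      = max n.natDegree d.natDegree := by
  set g : RatFunc F := algebraMap F[X] (RatFunc F) n / algebraMap F[X] (RatFunc F) d with hg
  have key : g.num * d = n * g.denom := (RatFunc.num_mul_eq_mul_denom_iff hd).2 hg
  have h1 : g.num ∣ n := RatFunc.num_div_dvd n hd
  have h2 : g.denom ∣ d := RatFunc.denom_div_dvd n d
  have h3 : n ∣ g.num := h.dvd_of_dvd_mul_right (Dvd.intro _ key.symm)
  have h4 : d ∣ g.denom := h.symm.dvd_of_dvd_mul_left (Dvd.intro_left _ key)
  unfold rdeg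
  rw [natDegree_eq_of_degree_eq (degree_eq_degree_of_associated (associated_of_dvd_dvd h1 h3)),
    natDegree_eq_of_degree_eq (degree_eq_degree_of_associated (associated_of_dvd_dvd h2 h4))]

/-- (DG1) -/
theorem rdeg_eq_zero_iff (g : RatFunc F) : rdeg g = 0 ↔ ∃ c : F, g = RatFunc.C c := by
  unfold rdeg
  rw [Nat.max_eq_zero_iff, ← RatFunc.eq_C_iff]

/-- (DG1) -/
theorem rdeg_X_pow (n : ℕ) : rdeg ((RatFunc.X : RatFunc F) ^ n) = n := by
  have : (RatFunc.X : RatFunc F) ^ n = algebraMap F[X] (RatFunc F) (X ^ n) := by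
    rw [map_pow, RatFunc.algebraMap_X]
  rw [this, rdeg, RatFunc.num_algebraMap, RatFunc.denom_algebraMap]
  simp

/-- (DG2) primitive representatives: every point of `ℙ¹(F(t))` is `(n : d)` with `n`, `d` coprime
polynomials, and then `pdeg = max (deg n) (deg d)` -/
theorem exists_prim_rep (p q : RatFunc F) (h : p ≠ 0 ∨ q ≠ 0) :
    ∃ (n d : F[X]) (c : RatFunc F), c ≠ 0 ∧ IsCoprime n d ∧
      p = c * algebraMap F[X] (RatFunc F) n ∧ q = c * algebraMap F[X] (RatFunc F) d ∧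
      pdeg p q = max n.natDegree d.natDegree := by
  by_cases hq : q = 0
  · subst hq
    have hp : p ≠ 0 := by simpa using h
    exact ⟨1, 0, p, hp, isCoprime_one_left, by simp, by simp, by simp [pdeg]⟩
  · have hd : algebraMap F[X] (RatFunc F) (p / q).denom ≠ 0 :=
      RatFunc.algebraMap_ne_zero (RatFunc.denom_ne_zero _)
    refine ⟨(p / q).num, (p / q).denom, q / algebraMap F[X] (RatFunc F) (p / q).denom,
      div_ne_zero hq hd, RatFunc.isCoprime_num_denom _, ?_, ?_, by simp [pdeg, hq, rdeg]⟩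
    · have := RatFunc.num_div_denom (p / q)
      rw [div_mul_eq_mul_div, mul_div_assoc, this, mul_div_cancel₀ _ hq]
    · rw [div_mul_cancel₀ _ hd]


/-- auxiliary: a polynomial whose coefficient at its `natDegree` vanishes is zero -/
private theorem Deg_eq_zero_of_coeff {p : F[X]} {d : ℕ} (h : p.natDegree = d)
    (h0 : p.coeff d = 0) : p = 0 := by
  subst h
  exact leadingCoeff_eq_zero.1 h0

/-- auxiliary: top coefficients of a primitive pair do not both vanish -/
private theorem Deg_top_pair (n d : F[X]) (h : IsCoprime n d) :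
    n.coeff (max n.natDegree d.natDegree) ≠ 0 ∨ d.coeff (max n.natDegree d.natDegree) ≠ 0 := by
  by_contra hcon
  push Not at hcon
  obtain ⟨h1, h2⟩ := hcon
  have hz : n = 0 ∧ d = 0 := by
    rcases le_total n.natDegree d.natDegree with hle | hle
    · rw [max_eq_right hle] at h1 h2
      have hd : d = 0 := Deg_eq_zero_of_coeff rfl h2
      subst hd
      simp only [natDegree_zero, Nat.le_zero] at hle h1
      exact ⟨Deg_eq_zero_of_coeff hle h1, rfl⟩
    · rw [max_eq_left hle] at h1 h2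
      have hn : n = 0 := Deg_eq_zero_of_coeff rfl h1
      subst hn
      simp only [natDegree_zero, Nat.le_zero] at hle h2
      exact ⟨rfl, Deg_eq_zero_of_coeff hle h2⟩
  obtain ⟨rfl, rfl⟩ := hz
  exact not_isCoprime_zero_zero h

/-- auxiliary: top coefficients of a primitive triple do not all vanish -/
private theorem Deg_top_triple (s₀ s₁ s₂ : F[X])
    (h : Ideal.span {s₀, s₁, s₂} = (⊤ : Ideal F[X])) :
    s₀.coeff (max (max s₀.natDegree s₁.natDegree) s₂.natDegree) ≠ 0 ∨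
    s₁.coeff (max (max s₀.natDegree s₁.natDegree) s₂.natDegree) ≠ 0 ∨
    s₂.coeff (max (max s₀.natDegree s₁.natDegree) s₂.natDegree) ≠ 0 := by
  by_contra hcon
  push Not at hcon
  obtain ⟨h0, h1, h2⟩ := hcon
  set d := max (max s₀.natDegree s₁.natDegree) s₂.natDegree with hd
  have l0 : s₀.natDegree ≤ d := le_trans (le_max_left _ _) (le_max_left _ _)
  have l1 : s₁.natDegree ≤ d := le_trans (le_max_right _ _) (le_max_left _ _)
  have l2 : s₂.natDegree ≤ d := le_max_right _ _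
  have hd0 : d = 0 := by
    have : s₀.natDegree = d ∨ s₁.natDegree = d ∨ s₂.natDegree = d := by
      rcases max_choice (max s₀.natDegree s₁.natDegree) s₂.natDegree with e | e
      · rcases max_choice s₀.natDegree s₁.natDegree with e' | e'
        · left; rw [hd, e, e']
        · right; left; rw [hd, e, e']
      · right; right; rw [hd, e]
    rcases this with e | e | e
    · have := Deg_eq_zero_of_coeff e h0
      rw [this, natDegree_zero] at e; exact e.symm
    · have := Deg_eq_zero_of_coeff e h1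
      rw [this, natDegree_zero] at e; exact e.symm
    · have := Deg_eq_zero_of_coeff e h2
      rw [this, natDegree_zero] at e; exact e.symm
  have z0 : s₀ = 0 := Deg_eq_zero_of_coeff (by omega) h0
  have z1 : s₁ = 0 := Deg_eq_zero_of_coeff (by omega) h1
  have z2 : s₂ = 0 := Deg_eq_zero_of_coeff (by omega) h2
  rw [z0, z1, z2] at h
  have : Ideal.span {(0 : F[X]), 0, 0} = ⊥ := by simp
  rw [this] at h
  exact bot_ne_top h

/-- (DG3) "Gauss lemma": the symmetric square of two primitive pairs is a primitive triple, and the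
degrees add -/
theorem sym2_prim (n₁ d₁ n₂ d₂ : F[X]) (h₁ : IsCoprime n₁ d₁) (h₂ : IsCoprime n₂ d₂) :
    Ideal.span {n₁ * n₂, n₁ * d₂ + n₂ * d₁, d₁ * d₂} = (⊤ : Ideal F[X]) ∧
    max (max (n₁ * n₂).natDegree (n₁ * d₂ + n₂ * d₁).natDegree) (d₁ * d₂).natDegree
      = max n₁.natDegree d₁.natDegree + max n₂.natDegree d₂.natDegree := by
  constructor
  · by_contra hne
    obtain ⟨M, hM, hle⟩ := Ideal.exists_le_maximal _ hne
    have hP : M.IsPrime := hM.isPrime
    have m0 : n₁ * n₂ ∈ M := hle (Ideal.subset_span (by simp))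
    have m1 : n₁ * d₂ + n₂ * d₁ ∈ M := hle (Ideal.subset_span (by simp))
    have m2 : d₁ * d₂ ∈ M := hle (Ideal.subset_span (by simp))
    have c1 : ¬ (n₁ ∈ M ∧ d₁ ∈ M) := by
      rintro ⟨a, b⟩
      obtain ⟨u, v, huv⟩ := h₁
      exact hP.ne_top ((Ideal.eq_top_iff_one _).2
        (huv ▸ M.add_mem (M.mul_mem_left u a) (M.mul_mem_left v b)))
    have c2 : ¬ (n₂ ∈ M ∧ d₂ ∈ M) := by
      rintro ⟨a, b⟩
      obtain ⟨u, v, huv⟩ := h₂
      exact hP.ne_top ((Ideal.eq_top_iff_one _).2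
        (huv ▸ M.add_mem (M.mul_mem_left u a) (M.mul_mem_left v b)))
    rcases hP.mem_or_mem m0 with a | a
    · have b : d₁ ∉ M := fun b => c1 ⟨a, b⟩
      have c : d₂ ∈ M := (hP.mem_or_mem m2).resolve_left b
      have e : n₂ ∉ M := fun e => c2 ⟨e, c⟩
      have f : n₂ * d₁ ∈ M := by
        have := M.sub_mem m1 (M.mul_mem_right d₂ a)
        simpa using this
      rcases hP.mem_or_mem f with g | g
      · exact e g
      · exact b g
    · have b : d₂ ∉ M := fun b => c2 ⟨a, b⟩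
      have c : d₁ ∈ M := (hP.mem_or_mem m2).resolve_right b
      have e : n₁ ∉ M := fun e => c1 ⟨e, c⟩
      have f : n₁ * d₂ ∈ M := by
        have := M.sub_mem m1 (M.mul_mem_right d₁ a)
        simpa using this
      rcases hP.mem_or_mem f with g | g
      · exact e g
      · exact b g
  · set D₁ := max n₁.natDegree d₁.natDegree with hD₁
    set D₂ := max n₂.natDegree d₂.natDegree with hD₂
    have ln1 : n₁.natDegree ≤ D₁ := le_max_left _ _
    have ld1 : d₁.natDegree ≤ D₁ := le_max_right _ _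
    have ln2 : n₂.natDegree ≤ D₂ := le_max_left _ _
    have ld2 : d₂.natDegree ≤ D₂ := le_max_right _ _
    apply le_antisymm
    · refine max_le (max_le ?_ ?_) ?_
      · exact natDegree_mul_le_of_le ln1 ln2
      · refine natDegree_add_le_of_degree_le (natDegree_mul_le_of_le ln1 ld2) ?_
        rw [add_comm]
        exact natDegree_mul_le_of_le ln2 ld1
      · exact natDegree_mul_le_of_le ld1 ld2
    · have t1 := Deg_top_pair n₁ d₁ h₁
      have t2 := Deg_top_pair n₂ d₂ h₂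
      rw [← hD₁] at t1
      rw [← hD₂] at t2
      have k0 : (n₁ * n₂).coeff (D₁ + D₂) = n₁.coeff D₁ * n₂.coeff D₂ :=
        coeff_mul_add_eq_of_natDegree_le ln1 ln2
      have k2 : (d₁ * d₂).coeff (D₁ + D₂) = d₁.coeff D₁ * d₂.coeff D₂ :=
        coeff_mul_add_eq_of_natDegree_le ld1 ld2
      have k1 : (n₁ * d₂ + n₂ * d₁).coeff (D₁ + D₂)
          = n₁.coeff D₁ * d₂.coeff D₂ + n₂.coeff D₂ * d₁.coeff D₁ := by
        rw [coeff_add, coeff_mul_add_eq_of_natDegree_le ln1 ld2, add_comm D₁ D₂,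
          coeff_mul_add_eq_of_natDegree_le ln2 ld1]
      by_cases z0 : (n₁ * n₂).coeff (D₁ + D₂) = 0
      · by_cases z2 : (d₁ * d₂).coeff (D₁ + D₂) = 0
        · have z1 : (n₁ * d₂ + n₂ * d₁).coeff (D₁ + D₂) ≠ 0 := by
            rw [k1]
            rw [k0] at z0
            rw [k2] at z2
            rcases mul_eq_zero.1 z0 with a | a
            · have b : d₁.coeff D₁ ≠ 0 := t1.resolve_left (not_not.2 a)
              have c : d₂.coeff D₂ = 0 := (mul_eq_zero.1 z2).resolve_left b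
              have e : n₂.coeff D₂ ≠ 0 := t2.resolve_right (not_not.2 c)
              rw [a, zero_mul, zero_add]
              exact mul_ne_zero e b
            · have b : d₂.coeff D₂ ≠ 0 := t2.resolve_left (not_not.2 a)
              have c : d₁.coeff D₁ = 0 := (mul_eq_zero.1 z2).resolve_right b
              have e : n₁.coeff D₁ ≠ 0 := t1.resolve_right (not_not.2 c)
              rw [a, zero_mul, add_zero]
              exact mul_ne_zero e b
          exact le_trans (le_natDegree_of_ne_zero z1)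
            (le_trans (le_max_right _ _) (le_max_left _ _))
        · exact le_trans (le_natDegree_of_ne_zero z2) (le_max_right _ _)
      · exact le_trans (le_natDegree_of_ne_zero z0)
          (le_trans (le_max_left _ _) (le_max_left _ _))

private theorem Deg_cert0 {R : Type*} [CommRing R] (A B s t u : R) : ∃ c₀ c₁ c₂ : R,
    c₀ * AS0 A B s t u + c₁ * AS1 A B s t u + c₂ * AS2 s t u
      = -16 * (4 * A ^ 3 + 27 * B ^ 2) * s ^ 4 := by
  refine ⟨(-8 * (2 * A) ^ 3 - 27 * (4 * B) ^ 2) * s ^ 2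
      + (-2 * (2 * A) ^ 2 * (4 * B) - 10 * (4 * B) * (-A ^ 2)) * s * t
      + ((2 * A) * (4 * B) ^ 2) * s * u + (3 * (2 * A) ^ 2 * (-A ^ 2) - 3 * (2 * A) * (4 * B) ^ 2) * t ^ 2
      + (3 * (2 * A) * (4 * B) * (-A ^ 2) - 3 * (4 * B) ^ 3) * t * u,
    ((2 * A) ^ 2 * (4 * B) + 5 * (4 * B) * (-A ^ 2)) * s ^ 2
      + (-2 * (2 * A) * (4 * B) ^ 2 - 10 * (-A ^ 2) ^ 2) * s * t
      + ((2 * A) * (4 * B) * (-A ^ 2)) * s * u
      + (3 * (2 * A) * (4 * B) * (-A ^ 2) - 3 * (4 * B) ^ 3) * t ^ 2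
      + (3 * (2 * A) * (-A ^ 2) ^ 2 - 3 * (4 * B) ^ 2 * (-A ^ 2)) * t * u,
    (-8 * (2 * A) ^ 2 * (-A ^ 2) + 7 * (2 * A) * (4 * B) ^ 2) * s ^ 2
      + (-6 * (2 * A) * (4 * B) * (-A ^ 2) + 6 * (4 * B) ^ 3) * s * t
      + (-8 * (2 * A) * (-A ^ 2) ^ 2 + 8 * (4 * B) ^ 2 * (-A ^ 2)) * s * u, ?_⟩
  unfold AS0 AS1 AS2
  ring

private theorem Deg_cert1 {R : Type*} [CommRing R] (A B s t u : R) : ∃ c₀ c₁ c₂ : R,
    c₀ * AS0 A B s t u + c₁ * AS1 A B s t u + c₂ * AS2 s t u
      = -16 * (4 * A ^ 3 + 27 * B ^ 2) * t ^ 4 := by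
  refine ⟨96 * (4 * B) * s * t + (-64 * (-A ^ 2)) * t ^ 2 + 16 * (2 * A) * (4 * B) * t * u,
    -48 * (4 * B) * s ^ 2 + 32 * (-A ^ 2) * s * t + 16 * (2 * A) * (4 * B) * t ^ 2
      + 16 * (2 * A) * (-A ^ 2) * t * u,
    (-32 * (2 * A) * (4 * B)) * s * t + (-12 * (4 * B) ^ 2) * s * u
      + (-8 * (2 * A) ^ 3 - 27 * (4 * B) ^ 2) * t ^ 2, ?_⟩
  unfold AS0 AS1 AS2
  ring

private theorem Deg_cert2 {R : Type*} [CommRing R] (A B s t u : R) : ∃ c₀ c₁ c₂ : R,
    c₀ * AS0 A B s t u + c₁ * AS1 A B s t u + c₂ * AS2 s t u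
      = -16 * (4 * A ^ 3 + 27 * B ^ 2) * u ^ 4 := by
  refine ⟨-12 * t ^ 2 + (-32 * (2 * A)) * u ^ 2,
    6 * s * t - 5 * (2 * A) * t * u - 27 * (4 * B) * u ^ 2,
    -8 * (2 * A) * s * u - 12 * (4 * B) * t * u + ((2 * A) ^ 2 - 28 * (-A ^ 2)) * u ^ 2, ?_⟩
  unfold AS0 AS1 AS2
  ring

/-- (DG4) the forms `AS0, AS1, AS2` (with constant coefficients, nonzero discriminant) map primitive
triples to primitive triples and exactly double the degree -/
theorem as_prim (h2 : (2 : F) ≠ 0) (A B : F) (hd : 4 * A ^ 3 + 27 * B ^ 2 ≠ 0) (s₀ s₁ s₂ : F[X])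
    (h : Ideal.span {s₀, s₁, s₂} = (⊤ : Ideal F[X])) :
    Ideal.span {AS0 (C A) (C B) s₀ s₁ s₂, AS1 (C A) (C B) s₀ s₁ s₂, AS2 s₀ s₁ s₂}
      = (⊤ : Ideal F[X]) ∧
    max (max (AS0 (C A) (C B) s₀ s₁ s₂).natDegree (AS1 (C A) (C B) s₀ s₁ s₂).natDegree)
        (AS2 s₀ s₁ s₂).natDegree
      = 2 * max (max s₀.natDegree s₁.natDegree) s₂.natDegree := by
  have hΔ : (-16 * (4 * A ^ 3 + 27 * B ^ 2) : F) ≠ 0 := by
    have h16 : (16 : F) ≠ 0 := by
      have : (16 : F) = 2 ^ 4 := by norm_num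
      rw [this]; exact pow_ne_zero _ h2
    exact mul_ne_zero (neg_ne_zero.2 h16) hd
  constructor
  · set J : Ideal F[X] :=
      Ideal.span {AS0 (C A) (C B) s₀ s₁ s₂, AS1 (C A) (C B) s₀ s₁ s₂, AS2 s₀ s₁ s₂} with hJ
    have m0 : AS0 (C A) (C B) s₀ s₁ s₂ ∈ J := Ideal.subset_span (by simp)
    have m1 : AS1 (C A) (C B) s₀ s₁ s₂ ∈ J := Ideal.subset_span (by simp)
    have m2 : AS2 s₀ s₁ s₂ ∈ J := Ideal.subset_span (by simp)
    have hu : IsUnit (-16 * (4 * (C A) ^ 3 + 27 * (C B) ^ 2) : F[X]) := by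
      have : (-16 * (4 * (C A) ^ 3 + 27 * (C B) ^ 2) : F[X])
          = C (-16 * (4 * A ^ 3 + 27 * B ^ 2)) := by
        simp only [map_mul, map_add, map_pow, map_neg, map_ofNat]
      rw [this]
      exact (isUnit_iff_ne_zero.2 hΔ).map C
    have key : ∀ x : F[X], (∃ c₀ c₁ c₂ : F[X],
        c₀ * AS0 (C A) (C B) s₀ s₁ s₂ + c₁ * AS1 (C A) (C B) s₀ s₁ s₂ + c₂ * AS2 s₀ s₁ s₂
          = -16 * (4 * (C A) ^ 3 + 27 * (C B) ^ 2) * x ^ 4) → x ^ 4 ∈ J := by
      rintro x ⟨c₀, c₁, c₂, e⟩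
      have : -16 * (4 * (C A) ^ 3 + 27 * (C B) ^ 2) * x ^ 4 ∈ J := by
        rw [← e]
        exact J.add_mem (J.add_mem (J.mul_mem_left _ m0) (J.mul_mem_left _ m1))
          (J.mul_mem_left _ m2)
      exact (Ideal.unit_mul_mem_iff_mem J hu).1 this
    have p0 := key s₀ (Deg_cert0 _ _ _ _ _)
    have p1 := key s₁ (Deg_cert1 _ _ _ _ _)
    have p2 := key s₂ (Deg_cert2 _ _ _ _ _)
    have := Ideal.span_pow_eq_top _ h 4
    rw [eq_top_iff, ← this, Ideal.span_le]
    rintro _ ⟨x, hx, rfl⟩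
    simp only [Set.mem_insert_iff, Set.mem_singleton_iff] at hx
    rcases hx with rfl | rfl | rfl
    · exact p0
    · exact p1
    · exact p2
  · have top := Deg_top_triple s₀ s₁ s₂ h
    set d := max (max s₀.natDegree s₁.natDegree) s₂.natDegree with hdd
    have l0 : s₀.natDegree ≤ d := le_trans (le_max_left _ _) (le_max_left _ _)
    have l1 : s₁.natDegree ≤ d := le_trans (le_max_right _ _) (le_max_left _ _)
    have l2 : s₂.natDegree ≤ d := le_max_right _ _
    have r0 : AS0 (C A) (C B) s₀ s₁ s₂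
        = s₀ * s₀ - C (2 * A) * (s₀ * s₂) - C (4 * B) * (s₁ * s₂) + C (A ^ 2) * (s₂ * s₂) := by
      simp only [AS0, map_mul, map_pow, map_ofNat]; ring
    have r1 : AS1 (C A) (C B) s₀ s₁ s₂
        = C 2 * (s₀ * s₁) + C (2 * A) * (s₁ * s₂) + C (4 * B) * (s₂ * s₂) := by
      simp only [AS1, map_mul, map_ofNat]; ring
    have r2 : AS2 s₀ s₁ s₂ = s₁ * s₁ - C 4 * (s₀ * s₂) := by
      simp only [AS2, map_ofNat]; ring
    have two : 2 * d = d + d := two_mul d
    rw [two]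
    have b : ∀ (c : F) (p q : F[X]), p.natDegree ≤ d → q.natDegree ≤ d →
        (C c * (p * q)).natDegree ≤ d + d := fun c p q hp hq =>
      le_trans (natDegree_C_mul_le _ _) (natDegree_mul_le_of_le hp hq)
    have b' : ∀ (p q : F[X]), p.natDegree ≤ d → q.natDegree ≤ d →
        (p * q).natDegree ≤ d + d := fun p q hp hq => natDegree_mul_le_of_le hp hq
    have sb : ∀ (p q : F[X]), p.natDegree ≤ d + d → q.natDegree ≤ d + d →
        (p - q).natDegree ≤ d + d := fun p q hp hq =>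
      le_trans (natDegree_sub_le_of_le hp hq) (by simp)
    apply le_antisymm
    · refine max_le (max_le ?_ ?_) ?_
      · rw [r0]
        exact natDegree_add_le_of_degree_le (sb _ _ (sb _ _
          (b' _ _ l0 l0) (b _ _ _ l0 l2)) (b _ _ _ l1 l2)) (b _ _ _ l2 l2)
      · rw [r1]
        exact natDegree_add_le_of_degree_le (natDegree_add_le_of_degree_le
          (b _ _ _ l0 l1) (b _ _ _ l1 l2)) (b _ _ _ l2 l2)
      · rw [r2]
        exact sb _ _ (b' _ _ l1 l1) (b _ _ _ l0 l2)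
    · have cm : ∀ (p q : F[X]), p.natDegree ≤ d → q.natDegree ≤ d →
          (p * q).coeff (d + d) = p.coeff d * q.coeff d := fun p q hp hq =>
        coeff_mul_add_eq_of_natDegree_le hp hq
      have k0 : (AS0 (C A) (C B) s₀ s₁ s₂).coeff (d + d)
          = AS0 A B (s₀.coeff d) (s₁.coeff d) (s₂.coeff d) := by
        rw [r0]
        simp only [coeff_add, coeff_sub, coeff_C_mul, cm _ _ l0 l0, cm _ _ l0 l2, cm _ _ l1 l2,
          cm _ _ l2 l2, AS0]
        ring
      have k1 : (AS1 (C A) (C B) s₀ s₁ s₂).coeff (d + d)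
          = AS1 A B (s₀.coeff d) (s₁.coeff d) (s₂.coeff d) := by
        rw [r1]
        simp only [coeff_add, coeff_C_mul, cm _ _ l0 l1, cm _ _ l1 l2, cm _ _ l2 l2, AS1]
        ring
      have k2 : (AS2 s₀ s₁ s₂).coeff (d + d)
          = AS2 (s₀.coeff d) (s₁.coeff d) (s₂.coeff d) := by
        rw [r2]
        simp only [coeff_sub, coeff_C_mul, cm _ _ l1 l1, cm _ _ l0 l2, AS2]
        ring
      by_cases z0 : (AS0 (C A) (C B) s₀ s₁ s₂).coeff (d + d) = 0
      · by_cases z1 : (AS1 (C A) (C B) s₀ s₁ s₂).coeff (d + d) = 0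
        · by_cases z2 : (AS2 s₀ s₁ s₂).coeff (d + d) = 0
          · exfalso
            rw [k0] at z0
            rw [k1] at z1
            rw [k2] at z2
            have key : ∀ x : F, (∃ c₀ c₁ c₂ : F,
                c₀ * AS0 A B (s₀.coeff d) (s₁.coeff d) (s₂.coeff d)
                  + c₁ * AS1 A B (s₀.coeff d) (s₁.coeff d) (s₂.coeff d)
                  + c₂ * AS2 (s₀.coeff d) (s₁.coeff d) (s₂.coeff d)
                  = -16 * (4 * A ^ 3 + 27 * B ^ 2) * x ^ 4) → x = 0 := by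
              rintro x ⟨c₀, c₁, c₂, e⟩
              rw [z0, z1, z2] at e
              simp only [mul_zero, add_zero] at e
              have := (mul_eq_zero.1 e.symm).resolve_left hΔ
              exact pow_eq_zero_iff (by norm_num) |>.1 this
            have p0 := key _ (Deg_cert0 A B (s₀.coeff d) (s₁.coeff d) (s₂.coeff d))
            have p1 := key _ (Deg_cert1 A B (s₀.coeff d) (s₁.coeff d) (s₂.coeff d))
            have p2 := key _ (Deg_cert2 A B (s₀.coeff d) (s₁.coeff d) (s₂.coeff d))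
            rcases top with t | t | t
            · exact t p0
            · exact t p1
            · exact t p2
          · exact le_trans (le_natDegree_of_ne_zero z2) (le_max_right _ _)
        · exact le_trans (le_natDegree_of_ne_zero z1)
            (le_trans (le_max_right _ _) (le_max_left _ _))
      · exact le_trans (le_natDegree_of_ne_zero z0)
          (le_trans (le_max_left _ _) (le_max_left _ _))

/-- (DG5) two primitive triples which are proportional over `F(t)` have the same degree -/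
theorem prim_prop (a₀ a₁ a₂ b₀ b₁ b₂ : F[X]) (ha : Ideal.span {a₀, a₁, a₂} = (⊤ : Ideal F[X]))
    (hb : Ideal.span {b₀, b₁, b₂} = (⊤ : Ideal F[X])) (c : RatFunc F)
    (e₀ : algebraMap F[X] (RatFunc F) a₀ = c * algebraMap F[X] (RatFunc F) b₀)
    (e₁ : algebraMap F[X] (RatFunc F) a₁ = c * algebraMap F[X] (RatFunc F) b₁)
    (e₂ : algebraMap F[X] (RatFunc F) a₂ = c * algebraMap F[X] (RatFunc F) b₂) :
    max (max a₀.natDegree a₁.natDegree) a₂.natDegree
      = max (max b₀.natDegree b₁.natDegree) b₂.natDegree := by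
  have hcop : IsCoprime c.num c.denom := RatFunc.isCoprime_num_denom c
  have hdne : algebraMap F[X] (RatFunc F) c.denom ≠ 0 :=
    RatFunc.algebraMap_ne_zero (RatFunc.denom_ne_zero _)
  have tr : ∀ a b : F[X], algebraMap F[X] (RatFunc F) a = c * algebraMap F[X] (RatFunc F) b →
      c.denom * a = c.num * b := by
    intro a b e
    apply RatFunc.algebraMap_injective F
    rw [map_mul, map_mul, e]
    have hc' : c * algebraMap F[X] (RatFunc F) c.denom = algebraMap F[X] (RatFunc F) c.num := by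
      rw [← eq_div_iff hdne, RatFunc.num_div_denom]
    rw [← hc']
    ring
  have f₀ := tr _ _ e₀
  have f₁ := tr _ _ e₁
  have f₂ := tr _ _ e₂
  have ud : IsUnit c.denom := by
    have d : ∀ a b : F[X], c.denom * a = c.num * b → c.denom ∣ b := fun a b e =>
      hcop.symm.dvd_of_dvd_mul_left (Dvd.intro _ e)
    have : Ideal.span {b₀, b₁, b₂} ≤ Ideal.span {c.denom} := by
      rw [Ideal.span_le]
      intro x hx
      simp only [Set.mem_insert_iff, Set.mem_singleton_iff] at hx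
      rw [SetLike.mem_coe, Ideal.mem_span_singleton]
      rcases hx with rfl | rfl | rfl
      · exact d _ _ f₀
      · exact d _ _ f₁
      · exact d _ _ f₂
    rw [hb, top_le_iff] at this
    exact Ideal.span_singleton_eq_top.1 this
  have un : IsUnit c.num := by
    have d : ∀ a b : F[X], c.denom * a = c.num * b → c.num ∣ a := fun a b e =>
      hcop.dvd_of_dvd_mul_left (Dvd.intro _ e.symm)
    have : Ideal.span {a₀, a₁, a₂} ≤ Ideal.span {c.num} := by
      rw [Ideal.span_le]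
      intro x hx
      simp only [Set.mem_insert_iff, Set.mem_singleton_iff] at hx
      rw [SetLike.mem_coe, Ideal.mem_span_singleton]
      rcases hx with rfl | rfl | rfl
      · exact d _ _ f₀
      · exact d _ _ f₁
      · exact d _ _ f₂
    rw [ha, top_le_iff] at this
    exact Ideal.span_singleton_eq_top.1 this
  have dg : ∀ a b : F[X], c.denom * a = c.num * b → a.natDegree = b.natDegree := by
    intro a b e
    obtain ⟨r, hr, hr'⟩ := Polynomial.isUnit_iff.1 ud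
    obtain ⟨t, ht, ht'⟩ := Polynomial.isUnit_iff.1 un
    rw [← hr', ← ht'] at e
    have := congrArg natDegree e
    rwa [natDegree_C_mul hr.ne_zero, natDegree_C_mul ht.ne_zero] at this
  rw [dg _ _ f₀, dg _ _ f₁, dg _ _ f₂]

set_option linter.unusedVariables false in
/-- (DEG) the exact local-global parallelogram law for degrees -/
theorem deg_addsub (h2 : (2 : F) ≠ 0) (A B : F) (hd : 4 * A ^ 3 + 27 * B ^ 2 ≠ 0)
    (p₁ q₁ p₂ q₂ p₃ q₃ p₄ q₄ c : RatFunc F)
    (h₁ : p₁ ≠ 0 ∨ q₁ ≠ 0) (h₂ : p₂ ≠ 0 ∨ q₂ ≠ 0) (h₃ : p₃ ≠ 0 ∨ q₃ ≠ 0) (h₄ : p₄ ≠ 0 ∨ q₄ ≠ 0)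
    (hc : c ≠ 0)
    (e₀ : AS0 (RatFunc.C A) (RatFunc.C B) (p₁ * p₂) (p₁ * q₂ + p₂ * q₁) (q₁ * q₂) = c * (p₃ * p₄))
    (e₁ : AS1 (RatFunc.C A) (RatFunc.C B) (p₁ * p₂) (p₁ * q₂ + p₂ * q₁) (q₁ * q₂)
      = c * (p₃ * q₄ + p₄ * q₃))
    (e₂ : AS2 (p₁ * p₂) (p₁ * q₂ + p₂ * q₁) (q₁ * q₂) = c * (q₃ * q₄)) :
    pdeg p₃ q₃ + pdeg p₄ q₄ = 2 * pdeg p₁ q₁ + 2 * pdeg p₂ q₂ := by
  obtain ⟨n₁, d₁, c₁, hc₁, cop₁, rfl, rfl, D₁⟩ := exists_prim_rep p₁ q₁ h₁
  obtain ⟨n₂, d₂, c₂, hc₂, cop₂, rfl, rfl, D₂⟩ := exists_prim_rep p₂ q₂ h₂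
  obtain ⟨n₃, d₃, c₃, hc₃, cop₃, rfl, rfl, D₃⟩ := exists_prim_rep p₃ q₃ h₃
  obtain ⟨n₄, d₄, c₄, hc₄, cop₄, rfl, rfl, D₄⟩ := exists_prim_rep p₄ q₄ h₄
  rw [D₁, D₂, D₃, D₄]
  obtain ⟨P12, E12⟩ := sym2_prim n₁ d₁ n₂ d₂ cop₁ cop₂
  obtain ⟨P34, E34⟩ := sym2_prim n₃ d₃ n₄ d₄ cop₃ cop₄
  obtain ⟨PA, EA⟩ := as_prim h2 A B hd _ _ _ P12
  rw [← E34, ← mul_add, ← E12, ← EA]
  symm
  have hcc : c₁ * c₂ ≠ 0 := mul_ne_zero hc₁ hc₂
  refine prim_prop _ _ _ _ _ _ PA P34 (c * (c₃ * c₄) / (c₁ * c₂) ^ 2) ?_ ?_ ?_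
  · rw [div_mul_eq_mul_div, eq_div_iff (pow_ne_zero 2 hcc)]
    have : c * (c₃ * c₄) * algebraMap F[X] (RatFunc F) (n₃ * n₄)
        = c * (c₃ * algebraMap F[X] (RatFunc F) n₃ * (c₄ * algebraMap F[X] (RatFunc F) n₄)) := by
      rw [map_mul]; ring
    rw [this, ← e₀]
    simp only [AS0, map_add, map_sub, map_mul, map_pow, map_ofNat, RatFunc.algebraMap_C]
    ring
  · rw [div_mul_eq_mul_div, eq_div_iff (pow_ne_zero 2 hcc)]
    have : c * (c₃ * c₄) * algebraMap F[X] (RatFunc F) (n₃ * d₄ + n₄ * d₃)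
        = c * (c₃ * algebraMap F[X] (RatFunc F) n₃ * (c₄ * algebraMap F[X] (RatFunc F) d₄)
          + c₄ * algebraMap F[X] (RatFunc F) n₄ * (c₃ * algebraMap F[X] (RatFunc F) d₃)) := by
      rw [map_add, map_mul, map_mul]; ring
    rw [this, ← e₁]
    simp only [AS1, map_add, map_mul, map_pow, map_ofNat, RatFunc.algebraMap_C]
    ring
  · rw [div_mul_eq_mul_div, eq_div_iff (pow_ne_zero 2 hcc)]
    have : c * (c₃ * c₄) * algebraMap F[X] (RatFunc F) (d₃ * d₄)
        = c * (c₃ * algebraMap F[X] (RatFunc F) d₃ * (c₄ * algebraMap F[X] (RatFunc F) d₄)) := by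
      rw [map_mul]; ring
    rw [this, ← e₂]
    simp only [AS2, map_add, map_sub, map_mul, map_pow, map_ofNat]
    ring

end Fermat.Agent.S52Lib
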