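import Fermat.Agent.S52.SW
import Fermat.Agent.S52.Deg

/-!
# S52: the addition-subtraction map on `x`-coordinates does what it should
-/

set_option autoImplicit false

namespace Fermat.Agent.S52Lib

set_option linter.unusedSectionVars false

variable {K : Type*} [Field K] [DecidableEq K] {A B : K}

theorem AddSub_xr_zero : xr (0 : Pt A B) = (1, 0) := rfl

theorem AddSub_xr_of_co {P : Pt A B} {x y : K} (h : co P = some (x, y)) : xr P = (x, 1) := by
  unfold xr; rw [h]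

theorem AddSub_xr_neg (P : Pt A B) : xr (-P) = xr P := by
  rcases hP : co P with _ | ⟨x, y⟩
  · rw [co_eq_none.mp hP, neg_zero]
  · rw [AddSub_xr_of_co hP, AddSub_xr_of_co (co_neg hP)]

theorem AddSub_nonsing {P : Pt A B} {x : K} (h : co P = some (x, 0)) : 3 * x ^ 2 + A ≠ 0 := by
  cases P with
  | zero => simp [co] at h
  | some x' y' hns =>
    simp only [co, Option.some.injEq, Prod.mk.injEq] at h
    obtain ⟨rfl, rfl⟩ := h
    rw [WeierstrassCurve.Affine.nonsingular_iff'] at hns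
    intro h0
    rcases hns.2 with h1 | h1
    · apply h1
      simp only [SW]
      linear_combination -h0
    · apply h1
      simp [SW]

/-- the doubling case -/
theorem AddSub_dbl (h2 : (2 : K) ≠ 0) {P : Pt A B} {x y : K} (hP : co P = some (x, y)) :
    ∃ c : K, c ≠ 0 ∧
      AS0 A B (x * x) (x * 1 + x * 1) (1 * 1) = c * (xr (P + P)).1 ∧
      AS1 A B (x * x) (x * 1 + x * 1) (1 * 1) = c * (xr (P + P)).2 ∧
      AS2 (x * x) (x * 1 + x * 1) (1 * 1 : K) = 0 := by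
  have he := co_eqn hP
  by_cases hy : y = 0
  · subst hy
    rw [dbl_eq_zero h2 hP, AddSub_xr_zero]
    refine ⟨(3 * x ^ 2 + A) ^ 2, pow_ne_zero 2 (AddSub_nonsing hP), ?_, ?_, ?_⟩
    · simp only [AS0]
      linear_combination (8 * x) * he
    · simp only [AS1]
      linear_combination (-4 : K) * he
    · simp only [AS2]; ring
  · rw [AddSub_xr_of_co (co_dbl h2 hP hy)]
    refine ⟨4 * y ^ 2, ?_, ?_, ?_, ?_⟩
    · have h4 : (4 : K) ≠ 0 := by
        have : (4 : K) = 2 * 2 := by norm_num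
        rw [this]; exact mul_ne_zero h2 h2
      exact mul_ne_zero h4 (pow_ne_zero 2 hy)
    · simp only [AS0]
      field_simp
      linear_combination (32 * x) * he
    · simp only [AS1]
      linear_combination (-4 : K) * he
    · simp only [AS2]; ring

/-- (AS) -/
theorem addsub (h2 : (2 : K) ≠ 0) (P Q : Pt A B) : ∃ c : K, c ≠ 0 ∧
    AS0 A B ((xr P).1 * (xr Q).1) ((xr P).1 * (xr Q).2 + (xr Q).1 * (xr P).2) ((xr P).2 * (xr Q).2)
      = c * ((xr (P + Q)).1 * (xr (P - Q)).1) ∧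
    AS1 A B ((xr P).1 * (xr Q).1) ((xr P).1 * (xr Q).2 + (xr Q).1 * (xr P).2) ((xr P).2 * (xr Q).2)
      = c * ((xr (P + Q)).1 * (xr (P - Q)).2 + (xr (P - Q)).1 * (xr (P + Q)).2) ∧
    AS2 ((xr P).1 * (xr Q).1) ((xr P).1 * (xr Q).2 + (xr Q).1 * (xr P).2) ((xr P).2 * (xr Q).2)
      = c * ((xr (P + Q)).2 * (xr (P - Q)).2) := by
  rcases hP : co P with _ | ⟨x₁, y₁⟩
  · -- `P = 0`
    rw [co_eq_none.mp hP, zero_add, zero_sub, AddSub_xr_neg, AddSub_xr_zero]
    refine ⟨1, one_ne_zero, ?_, ?_, ?_⟩ <;> simp only [AS0, AS1, AS2] <;> ring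
  rcases hQ : co Q with _ | ⟨x₂, y₂⟩
  · -- `Q = 0`
    rw [co_eq_none.mp hQ, add_zero, sub_zero, AddSub_xr_zero]
    refine ⟨1, one_ne_zero, ?_, ?_, ?_⟩ <;> simp only [AS0, AS1, AS2] <;> ring
  have e₁ := co_eqn hP
  have e₂ := co_eqn hQ
  rw [AddSub_xr_of_co hP, AddSub_xr_of_co hQ]
  by_cases hx : x₁ = x₂
  · subst hx
    rcases eq_or_eq_neg hP hQ with h | h
    · -- `P = Q`
      subst h
      obtain ⟨c, hc, a0, a1, a2⟩ := AddSub_dbl h2 hP
      rw [sub_self, AddSub_xr_zero]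
      refine ⟨c, hc, ?_, ?_, ?_⟩
      · rw [a0]; ring
      · rw [a1]; ring
      · rw [a2]; ring
    · -- `P = -Q`
      have hQ' : Q = -P := by rw [h, neg_neg]
      subst hQ'
      obtain ⟨c, hc, a0, a1, a2⟩ := AddSub_dbl h2 hP
      rw [add_neg_cancel, sub_neg_eq_add, AddSub_xr_zero]
      refine ⟨c, hc, ?_, ?_, ?_⟩
      · rw [a0]; ring
      · rw [a1]; ring
      · rw [a2]; ring
  · have hd : x₁ - x₂ ≠ 0 := sub_ne_zero.mpr hx
    rw [sub_eq_add_neg, AddSub_xr_of_co (co_add_of_ne hP hQ hx),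
      AddSub_xr_of_co (co_add_of_ne hP (co_neg hQ) hx)]
    refine ⟨(x₁ - x₂) ^ 2, pow_ne_zero 2 hd, ?_, ?_, ?_⟩
    · simp only [AS0]
      field_simp
      have key : ((y₁ - y₂) ^ 2 - x₁ * (x₁ - x₂) ^ 2 - x₂ * (x₁ - x₂) ^ 2) *
          ((y₁ - -y₂) ^ 2 - x₁ * (x₁ - x₂) ^ 2 - x₂ * (x₁ - x₂) ^ 2)
          = (y₁ ^ 2 - y₂ ^ 2) ^ 2 - 2 * (x₁ + x₂) * (x₁ - x₂) ^ 2 * (y₁ ^ 2 + y₂ ^ 2)
            + (x₁ + x₂) ^ 2 * (x₁ - x₂) ^ 4 := by ring
      rw [key, e₁, e₂]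
      ring
    · simp only [AS1]
      field_simp
      linear_combination (-2 : K) * e₁ - 2 * e₂
    · simp only [AS2]; ring

end Fermat.Agent.S52Lib
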