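import Fermat.Agent.S52.ExistsV
import Fermat.Agent.S52.KleinC4
import Fermat.Agent.S52.Ident

/-!
# S52: `Dp` and `C4p` have no common zero; `Dp` is separable
-/

set_option autoImplicit false

namespace Fermat.Agent.S52Lib

open Polynomial

/-- `∂ Dp / ∂ t` -/
def COP_DpD {R : Type*} [CommRing R] (c₄ c₆ t : R) : R :=
    (-66 * c₄) * (2 * t)
    + (440 * c₆) * (3 * t ^ 2)
    + (-1485 * c₄ ^ 2) * (4 * t ^ 3)
    + (3168 * c₄ * c₆) * (5 * t ^ 4)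
    + (5940 * c₄ ^ 3 - 10560 * c₆ ^ 2) * (6 * t ^ 5)
    + (4752 * c₄ ^ 2 * c₆) * (7 * t ^ 6)
    + (-66825 * c₄ ^ 4 + 63360 * c₄ * c₆ ^ 2) * (8 * t ^ 7)
    + (142560 * c₄ ^ 3 * c₆ - 140800 * c₆ ^ 3) * (9 * t ^ 8)
    + (-133650 * c₄ ^ 5 + 133056 * c₄ ^ 2 * c₆ ^ 2) * (10 * t ^ 9)
    + (61560 * c₄ ^ 4 * c₆ - 61440 * c₄ * c₆ ^ 3) * (11 * t ^ 10)
    + (91125 * c₄ ^ 6 - 193536 * c₄ ^ 3 * c₆ ^ 2 + 102400 * c₆ ^ 4) * (12 * t ^ 11)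

/-- `∂ C4p / ∂ t` -/
def COP_C4pD {R : Type*} [CommRing R] (c₄ c₆ t : R) : R :=
    (-20 * c₆)
    + (190 * c₄ ^ 2) * (2 * t)
    + (-1140 * c₄ * c₆) * (3 * t ^ 2)
    + (-855 * c₄ ^ 3 + 5700 * c₆ ^ 2) * (4 * t ^ 3)
    + (-15504 * c₄ ^ 2 * c₆) * (5 * t ^ 4)
    + (102600 * c₄ ^ 4 - 63840 * c₄ * c₆ ^ 2) * (6 * t ^ 5)
    + (-259920 * c₄ ^ 3 * c₆ + 182400 * c₆ ^ 3) * (7 * t ^ 6)
    + (-1000350 * c₄ ^ 5 + 1126320 * c₄ ^ 2 * c₆ ^ 2) * (8 * t ^ 7)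
    + (7736040 * c₄ ^ 4 * c₆ - 7904000 * c₄ * c₆ ^ 3) * (9 * t ^ 8)
    + (-10003500 * c₄ ^ 6 - 5619744 * c₄ ^ 3 * c₆ ^ 2 + 15808000 * c₆ ^ 4) * (10 * t ^ 9)
    + (54685800 * c₄ ^ 5 * c₆ - 54853760 * c₄ ^ 2 * c₆ ^ 3) * (11 * t ^ 10)
    + (-45015750 * c₄ ^ 7 + 7202520 * c₄ ^ 4 * c₆ ^ 2 + 37939200 * c₄ * c₆ ^ 4) * (12 * t ^ 11)
    + (35089200 * c₄ ^ 6 * c₆ + 23201280 * c₄ ^ 3 * c₆ ^ 3 - 58368000 * c₆ ^ 5) * (13 * t ^ 12)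
    + (207765000 * c₄ ^ 8 - 495188640 * c₄ ^ 5 * c₆ ^ 2 + 287462400 * c₄ ^ 2 * c₆ ^ 4) * (14 * t ^ 13)
    + (-415530000 * c₄ ^ 7 * c₆ + 882458496 * c₄ ^ 4 * c₆ ^ 3 - 466944000 * c₄ * c₆ ^ 5) * (15 * t ^ 14)
    + (-77911875 * c₄ ^ 9 + 714711600 * c₄ ^ 6 * c₆ ^ 2 - 1220474880 * c₄ ^ 3 * c₆ ^ 4 + 583680000 * c₆ ^ 6) * (16 * t ^ 15)
    + (-353200500 * c₄ ^ 8 * c₆ + 715080960 * c₄ ^ 5 * c₆ ^ 3 - 361881600 * c₄ ^ 2 * c₆ ^ 5) * (17 * t ^ 16)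
    + (779118750 * c₄ ^ 10 - 2182917600 * c₄ ^ 7 * c₆ ^ 2 + 2026391040 * c₄ ^ 4 * c₆ ^ 4 - 622592000 * c₄ * c₆ ^ 6) * (18 * t ^ 17)
    + (-694372500 * c₄ ^ 9 * c₆ + 2044414080 * c₄ ^ 6 * c₆ ^ 3 - 2005401600 * c₄ ^ 3 * c₆ ^ 5 + 655360000 * c₆ ^ 7) * (19 * t ^ 18)
    + (184528125 * c₄ ^ 11 - 549301500 * c₄ ^ 8 * c₆ ^ 2 + 544997376 * c₄ ^ 5 * c₆ ^ 4 - 180224000 * c₄ ^ 2 * c₆ ^ 6) * (20 * t ^ 19)

set_option maxHeartbeats 4000000 in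
theorem COP_derivative_Dp {R : Type*} [CommRing R] (c₄ c₆ : R) :
    derivative (Dp (C c₄) (C c₆) (X : R[X])) = COP_DpD (C c₄) (C c₆) X := by
  unfold Dp COP_DpD
  simp only [derivative_add, derivative_sub, derivative_mul, derivative_pow, derivative_C,
    derivative_X, derivative_one, derivative_neg, derivative_ofNat, mul_zero, zero_mul, add_zero,
    zero_add, mul_one, sub_zero, neg_zero]
  push_cast
  simp only [map_ofNat]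
  ring

set_option maxHeartbeats 4000000 in
theorem COP_derivative_C4p {R : Type*} [CommRing R] (c₄ c₆ : R) :
    derivative (C4p (C c₄) (C c₆) (X : R[X])) = COP_C4pD (C c₄) (C c₆) X := by
  unfold C4p G4 COP_C4pD
  simp only [derivative_add, derivative_sub, derivative_mul, derivative_pow, derivative_C,
    derivative_X, derivative_one, derivative_neg, derivative_ofNat, mul_zero, zero_mul, add_zero,
    zero_add, mul_one, sub_zero, neg_zero]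
  push_cast
  simp only [map_ofNat]
  ring

set_option maxHeartbeats 40000000 in
theorem COP_jac {R : Type*} [CommRing R] (c₄ c₆ t : R) :
    60 * C6p c₄ c₆ t = 5 * COP_DpD c₄ c₆ t * C4p c₄ c₆ t - 3 * Dp c₄ c₆ t * COP_C4pD c₄ c₆ t := by
  unfold C6p G6 C4p G4 Dp COP_DpD COP_C4pD
  ring

theorem COP_map_DpD {R S : Type*} [CommRing R] [CommRing S] (φ : R →+* S) (c₄ c₆ t : R) :
    φ (COP_DpD c₄ c₆ t) = COP_DpD (φ c₄) (φ c₆) (φ t) := by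
  simp only [COP_DpD, map_add, map_sub, map_mul, map_neg, map_pow, map_ofNat, map_one]

theorem COP_eval_derivative_Dp {R : Type*} [CommRing R] (c₄ c₆ t : R) :
    (derivative (Dp (C c₄) (C c₆) (X : R[X]))).eval t = COP_DpD c₄ c₆ t := by
  rw [COP_derivative_Dp]
  have := COP_map_DpD (evalRingHom t) (C c₄) (C c₆) X
  simpa using this

/-- (JAC) the Jacobian identity `60 C6 = 5 D' C4 - 3 D C4'` -/
theorem jacobian_identity {R : Type*} [CommRing R] (c₄ c₆ : R) :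
    60 * C6p (C c₄) (C c₆) (X : R[X]) =
      5 * derivative (Dp (C c₄) (C c₆) (X : R[X])) * C4p (C c₄) (C c₆) X
        - 3 * Dp (C c₄) (C c₆) X * derivative (C4p (C c₄) (C c₆) (X : R[X])) := by
  rw [COP_derivative_Dp, COP_derivative_C4p]
  exact COP_jac _ _ _

variable {F : Type*} [Field F]

/-- (COP) -/
theorem coprime_field (h2 : (2 : F) ≠ 0) (h3 : (3 : F) ≠ 0) (h5 : (5 : F) ≠ 0) (c₄ c₆ t : F)
    (hΔ : c₄ ^ 3 ≠ c₆ ^ 2) (hD : Dp c₄ c₆ t = 0) : C4p c₄ c₆ t ≠ 0 := by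
  intro hC
  set φ : F →+* AlgebraicClosure F := algebraMap F (AlgebraicClosure F) with hφ
  have hinj : Function.Injective φ := φ.injective
  have n2 : (2 : AlgebraicClosure F) ≠ 0 := by
    have := (map_ne_zero φ).mpr h2
    rwa [map_ofNat] at this
  have n3 : (3 : AlgebraicClosure F) ≠ 0 := by
    have := (map_ne_zero φ).mpr h3
    rwa [map_ofNat] at this
  have n5 : (5 : AlgebraicClosure F) ≠ 0 := by
    have := (map_ne_zero φ).mpr h5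
    rwa [map_ofNat] at this
  have hΔ' : φ c₄ ^ 3 ≠ φ c₆ ^ 2 := by
    intro h
    apply hΔ
    apply hinj
    rw [map_pow, map_pow, h]
  obtain ⟨a, b, ha, hb⟩ := exists_v n2 n3 n5 (φ c₄) (φ c₆) hΔ'
  have e1 := klein_D a b (φ t)
  have e2 := klein_C4 a b (φ t)
  rw [ha, hb, ← map_Dp, hD, map_zero, mul_zero] at e1
  rw [ha, hb, ← map_C4p, hC, map_zero] at e2
  obtain ⟨w1, w2⟩ := klein_no_common_zero n5 e1 e2
  have e3 := klein_euler a b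
  have hf : fK a b = 0 := by
    have h12 : (12 : AlgebraicClosure F) ≠ 0 := by
      have : (12 : AlgebraicClosure F) = 2 ^ 2 * 3 := by norm_num
      rw [this]; exact mul_ne_zero (pow_ne_zero 2 n2) n3
    have : 12 * fK a b = 0 := by
      rw [← e3]
      linear_combination fKa a b * w1 + fKb a b * w2
    rcases mul_eq_zero.mp this with h | h
    · exact absurd h h12
    · exact h
  have e4 := klein_syzygy a b
  rw [ha, hb, hf] at e4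
  apply hΔ'
  linear_combination e4

/-- (SEP) -/
theorem separable_field (h2 : (2 : F) ≠ 0) (h3 : (3 : F) ≠ 0) (h5 : (5 : F) ≠ 0) (c₄ c₆ t : F)
    (hΔ : c₄ ^ 3 ≠ c₆ ^ 2) (hD : Dp c₄ c₆ t = 0) :
    (derivative (Dp (C c₄) (C c₆) (X : F[X]))).eval t ≠ 0 := by
  rw [COP_eval_derivative_Dp]
  intro h
  have e := COP_jac c₄ c₆ t
  rw [h, hD] at e
  have h60 : (60 : F) ≠ 0 := by
    have : (60 : F) = 2 ^ 2 * 3 * 5 := by norm_num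
    rw [this]; exact mul_ne_zero (mul_ne_zero (pow_ne_zero 2 h2) h3) h5
  have h6 : C6p c₄ c₆ t = 0 := by
    have : 60 * C6p c₄ c₆ t = 0 := by rw [e]; ring
    rcases mul_eq_zero.mp this with h' | h'
    · exact absurd h' h60
    · exact h'
  have e2 := syzygy c₄ c₆ t
  rw [h6, hD] at e2
  have : C4p c₄ c₆ t ^ 3 = 0 := by linear_combination e2
  exact coprime_field h2 h3 h5 c₄ c₆ t hΔ hD (pow_eq_zero_iff (by norm_num) |>.mp this)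

theorem COP_zmod_facts {p : ℕ} (hp : p.Prime) (c₄ c₆ Δ : ℤ) (hrel : c₄ ^ 3 - c₆ ^ 2 = 1728 * Δ)
    (hpΔ : ¬ (p : ℤ) ∣ 30 * Δ) :
    (2 : ZMod p) ≠ 0 ∧ (3 : ZMod p) ≠ 0 ∧ (5 : ZMod p) ≠ 0 ∧
      ((c₄ : ℤ) : ZMod p) ^ 3 ≠ ((c₆ : ℤ) : ZMod p) ^ 2 := by
  haveI := Fact.mk hp
  have hpp : Prime (p : ℤ) := Nat.prime_iff_prime_int.mp hp
  have key : ∀ x : ℤ, x ∣ 30 * Δ → ((x : ℤ) : ZMod p) ≠ 0 := by
    intro x hx h
    rw [ZMod.intCast_zmod_eq_zero_iff_dvd] at h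
    exact hpΔ (h.trans hx)
  have k2 := key 2 (Dvd.dvd.mul_right (by norm_num) _)
  have k3 := key 3 (Dvd.dvd.mul_right (by norm_num) _)
  have k5 := key 5 (Dvd.dvd.mul_right (by norm_num) _)
  have kΔ := key Δ (Dvd.intro_left _ rfl)
  push_cast at k2 k3 k5
  refine ⟨k2, k3, k5, ?_⟩
  intro h
  have h1 : ((1728 * Δ : ℤ) : ZMod p) = 0 := by
    rw [← hrel]; push_cast; rw [h, sub_self]
  push_cast at h1
  have h1728 : (1728 : ZMod p) ≠ 0 := by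
    have : (1728 : ZMod p) = 2 ^ 6 * 3 ^ 3 := by norm_num
    rw [this]; exact mul_ne_zero (pow_ne_zero 6 k2) (pow_ne_zero 3 k3)
  rcases mul_eq_zero.mp h1 with h' | h'
  · exact h1728 h'
  · exact kΔ h'

/-- (COPZ) -/
theorem coprime_int {p : ℕ} (hp : p.Prime) (c₄ c₆ Δ t : ℤ) (hrel : c₄ ^ 3 - c₆ ^ 2 = 1728 * Δ)
    (hpΔ : ¬ (p : ℤ) ∣ 30 * Δ) (hD : (p : ℤ) ∣ Dp c₄ c₆ t) : ¬ (p : ℤ) ∣ C4p c₄ c₆ t := by
  haveI := Fact.mk hp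
  obtain ⟨k2, k3, k5, kΔ⟩ := COP_zmod_facts hp c₄ c₆ Δ hrel hpΔ
  intro hC
  rw [← ZMod.intCast_zmod_eq_zero_iff_dvd] at hD hC
  have e1 := map_Dp (Int.castRingHom (ZMod p)) c₄ c₆ t
  have e2 := map_C4p (Int.castRingHom (ZMod p)) c₄ c₆ t
  simp only [eq_intCast] at e1 e2
  rw [hD] at e1
  rw [hC] at e2
  exact coprime_field k2 k3 k5 _ _ _ kΔ e1.symm e2.symm

/-- (SEPZ) -/
theorem separable_int {p : ℕ} (hp : p.Prime) (c₄ c₆ Δ t : ℤ) (hrel : c₄ ^ 3 - c₆ ^ 2 = 1728 * Δ)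
    (hpΔ : ¬ (p : ℤ) ∣ 30 * Δ) (hD : (p : ℤ) ∣ Dp c₄ c₆ t) :
    ¬ (p : ℤ) ∣ (derivative (Dp (C c₄) (C c₆) (X : ℤ[X]))).eval t := by
  haveI := Fact.mk hp
  obtain ⟨k2, k3, k5, kΔ⟩ := COP_zmod_facts hp c₄ c₆ Δ hrel hpΔ
  rw [COP_eval_derivative_Dp]
  intro hC
  rw [← ZMod.intCast_zmod_eq_zero_iff_dvd] at hD hC
  have e1 := map_Dp (Int.castRingHom (ZMod p)) c₄ c₆ t
  have e2 := COP_map_DpD (Int.castRingHom (ZMod p)) c₄ c₆ t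
  simp only [eq_intCast] at e1 e2
  rw [hD] at e1
  rw [hC] at e2
  have := separable_field k2 k3 k5 _ _ _ kΔ e1.symm
  rw [COP_eval_derivative_Dp] at this
  exact this e2.symm

end Fermat.Agent.S52Lib
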