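import Fermat.Agent.S52.Deg

/-!
# S52: multiplicativity of the degree under composition of rational functions
-/

set_option autoImplicit false

namespace Fermat.Agent.S52Lib

open Polynomial

variable {F : Type*} [Field F]

open IntermediateField in
private theorem DM_rdeg_eq_finrank (g : RatFunc F) :
    rdeg g = Module.finrank F⟮g⟯ (RatFunc F) :=
  (RatFunc.finrank_eq_max_natDegree g).symm

open IntermediateField in
/-- (DM) from `RatFunc.finrank_eq_max_natDegree` and the tower law -/
theorem rdeg_algHom (σ : RatFunc F →ₐ[F] RatFunc F) (g : RatFunc F) :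
    rdeg (σ g) = rdeg g * rdeg (σ RatFunc.X) := by
  rw [DM_rdeg_eq_finrank, DM_rdeg_eq_finrank, DM_rdeg_eq_finrank]
  have h1 : F⟮σ g⟯ = (F⟮g⟯).map σ := by
    rw [IntermediateField.adjoin_map, Set.image_singleton]
  have h2 : F⟮σ RatFunc.X⟯ = (⊤ : IntermediateField F (RatFunc F)).map σ := by
    rw [← RatFunc.adjoin_X, IntermediateField.adjoin_map, Set.image_singleton]
  have hle : F⟮σ g⟯ ≤ F⟮σ RatFunc.X⟯ := by
    rw [h1, h2]
    exact IntermediateField.map_mono σ le_top
  rw [← IntermediateField.relfinrank_mul_finrank_top hle, h1, h2,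
    IntermediateField.relfinrank_map_map, IntermediateField.relfinrank_top_right]

/-- (SUB) substitution `t ↦ G` for a nonconstant `G` -/
theorem exists_subst (G : RatFunc F) (hG : rdeg G ≠ 0) :
    ∃ σ : RatFunc F →ₐ[F] RatFunc F, σ RatFunc.X = G := by
  have hG' : ¬ ∃ c, G = RatFunc.C c := fun h => hG ((rdeg_eq_zero_iff G).2 h)
  have htr : Transcendental F G := RatFunc.transcendental_of_ne_C G hG'
  have hinj : Function.Injective (aeval G : F[X] →ₐ[F] RatFunc F) :=
    transcendental_iff_injective.1 htr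
  refine ⟨RatFunc.liftAlgHom (aeval G)
    (nonZeroDivisors_le_comap_nonZeroDivisors_of_injective _ hinj), ?_⟩
  rw [RatFunc.liftAlgHom_apply]
  simp

/-- (DM) -/
theorem rdeg_pow (g : RatFunc F) (n : ℕ) : rdeg (g ^ n) = n * rdeg g := by
  by_cases hg : rdeg g = 0
  · obtain ⟨c, rfl⟩ := (rdeg_eq_zero_iff g).1 hg
    rw [hg, mul_zero, rdeg_eq_zero_iff]
    exact ⟨c ^ n, by rw [map_pow]⟩
  · obtain ⟨σ, rfl⟩ := exists_subst g hg
    rw [← map_pow, rdeg_algHom, rdeg_X_pow]

end Fermat.Agent.S52Lib
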