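import Mathlib

/-!
# S52: the Rubin--Silverberg family of elliptic curves with constant mod 5 representation

`Dp`, `C4p`, `C6p` are the (dehomogenised) dodecic `D(1,t)` and its covariants; the curve `E_t` with
invariants `c₄(E_t) = C4p c₄ c₆ t`, `c₆(E_t) = C6p c₄ c₆ t` has discriminant `Δ · (Dp c₄ c₆ t)^5`.
-/

set_option autoImplicit false

namespace Fermat.Agent.S52Lib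

variable {R : Type*} [CommRing R]

/-- the dodecic `D(1,t)` -/
def Dp (c₄ c₆ t : R) : R :=
    (1)
    + (-66 * c₄) * t ^ 2
    + (440 * c₆) * t ^ 3
    + (-1485 * c₄ ^ 2) * t ^ 4
    + (3168 * c₄ * c₆) * t ^ 5
    + (5940 * c₄ ^ 3 - 10560 * c₆ ^ 2) * t ^ 6
    + (4752 * c₄ ^ 2 * c₆) * t ^ 7
    + (-66825 * c₄ ^ 4 + 63360 * c₄ * c₆ ^ 2) * t ^ 8
    + (142560 * c₄ ^ 3 * c₆ - 140800 * c₆ ^ 3) * t ^ 9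
    + (-133650 * c₄ ^ 5 + 133056 * c₄ ^ 2 * c₆ ^ 2) * t ^ 10
    + (61560 * c₄ ^ 4 * c₆ - 61440 * c₄ * c₆ ^ 3) * t ^ 11
    + (91125 * c₄ ^ 6 - 193536 * c₄ ^ 3 * c₆ ^ 2 + 102400 * c₆ ^ 4) * t ^ 12

/-- `(C4p - c₄) / t` -/
def G4 (c₄ c₆ t : R) : R :=
    (-20 * c₆)
    + (190 * c₄ ^ 2) * t
    + (-1140 * c₄ * c₆) * t ^ 2
    + (-855 * c₄ ^ 3 + 5700 * c₆ ^ 2) * t ^ 3
    + (-15504 * c₄ ^ 2 * c₆) * t ^ 4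
    + (102600 * c₄ ^ 4 - 63840 * c₄ * c₆ ^ 2) * t ^ 5
    + (-259920 * c₄ ^ 3 * c₆ + 182400 * c₆ ^ 3) * t ^ 6
    + (-1000350 * c₄ ^ 5 + 1126320 * c₄ ^ 2 * c₆ ^ 2) * t ^ 7
    + (7736040 * c₄ ^ 4 * c₆ - 7904000 * c₄ * c₆ ^ 3) * t ^ 8
    + (-10003500 * c₄ ^ 6 - 5619744 * c₄ ^ 3 * c₆ ^ 2 + 15808000 * c₆ ^ 4) * t ^ 9
    + (54685800 * c₄ ^ 5 * c₆ - 54853760 * c₄ ^ 2 * c₆ ^ 3) * t ^ 10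
    + (-45015750 * c₄ ^ 7 + 7202520 * c₄ ^ 4 * c₆ ^ 2 + 37939200 * c₄ * c₆ ^ 4) * t ^ 11
    + (35089200 * c₄ ^ 6 * c₆ + 23201280 * c₄ ^ 3 * c₆ ^ 3 - 58368000 * c₆ ^ 5) * t ^ 12
    + (207765000 * c₄ ^ 8 - 495188640 * c₄ ^ 5 * c₆ ^ 2 + 287462400 * c₄ ^ 2 * c₆ ^ 4) * t ^ 13
    + (-415530000 * c₄ ^ 7 * c₆ + 882458496 * c₄ ^ 4 * c₆ ^ 3 - 466944000 * c₄ * c₆ ^ 5) * t ^ 14
    + (-77911875 * c₄ ^ 9 + 714711600 * c₄ ^ 6 * c₆ ^ 2 - 1220474880 * c₄ ^ 3 * c₆ ^ 4 + 583680000 * c₆ ^ 6) * t ^ 15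
    + (-353200500 * c₄ ^ 8 * c₆ + 715080960 * c₄ ^ 5 * c₆ ^ 3 - 361881600 * c₄ ^ 2 * c₆ ^ 5) * t ^ 16
    + (779118750 * c₄ ^ 10 - 2182917600 * c₄ ^ 7 * c₆ ^ 2 + 2026391040 * c₄ ^ 4 * c₆ ^ 4 - 622592000 * c₄ * c₆ ^ 6) * t ^ 17
    + (-694372500 * c₄ ^ 9 * c₆ + 2044414080 * c₄ ^ 6 * c₆ ^ 3 - 2005401600 * c₄ ^ 3 * c₆ ^ 5 + 655360000 * c₆ ^ 7) * t ^ 18
    + (184528125 * c₄ ^ 11 - 549301500 * c₄ ^ 8 * c₆ ^ 2 + 544997376 * c₄ ^ 5 * c₆ ^ 4 - 180224000 * c₄ ^ 2 * c₆ ^ 6) * t ^ 19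

/-- `(C6p - c₆) / t` -/
def G6 (c₄ c₆ t : R) : R :=
    (-30 * c₄ ^ 2)
    + (435 * c₄ * c₆) * t
    + (-1160 * c₄ ^ 3 - 2900 * c₆ ^ 2) * t ^ 2
    + (27405 * c₄ ^ 2 * c₆) * t ^ 3
    + (-95526 * c₄ ^ 4 - 46980 * c₄ * c₆ ^ 2) * t ^ 4
    + (437175 * c₄ ^ 3 * c₆ + 156600 * c₆ ^ 3) * t ^ 5
    + (1879200 * c₄ ^ 5 - 3915000 * c₄ ^ 2 * c₆ ^ 2) * t ^ 6
    + (-8554275 * c₄ ^ 4 * c₆ + 14407200 * c₄ * c₆ ^ 3) * t ^ 7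
    + (-24312150 * c₄ ^ 6 + 42021000 * c₄ ^ 3 * c₆ ^ 2 - 32016000 * c₆ ^ 4) * t ^ 8
    + (246633255 * c₄ ^ 5 * c₆ - 216588240 * c₄ ^ 2 * c₆ ^ 3) * t ^ 9
    + (-162081000 * c₄ ^ 7 - 1352475900 * c₄ ^ 4 * c₆ ^ 2 + 1459929600 * c₄ * c₆ ^ 4) * t ^ 10
    + (4131714825 * c₄ ^ 6 * c₆ - 1612005600 * c₄ ^ 3 * c₆ ^ 3 - 2433216000 * c₆ ^ 5) * t ^ 11
    + (-6928962750 * c₄ ^ 8 - 5235216300 * c₄ ^ 5 * c₆ ^ 2 + 12044419200 * c₄ ^ 2 * c₆ ^ 4) * t ^ 12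
    + (43190534475 * c₄ ^ 7 * c₆ - 43045111800 * c₄ ^ 4 * c₆ ^ 3) * t ^ 13
    + (-79575287760 * c₄ ^ 6 * c₆ ^ 2 + 79420170240 * c₄ ^ 3 * c₆ ^ 4) * t ^ 14
    + (-176688550125 * c₄ ^ 8 * c₆ + 474659611200 * c₄ ^ 5 * c₆ ^ 3 - 297825638400 * c₄ ^ 2 * c₆ ^ 5) * t ^ 15
    + (311803323750 * c₄ ^ 10 - 77604382800 * c₄ ^ 7 * c₆ ^ 2 - 935084908800 * c₄ ^ 4 * c₆ ^ 4 + 700766208000 * c₄ * c₆ ^ 6) * t ^ 16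
    + (-1694131392375 * c₄ ^ 9 * c₆ + 2776512362400 * c₄ ^ 6 * c₆ ^ 3 - 303665356800 * c₄ ^ 3 * c₆ ^ 5 - 778629120000 * c₆ ^ 7) * t ^ 17
    + (328214025000 * c₄ ^ 11 + 3481840250100 * c₄ ^ 8 * c₆ ^ 2 - 8100765158400 * c₄ ^ 5 * c₆ ^ 4 + 4290656256000 * c₄ ^ 2 * c₆ ^ 6) * t ^ 18
    + (-2874607835625 * c₄ ^ 10 * c₆ + 2424887357760 * c₄ ^ 7 * c₆ ^ 3 + 3892110842880 * c₄ ^ 4 * c₆ ^ 5 - 3442360320000 * c₄ * c₆ ^ 7) * t ^ 19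
    + (2215444668750 * c₄ ^ 12 - 3077188825500 * c₄ ^ 9 * c₆ ^ 2 + 2709129888000 * c₄ ^ 6 * c₆ ^ 4 - 5125838438400 * c₄ ^ 3 * c₆ ^ 6 + 3278438400000 * c₆ ^ 8) * t ^ 20
    + (-1403114956875 * c₄ ^ 11 * c₆ - 1724509423800 * c₄ ^ 8 * c₆ ^ 3 + 7701051801600 * c₄ ^ 5 * c₆ ^ 5 - 4573421568000 * c₄ ^ 2 * c₆ ^ 7) * t ^ 21
    + (-7705894500000 * c₄ ^ 13 + 33414470973000 * c₄ ^ 10 * c₆ ^ 2 - 49888700928000 * c₄ ^ 7 * c₆ ^ 4 + 30337884979200 * c₄ ^ 4 * c₆ ^ 6 - 6157762560000 * c₄ * c₆ ^ 8) * t ^ 22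
    + (5089101159375 * c₄ ^ 12 * c₆ - 22687218914400 * c₄ ^ 9 * c₆ ^ 3 + 35246094796800 * c₄ ^ 6 * c₆ ^ 5 - 22779445248000 * c₄ ^ 3 * c₆ ^ 7 + 5131468800000 * c₆ ^ 9) * t ^ 23
    + (17627233668750 * c₄ ^ 14 - 70097953635000 * c₄ ^ 11 * c₆ ^ 2 + 105528606261120 * c₄ ^ 8 * c₆ ^ 4 - 71274600677376 * c₄ ^ 5 * c₆ ^ 6 + 18216714240000 * c₄ ^ 2 * c₆ ^ 8) * t ^ 24
    + (-40985726371875 * c₄ ^ 13 * c₆ + 163672057566000 * c₄ ^ 10 * c₆ ^ 3 - 245438120632320 * c₄ ^ 7 * c₆ ^ 5 + 163803539865600 * c₄ ^ 4 * c₆ ^ 7 - 41051750400000 * c₄ * c₆ ^ 9) * t ^ 25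
    + (9632368125000 * c₄ ^ 15 - 8104032382500 * c₄ ^ 12 * c₆ ^ 2 - 63806176396800 * c₄ ^ 9 * c₆ ^ 4 + 143803576074240 * c₄ ^ 6 * c₆ ^ 6 - 111934439424000 * c₄ ^ 3 * c₆ ^ 8 + 30408704000000 * c₆ ^ 10) * t ^ 26
    + (-21432019078125 * c₄ ^ 14 * c₆ + 85719228804000 * c₄ ^ 11 * c₆ ^ 3 - 128580522647040 * c₄ ^ 8 * c₆ ^ 5 + 85731449241600 * c₄ ^ 5 * c₆ ^ 7 - 21438136320000 * c₄ ^ 2 * c₆ ^ 9) * t ^ 27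
    + (11210083593750 * c₄ ^ 16 - 49873523512500 * c₄ ^ 13 * c₆ ^ 2 + 87394892457600 * c₄ ^ 10 * c₆ ^ 4 - 75042714746880 * c₄ ^ 7 * c₆ ^ 6 + 31344427008000 * c₄ ^ 4 * c₆ ^ 8 - 5033164800000 * c₄ * c₆ ^ 10) * t ^ 28
    + (-4110363984375 * c₄ ^ 15 * c₆ + 19796866155000 * c₄ ^ 12 * c₆ ^ 3 - 38083944628224 * c₄ ^ 9 * c₆ ^ 5 + 36574189977600 * c₄ ^ 6 * c₆ ^ 7 - 17532190720000 * c₄ ^ 3 * c₆ ^ 9 + 3355443200000 * c₆ ^ 11) * t ^ 29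

/-- `c₄` of the member `E_t` of the family -/
def C4p (c₄ c₆ t : R) : R := c₄ + t * G4 c₄ c₆ t

/-- `c₆` of the member `E_t` of the family -/
def C6p (c₄ c₆ t : R) : R := c₆ + t * G6 c₄ c₆ t

end Fermat.Agent.S52Lib
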