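import Mathlib

/-!
# S52: the evaluation place `t ↦ x₀` of `F(t)` and the action of field homs on coefficients
-/

set_option autoImplicit false

namespace Fermat.Agent.S52Lib

open Polynomial

variable {F : Type*} [Field F]

theorem ev_denom_of_div {x₀ : F} {g : RatFunc F} {p q : F[X]} (hq : q.eval x₀ ≠ 0)
    (hg : g = algebraMap F[X] (RatFunc F) p / algebraMap F[X] (RatFunc F) q) :
    g.denom.eval x₀ ≠ 0 := by
  intro h
  apply hq
  obtain ⟨c, hc⟩ := RatFunc.denom_div_dvd p q
  rw [← hg] at hc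
  rw [hc, eval_mul, h, zero_mul]

theorem ev_eval_of_div {x₀ : F} {g : RatFunc F} {p q : F[X]} (hq : q.eval x₀ ≠ 0)
    (hg : g = algebraMap F[X] (RatFunc F) p / algebraMap F[X] (RatFunc F) q) :
    g.num.eval x₀ / g.denom.eval x₀ = p.eval x₀ / q.eval x₀ := by
  have hq0 : q ≠ 0 := by rintro rfl; simp at hq
  have h := (RatFunc.num_mul_eq_mul_denom_iff hq0).mpr hg
  rw [div_eq_div_iff (ev_denom_of_div hq hg) hq, ← eval_mul, h, eval_mul]

theorem ev_num_of_denom {x₀ : F} {g : RatFunc F} (h : g.denom.eval x₀ = 0) :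
    g.num.eval x₀ ≠ 0 := by
  intro h'
  obtain ⟨a, b, hab⟩ := RatFunc.isCoprime_num_denom g
  have := congrArg (eval x₀) hab
  rw [eval_add, eval_mul, eval_mul, h, h', mul_zero, mul_zero, add_zero, eval_one] at this
  exact zero_ne_one this

theorem ev_inv_eq (g : RatFunc F) :
    g⁻¹ = algebraMap F[X] (RatFunc F) g.denom / algebraMap F[X] (RatFunc F) g.num := by
  conv_lhs => rw [← RatFunc.num_div_denom g]
  rw [inv_div]

theorem ev_mul_eq (g h : RatFunc F) :
    g * h = algebraMap F[X] (RatFunc F) (g.num * h.num)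
      / algebraMap F[X] (RatFunc F) (g.denom * h.denom) := by
  conv_lhs => rw [← RatFunc.num_div_denom g, ← RatFunc.num_div_denom h]
  rw [map_mul, map_mul, div_mul_div_comm]

theorem ev_add_eq (g h : RatFunc F) :
    g + h = algebraMap F[X] (RatFunc F) (g.num * h.denom + g.denom * h.num)
      / algebraMap F[X] (RatFunc F) (g.denom * h.denom) := by
  have h1 : algebraMap F[X] (RatFunc F) g.denom ≠ 0 :=
    RatFunc.algebraMap_ne_zero (RatFunc.denom_ne_zero g)
  have h2 : algebraMap F[X] (RatFunc F) h.denom ≠ 0 :=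
    RatFunc.algebraMap_ne_zero (RatFunc.denom_ne_zero h)
  conv_lhs => rw [← RatFunc.num_div_denom g, ← RatFunc.num_div_denom h]
  rw [map_mul, map_add, map_mul, map_mul, div_add_div _ _ h1 h2]

theorem ev_neg_eq (g : RatFunc F) :
    -g = algebraMap F[X] (RatFunc F) (-g.num) / algebraMap F[X] (RatFunc F) g.denom := by
  conv_lhs => rw [← RatFunc.num_div_denom g]
  rw [map_neg, neg_div]

/-- (EV) rational functions regular at `x₀` -/
def evO (x₀ : F) : ValuationSubring (RatFunc F) where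
  carrier := {g | g.denom.eval x₀ ≠ 0}
  mul_mem' := by
    intro g h hg hh
    exact ev_denom_of_div (by rw [eval_mul]; exact mul_ne_zero hg hh) (ev_mul_eq g h)
  one_mem' := by
    show (1 : RatFunc F).denom.eval x₀ ≠ 0
    rw [RatFunc.denom_one, eval_one]; exact one_ne_zero
  add_mem' := by
    intro g h hg hh
    exact ev_denom_of_div (by rw [eval_mul]; exact mul_ne_zero hg hh) (ev_add_eq g h)
  zero_mem' := by
    show (0 : RatFunc F).denom.eval x₀ ≠ 0
    rw [RatFunc.denom_zero, eval_one]; exact one_ne_zero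
  neg_mem' := by
    intro g hg
    exact ev_denom_of_div hg (ev_neg_eq g)
  mem_or_inv_mem' := by
    intro g
    by_cases h : g.denom.eval x₀ = 0
    · exact Or.inr (ev_denom_of_div (ev_num_of_denom h) (ev_inv_eq g))
    · exact Or.inl h

theorem mem_evO {x₀ : F} {g : RatFunc F} : g ∈ evO x₀ ↔ g.denom.eval x₀ ≠ 0 := Iff.rfl

/-- (EV) evaluation at `x₀` -/
noncomputable def evπ (x₀ : F) : evO x₀ →+* F where
  toFun g := (g : RatFunc F).num.eval x₀ / (g : RatFunc F).denom.eval x₀
  map_one' := by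
    show (1 : RatFunc F).num.eval x₀ / (1 : RatFunc F).denom.eval x₀ = 1
    rw [RatFunc.num_one, RatFunc.denom_one, eval_one, div_one]
  map_mul' := by
    intro g h
    show ((g : RatFunc F) * h).num.eval x₀ / ((g : RatFunc F) * h).denom.eval x₀ = _
    rw [ev_eval_of_div (by rw [eval_mul]; exact mul_ne_zero g.2 h.2) (ev_mul_eq (g : RatFunc F) h),
      eval_mul, eval_mul, mul_div_mul_comm]
  map_zero' := by
    show (0 : RatFunc F).num.eval x₀ / (0 : RatFunc F).denom.eval x₀ = 0
    rw [RatFunc.num_zero, eval_zero, zero_div]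
  map_add' := by
    intro g h
    show ((g : RatFunc F) + h).num.eval x₀ / ((g : RatFunc F) + h).denom.eval x₀ = _
    rw [ev_eval_of_div (by rw [eval_mul]; exact mul_ne_zero g.2 h.2) (ev_add_eq (g : RatFunc F) h),
      eval_mul, eval_add, eval_mul, eval_mul, div_add_div _ _ g.2 h.2]

theorem evπ_apply {x₀ : F} (g : evO x₀) :
    evπ x₀ g = (g : RatFunc F).num.eval x₀ / (g : RatFunc F).denom.eval x₀ := rfl

instance evπ_isLocalHom (x₀ : F) : IsLocalHom (evπ x₀) := by
  constructor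
  intro g hg
  have h1 : (g : RatFunc F).num.eval x₀ ≠ 0 := by
    intro h
    rw [evπ_apply, h, zero_div] at hg
    exact not_isUnit_zero hg
  have h2 : (g : RatFunc F)⁻¹ ∈ evO x₀ := ev_denom_of_div h1 (ev_inv_eq _)
  have h3 : (g : RatFunc F) ≠ 0 := by
    intro h
    rw [h, RatFunc.num_zero, eval_zero] at h1
    exact h1 rfl
  exact IsUnit.of_mul_eq_one ⟨(g : RatFunc F)⁻¹, h2⟩ (Subtype.ext (mul_inv_cancel₀ h3))

theorem algebraMap_mem_evO (x₀ : F) (p : F[X]) : algebraMap F[X] (RatFunc F) p ∈ evO x₀ := by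
  rw [mem_evO, RatFunc.denom_algebraMap, eval_one]
  exact one_ne_zero

theorem evπ_algebraMap (x₀ : F) (p : F[X]) :
    evπ x₀ ⟨algebraMap F[X] (RatFunc F) p, algebraMap_mem_evO x₀ p⟩ = p.eval x₀ := by
  rw [evπ_apply]
  show (algebraMap F[X] (RatFunc F) p).num.eval x₀ / (algebraMap F[X] (RatFunc F) p).denom.eval x₀
    = _
  rw [RatFunc.num_algebraMap, RatFunc.denom_algebraMap, eval_one, div_one]

/-- (EV) a field hom acting on the coefficients of rational functions -/
noncomputable def ratMap (σ : F →+* F) : RatFunc F →+* RatFunc F :=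
  RatFunc.mapRingHom (Polynomial.mapRingHom σ) (by
    intro p hp
    rw [Submonoid.mem_comap, mem_nonZeroDivisors_iff_ne_zero] 
    rw [mem_nonZeroDivisors_iff_ne_zero] at hp
    rw [coe_mapRingHom]
    exact (Polynomial.map_ne_zero_iff σ.injective).mpr hp)

theorem ev_ratMap_div (σ : F →+* F) (p q : F[X]) :
    ratMap σ (algebraMap F[X] (RatFunc F) p / algebraMap F[X] (RatFunc F) q)
      = algebraMap F[X] (RatFunc F) (p.map σ) / algebraMap F[X] (RatFunc F) (q.map σ) := by
  unfold ratMap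
  rw [RatFunc.coe_mapRingHom_eq_coe_map, RatFunc.map_apply_div]
  rfl

theorem ratMap_algebraMap (σ : F →+* F) (p : F[X]) :
    ratMap σ (algebraMap F[X] (RatFunc F) p) = algebraMap F[X] (RatFunc F) (p.map σ) := by
  have := ev_ratMap_div σ p 1
  simpa using this

theorem ev_ratMap_eq (σ : F →+* F) (g : RatFunc F) :
    ratMap σ g = algebraMap F[X] (RatFunc F) (g.num.map σ)
      / algebraMap F[X] (RatFunc F) (g.denom.map σ) := by
  conv_lhs => rw [← RatFunc.num_div_denom g]
  exact ev_ratMap_div σ _ _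

theorem ev_eval_map (σ : F →+* F) {x₀ : F} (hx : σ x₀ = x₀) (p : F[X]) :
    (p.map σ).eval x₀ = σ (p.eval x₀) := by
  conv_lhs => rw [← hx]
  exact eval_map_apply σ x₀

theorem ratMap_mem_evO_iff (σ : F →+* F) {x₀ : F} (hx : σ x₀ = x₀) (g : RatFunc F) :
    ratMap σ g ∈ evO x₀ ↔ g ∈ evO x₀ := by
  constructor
  · intro h
    rw [mem_evO] at h ⊢
    intro h0
    have h1 := ev_num_of_denom h0
    have hd0 : g.denom.map σ ≠ 0 :=
      (Polynomial.map_ne_zero_iff σ.injective).mpr (RatFunc.denom_ne_zero g)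
    have h2 := (RatFunc.num_mul_eq_mul_denom_iff hd0).mpr (ev_ratMap_eq σ g)
    have h3 := congrArg (eval x₀) h2
    rw [eval_mul, eval_mul, ev_eval_map σ hx, ev_eval_map σ hx, h0, map_zero, mul_zero] at h3
    exact mul_ne_zero ((map_ne_zero σ).mpr h1) h h3.symm
  · intro h
    exact ev_denom_of_div (by rw [ev_eval_map σ hx]; exact (map_ne_zero σ).mpr h) (ev_ratMap_eq σ g)

theorem evπ_ratMap (σ : F →+* F) {x₀ : F} (hx : σ x₀ = x₀) (g : evO x₀)
    (h : ratMap σ (g : RatFunc F) ∈ evO x₀) : evπ x₀ ⟨ratMap σ (g : RatFunc F), h⟩ = σ (evπ x₀ g) := by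
  rw [evπ_apply, evπ_apply]
  show (ratMap σ (g : RatFunc F)).num.eval x₀ / (ratMap σ (g : RatFunc F)).denom.eval x₀ = _
  rw [ev_eval_of_div (by rw [ev_eval_map σ hx]; exact (map_ne_zero σ).mpr g.2)
    (ev_ratMap_eq σ (g : RatFunc F)), ev_eval_map σ hx, ev_eval_map σ hx, map_div₀]

end Fermat.Agent.S52Lib
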