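import Fermat.Agent.S52.TwFrob

/-!
# S52: the Frobenius relation on the twisted curve (assembly)
-/

set_option autoImplicit false

namespace Fermat.Agent.S52Lib

open Polynomial

variable {ℓ : ℕ} [Fact ℓ.Prime] {F : Type*} [Field F] [CharP F ℓ] [DecidableEq (RatFunc F)]

/-- (TWR) the Frobenius relation on the twisted curve -/
theorem tw_relation (h5 : 5 ≤ ℓ) (a b : ℤ) (hd : ((4 * a ^ 3 + 27 * b ^ 2 : ℤ) : F) ≠ 0)
    (η Φ Φ₂ : TwPt (a : F) (b : F))
    (hη : co η = some (fT (a : F) (b : F) * RatFunc.X, fT (a : F) (b : F) ^ 2))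
    (hΦ : co Φ = some (fT (a : F) (b : F) * RatFunc.X ^ ℓ,
        fT (a : F) (b : F) ^ 2 * fT (a : F) (b : F) ^ ((ℓ - 1) / 2)))
    (hΦ₂ : co Φ₂ = some (fT (a : F) (b : F) * RatFunc.X ^ (ℓ ^ 2),
        fT (a : F) (b : F) ^ 2 * fT (a : F) (b : F) ^ ((ℓ ^ 2 - 1) / 2))) :
    (2 : ℕ) • (Φ₂ - ((ℓ : ℤ) + 1 - (Nat.card (Pt ((a : ℤ) : ZMod ℓ) ((b : ℤ) : ZMod ℓ)) : ℤ)) • Φ
      + (ℓ : ℤ) • η) = 0 := by
  have hℓ : ℓ.Prime := Fact.out
  have h3 : 3 ≤ ℓ := by omega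
  have hodd : Odd ℓ := hℓ.odd_of_ne_two (by omega)
  obtain ⟨e, he⟩ := hodd
  have he1 : (ℓ - 1) / 2 = e := by omega
  have he2 : (ℓ ^ 2 - 1) / 2 = 2 * e ^ 2 + 2 * e := by
    have : ℓ ^ 2 = 2 * (2 * e ^ 2 + 2 * e) + 1 := by rw [he]; ring
    omega
  have he3 : ℓ - 1 = 2 * e := by omega
  have h2 : (2 : F) ≠ 0 := by
    intro h
    have : ((2 : ℕ) : F) = 0 := by exact_mod_cast h
    rw [CharP.cast_eq_zero_iff F ℓ] at this
    have := Nat.le_of_dvd (by norm_num) this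
    omega
  have hd' : 4 * (a : F) ^ 3 + 27 * (b : F) ^ 2 ≠ 0 := by
    intro h; apply hd; push_cast; exact h
  have hdZ : ((4 * a ^ 3 + 27 * b ^ 2 : ℤ) : ZMod ℓ) ≠ 0 := by
    intro h
    apply hd
    rw [CharP.intCast_eq_zero_iff (ZMod ℓ) ℓ] at h
    rwa [CharP.intCast_eq_zero_iff F ℓ]
  have hf0 : fT (a : F) (b : F) ≠ 0 := fT_ne_zero _ _
  -- heights
  have hhη : ht η = 1 := by
    rw [ht_of_co hη, mul_div_cancel_left₀ _ hf0]
    simpa using rdeg_X_pow (F := F) 1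
  have hhΦ : ht Φ = ℓ := by
    rw [ht_of_co hΦ, mul_div_cancel_left₀ _ hf0]
    exact rdeg_X_pow ℓ
  have hcard := card_pt_zmod (ℓ := ℓ) h3 a b hdZ
  have hsum := card_filter_sum (ℓ := ℓ) h3 a b
  have hle1 := ht_sub_le h3 a b hd η Φ hη hΦ
  have hle2 := ht_add_le h3 a b hd η Φ hη hΦ
  have hPLn := ht_parallelogram h2 hd' (A := (a : F)) (B := (b : F))
  obtain ⟨N, hN⟩ : ∃ N : ℕ, N = Nat.card (Pt ((a : ℤ) : ZMod ℓ) ((b : ℤ) : ZMod ℓ)) := ⟨_, rfl⟩
  rw [← hN] at hcard ⊢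
  have hβN : ht (Φ - η) = N := by
    have := hPLn Φ η
    omega
  have hN0 : N ≠ 0 := by omega
  obtain ⟨Fr, hFrco, hFrht⟩ := exists_twFrob (F := F) h3 a b
  obtain ⟨Cb, σ, ξ, υ, hβ, hυ, hσX, hCbco, hCbht⟩ := exists_comp h2 (Φ - η) (by rw [hβN]; exact hN0)
  have hFrη : Fr η = Φ := by
    apply co_injective
    rw [hFrco, hη, hΦ, he1, he3]
    simp only [Option.map_some, Option.some.injEq, Prod.mk.injEq]
    constructor
    · rw [div_eq_iff (pow_ne_zero _ hf0), he]; ring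
    · rw [div_eq_iff (pow_ne_zero _ hf0), he]; ring
  have hFrΦ : Fr Φ = Φ₂ := by
    apply co_injective
    rw [hFrco, hΦ, hΦ₂, he1, he2, he3]
    simp only [Option.map_some, Option.some.injEq, Prod.mk.injEq]
    constructor
    · rw [div_eq_iff (pow_ne_zero _ hf0), he]; ring
    · rw [div_eq_iff (pow_ne_zero _ hf0), he]; ring
  have heqn := co_eqn hβ
  have hσf : σ (fT (a : F) (b : F)) = υ ^ 2 / fT (a : F) (b : F) ^ 3 := by
    have : σ (fT (a : F) (b : F)) = (ξ / fT (a : F) (b : F)) ^ 3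
        + RatFunc.C (a : F) * (ξ / fT (a : F) (b : F)) + RatFunc.C (b : F) := by
      conv_lhs => unfold fT
      rw [map_add, map_add, map_mul, map_pow, hσX]
      congr 1
      · congr 2
        exact σ.commutes _
      · exact σ.commutes _
    rw [this, heqn]
    field_simp
  have hCη : Cb η = Φ - η := by
    apply co_injective
    rw [hCbco, hη, hβ]
    simp only [Option.map_some, Option.some.injEq, Prod.mk.injEq]
    constructor
    · rw [map_mul, hσf, hσX]; field_simp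
    · rw [map_pow, hσf]; field_simp
  have hCΦ : Cb Φ = Fr (Φ - η) := by
    apply co_injective
    rw [hCbco, hFrco, hΦ, hβ, he1, he3]
    simp only [Option.map_some, Option.some.injEq, Prod.mk.injEq]
    constructor
    · rw [map_mul, map_pow, hσf, hσX, he, div_pow]; field_simp; ring
    · rw [map_mul, map_pow, map_pow, hσf, he, div_pow, div_pow]; field_simp; ring
  have key := qf_main (fun P : TwPt (a : F) (b : F) => (ht P : ℤ))
    (by intro P Q; have := hPLn P Q; norm_cast)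
    η Φ Φ₂ Fr Cb (ℓ : ℤ) (N : ℤ) (by simp [hhη]) (by simp [hhΦ]) (by simp [hβN])
    (by intro P; simp [hFrht]) hFrη hFrΦ (by intro P; simp [hCbht, hβN]) hCη hCΦ
  apply two_nsmul_eq_zero_of_ht h2
  exact_mod_cast key

end Fermat.Agent.S52Lib
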