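import Fermat.Agent.S52.Spec
import Fermat.Agent.S52.TwRel

/-!
# S52: `φ² - a φ + ℓ = 0` (up to 2-torsion) on the points of `y² = x³ + a x + b` in characteristic `ℓ`
-/

set_option autoImplicit false

namespace Fermat.Agent.S52Lib

open Polynomial

variable {ℓ : ℕ} [Fact ℓ.Prime] {F : Type*} [Field F]

/-- `t³ + A t + B` as a polynomial -/
noncomputable def fPoly (A B : F) : F[X] := X ^ 3 + C A * X + C B

theorem algebraMap_fPoly (A B : F) : algebraMap F[X] (RatFunc F) (fPoly A B) = fT A B := by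
  unfold fPoly fT
  rw [map_add, map_add, map_mul, map_pow, RatFunc.algebraMap_X, RatFunc.algebraMap_C,
    RatFunc.algebraMap_C]

theorem eval_fPoly (A B x : F) : (fPoly A B).eval x = x ^ 3 + A * x + B := by
  unfold fPoly; simp

variable [CharP F ℓ] [DecidableEq F]

/-- (FROB) -/
theorem frob_relation (h5 : 5 ≤ ℓ) (h2 : (2 : F) ≠ 0) (a b : ℤ)
    (hd : ((4 * a ^ 3 + 27 * b ^ 2 : ℤ) : F) ≠ 0) (Q : Pt (a : F) (b : F)) {x y : F}
    (hQ : co Q = some (x, y)) (hy : y ≠ 0) :
    (2 : ℕ) • (mapPt h2 (frobenius F ℓ) (frobenius_intCast a) (frobenius_intCast b)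
        (mapPt h2 (frobenius F ℓ) (frobenius_intCast a) (frobenius_intCast b) Q)
      - ((ℓ : ℤ) + 1 - (Nat.card (Pt ((a : ℤ) : ZMod ℓ) ((b : ℤ) : ZMod ℓ)) : ℤ)) •
        mapPt h2 (frobenius F ℓ) (frobenius_intCast a) (frobenius_intCast b) Q
      + (ℓ : ℤ) • Q) = 0 := by
  classical
  have hℓ : ℓ.Prime := Fact.out
  have h3 : 3 ≤ ℓ := by omega
  have hodd : Odd ℓ := hℓ.odd_of_ne_two (by omega)
  obtain ⟨e, he⟩ := hodd
  have he1 : (ℓ - 1) / 2 = e := by omega
  have he2 : (ℓ ^ 2 - 1) / 2 = 2 * e ^ 2 + 2 * e := by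
    have : ℓ ^ 2 = 2 * (2 * e ^ 2 + 2 * e) + 1 := by rw [he]; ring
    omega
  have hd' : 4 * (a : F) ^ 3 + 27 * (b : F) ^ 2 ≠ 0 := by
    intro h; apply hd; push_cast; exact h
  obtain ⟨η, Φ, Φ₂, hη, hΦ, hΦ₂⟩ := exists_tw_points (F := F) h3 a b hd
  have hrel := tw_relation h5 a b hd η Φ Φ₂ hη hΦ hΦ₂
  have heqn := co_eqn hQ
  obtain ⟨sp, hsp⟩ := exists_spec h2 (a : F) (b : F) hd' hy heqn
  have hspη : sp η = Q := by
    apply co_injective
    rw [hsp η (fPoly (a : F) (b : F) * X) (fPoly (a : F) (b : F) ^ 2)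
      (by rw [hη, map_mul, map_pow, algebraMap_fPoly, RatFunc.algebraMap_X]), hQ]
    simp only [eval_mul, eval_pow, eval_X, eval_fPoly, ← heqn, Option.some.injEq, Prod.mk.injEq]
    constructor
    · field_simp
    · field_simp
  have hspΦ : sp Φ = mapPt h2 (frobenius F ℓ) (frobenius_intCast a) (frobenius_intCast b) Q := by
    apply co_injective
    rw [hsp Φ (fPoly (a : F) (b : F) * X ^ ℓ) (fPoly (a : F) (b : F) ^ 2 * fPoly (a : F) (b : F) ^ e)
      (by rw [hΦ, map_mul, map_mul, map_pow, map_pow, map_pow, algebraMap_fPoly,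
        RatFunc.algebraMap_X, he1]), co_mapPt, hQ]
    simp only [eval_mul, eval_pow, eval_X, eval_fPoly, ← heqn, Option.some.injEq, Prod.mk.injEq,
      Option.map_some, frobenius_def]
    constructor
    · field_simp
    · rw [he]; field_simp; ring
  have hspΦ₂ : sp Φ₂ = mapPt h2 (frobenius F ℓ) (frobenius_intCast a) (frobenius_intCast b)
      (mapPt h2 (frobenius F ℓ) (frobenius_intCast a) (frobenius_intCast b) Q) := by
    apply co_injective
    rw [hsp Φ₂ (fPoly (a : F) (b : F) * X ^ (ℓ ^ 2))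
      (fPoly (a : F) (b : F) ^ 2 * fPoly (a : F) (b : F) ^ (2 * e ^ 2 + 2 * e))
      (by rw [hΦ₂, map_mul, map_mul, map_pow, map_pow, map_pow, algebraMap_fPoly,
        RatFunc.algebraMap_X, he2]), co_mapPt, co_mapPt, hQ]
    simp only [eval_mul, eval_pow, eval_X, eval_fPoly, ← heqn, Option.some.injEq, Prod.mk.injEq,
      Option.map_some, frobenius_def]
    constructor
    · field_simp; ring
    · rw [he]; field_simp; ring
  have := congrArg sp hrel
  rw [map_nsmul, map_add, map_sub, map_zsmul, map_zsmul, hspη, hspΦ, hspΦ₂, map_zero] at this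
  exact this

end Fermat.Agent.S52Lib
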