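import Fermat.Agent.S52.SW

/-!
# S52: homomorphisms between short Weierstrass curves induced by a field hom and a scaling
-/

set_option autoImplicit false
set_option linter.unusedSectionVars false
set_option linter.unusedVariables false
set_option linter.unusedSimpArgs false

namespace Fermat.Agent.S52Lib

variable {K L : Type*} [Field K] [DecidableEq K] [Field L] [DecidableEq L]

theorem Hom_exists_co {A B : K} (P : Pt A B) (hP : P ≠ 0) : ∃ x y, co P = some (x, y) := by
  rcases h : co P with _ | ⟨x, y⟩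
  · exact absurd (co_eq_none.mp h) hP
  · exact ⟨x, y, rfl⟩

theorem Hom_pointwise (σ : K →+* L) (u : L) (hu : u ≠ 0) {A B : K} {A' B' : L}
    (hA : A' = u ^ 4 * σ A) (hB : B' = u ^ 6 * σ B) (P : Pt A B) :
    ∃ Q : Pt A' B', co Q = (co P).map (fun c => (u ^ 2 * σ c.1, u ^ 3 * σ c.2)) := by
  cases P with
  | zero => exact ⟨0, rfl⟩
  | some x y h =>
    rw [SW_nonsingular_iff] at h
    obtain ⟨he, hn⟩ := h
    have hn' : (SW A' B').toAffine.Nonsingular (u ^ 2 * σ x) (u ^ 3 * σ y) := by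
      rw [SW_nonsingular_iff]
      constructor
      · have := congrArg σ he
        simp only [map_pow, map_add, map_mul] at this
        rw [hA, hB]
        linear_combination u ^ 6 * this
      · rcases hn with hn | hn
        · left
          have e : 3 * (u ^ 2 * σ x) ^ 2 + A' = u ^ 4 * σ (3 * x ^ 2 + A) := by
            rw [hA]; simp only [map_pow, map_add, map_mul, map_ofNat]; ring
          rw [e]
          exact mul_ne_zero (pow_ne_zero _ hu) ((map_ne_zero σ).mpr hn)
        · right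
          have e : 2 * (u ^ 3 * σ y) = u ^ 3 * σ (2 * y) := by
            simp only [map_mul, map_ofNat]; ring
          rw [e]
          exact mul_ne_zero (pow_ne_zero _ hu) ((map_ne_zero σ).mpr hn)
    exact ⟨WeierstrassCurve.Affine.Point.some _ _ hn', rfl⟩

/-- (HOM) `(x, y) ↦ (u² σ x, u³ σ y)` is a group homomorphism
`y² = x³ + A x + B  →  y² = x³ + u⁴ σ(A) x + u⁶ σ(B)`. -/
theorem exists_mapScale (h2 : (2 : L) ≠ 0) (σ : K →+* L) (u : L) (hu : u ≠ 0) {A B : K} {A' B' : L}
    (hA : A' = u ^ 4 * σ A) (hB : B' = u ^ 6 * σ B) :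
    ∃ θ : Pt A B →+ Pt A' B',
      ∀ P, co (θ P) = (co P).map (fun c => (u ^ 2 * σ c.1, u ^ 3 * σ c.2)) := by
  have h2K : (2 : K) ≠ 0 := by
    intro h
    apply h2
    have := congrArg σ h
    rwa [map_ofNat, map_zero] at this
  choose θ hθ using Hom_pointwise σ u hu hA hB
  have h0 : θ 0 = 0 := by
    rw [← co_eq_none, hθ, co_zero]; rfl
  have hneg : ∀ P, θ (-P) = -θ P := by
    intro P
    by_cases hP : P = 0
    · subst hP; simp [h0]
    · obtain ⟨x, y, hxy⟩ := Hom_exists_co P hP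
      apply co_injective
      have h1 : co (θ P) = some (u ^ 2 * σ x, u ^ 3 * σ y) := by rw [hθ, hxy]; rfl
      rw [co_neg h1, hθ, co_neg hxy]
      simp
  have hadd := additive_of_col θ h0 hneg (by
    intro P Q R hP hQ hR hsum
    obtain ⟨x₁, y₁, h₁⟩ := Hom_exists_co P hP
    obtain ⟨x₂, y₂, h₂⟩ := Hom_exists_co Q hQ
    obtain ⟨x₃, y₃, h₃⟩ := Hom_exists_co R hR
    obtain ⟨l, n, e₁, e₂, e₃, s₁, s₂, s₃⟩ := col' h2K h₁ h₂ h₃ hsum
    have k₁ : co (θ P) = some (u ^ 2 * σ x₁, u ^ 3 * σ y₁) := by rw [hθ, h₁]; rfl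
    have k₂ : co (θ Q) = some (u ^ 2 * σ x₂, u ^ 3 * σ y₂) := by rw [hθ, h₂]; rfl
    have k₃ : co (θ R) = some (u ^ 2 * σ x₃, u ^ 3 * σ y₃) := by rw [hθ, h₃]; rfl
    refine col h2 (l := u * σ l) (n := u ^ 3 * σ n) k₁ k₂ k₃ ?_ ?_ ?_ ?_ ?_ ?_
    · rw [e₁]; simp only [map_add, map_mul]; ring
    · rw [e₂]; simp only [map_add, map_mul]; ring
    · rw [e₃]; simp only [map_add, map_mul]; ring
    · have := congrArg σ s₁
      simp only [map_pow, map_add, map_mul] at this
      linear_combination u ^ 2 * this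
    · have := congrArg σ s₂
      simp only [map_pow, map_add, map_mul, map_sub, map_ofNat] at this
      rw [hA]
      linear_combination u ^ 4 * this
    · have := congrArg σ s₃
      simp only [map_pow, map_add, map_mul, map_sub] at this
      rw [hB]
      linear_combination u ^ 6 * this)
  exact ⟨AddMonoidHom.mk' θ hadd, hθ⟩

noncomputable def mapScale (h2 : (2 : L) ≠ 0) (σ : K →+* L) (u : L) (hu : u ≠ 0) {A B : K}
    {A' B' : L} (hA : A' = u ^ 4 * σ A) (hB : B' = u ^ 6 * σ B) : Pt A B →+ Pt A' B' :=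
  Classical.choose (exists_mapScale h2 σ u hu hA hB)

theorem co_mapScale (h2 : (2 : L) ≠ 0) (σ : K →+* L) (u : L) (hu : u ≠ 0) {A B : K}
    {A' B' : L} (hA : A' = u ^ 4 * σ A) (hB : B' = u ^ 6 * σ B) (P : Pt A B) :
    co (mapScale h2 σ u hu hA hB P) = (co P).map (fun c => (u ^ 2 * σ c.1, u ^ 3 * σ c.2)) :=
  Classical.choose_spec (exists_mapScale h2 σ u hu hA hB) P

theorem mapScale_injective (h2 : (2 : L) ≠ 0) (σ : K →+* L) (u : L) (hu : u ≠ 0) {A B : K}
    {A' B' : L} (hA : A' = u ^ 4 * σ A) (hB : B' = u ^ 6 * σ B) :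
    Function.Injective (mapScale h2 σ u hu hA hB) := by
  intro P Q h
  apply co_injective
  have h' := congrArg co h
  rw [co_mapScale, co_mapScale] at h'
  refine Option.map_injective ?_ h'
  rintro ⟨a, b⟩ ⟨c, d⟩ hab
  simp only [Prod.mk.injEq] at hab
  obtain ⟨h1, h2'⟩ := hab
  have e1 := σ.injective (mul_left_cancel₀ (pow_ne_zero _ hu) h1)
  have e2 := σ.injective (mul_left_cancel₀ (pow_ne_zero _ hu) h2')
  rw [e1, e2]

/-- the endomorphism of the group of points induced by a field endomorphism fixing `A`, `B` -/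
noncomputable def mapPt (h2 : (2 : K) ≠ 0) (σ : K →+* K) {A B : K} (hA : σ A = A) (hB : σ B = B) :
    Pt A B →+ Pt A B :=
  mapScale h2 σ 1 one_ne_zero (by rw [hA]; ring) (by rw [hB]; ring)

theorem co_mapPt (h2 : (2 : K) ≠ 0) (σ : K →+* K) {A B : K} (hA : σ A = A) (hB : σ B = B)
    (P : Pt A B) : co (mapPt h2 σ hA hB P) = (co P).map (fun c => (σ c.1, σ c.2)) := by
  unfold mapPt
  rw [co_mapScale]
  simp

theorem mapPt_injective (h2 : (2 : K) ≠ 0) (σ : K →+* K) {A B : K} (hA : σ A = A) (hB : σ B = B) :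
    Function.Injective (mapPt h2 σ hA hB) :=
  mapScale_injective _ _ _ _ _ _

end Fermat.Agent.S52Lib
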