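import Fermat.Agent.S52.Defs

set_option autoImplicit false

namespace Fermat.Agent.S52Lib

variable {R : Type*} [CommRing R]

/-- Klein's icosahedral vertex form (up to sign). -/
def fK (a b : R) : R := a * b ^ 11 - 11 * a ^ 6 * b ^ 6 - a ^ 11 * b
/-- `∂ fK / ∂ a` -/
def fKa (a b : R) : R := b ^ 11 - 66 * a ^ 5 * b ^ 6 - 11 * a ^ 10 * b
/-- `∂ fK / ∂ b` -/
def fKb (a b : R) : R := 11 * a * b ^ 10 - 66 * a ^ 6 * b ^ 5 - a ^ 11
/-- the face form: `c₄` of the universal curve over the cone over `X(5)` -/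
def c4K (a b : R) : R :=
  a ^ 20 - 228 * a ^ 15 * b ^ 5 + 494 * a ^ 10 * b ^ 10 + 228 * a ^ 5 * b ^ 15 + b ^ 20
/-- the edge form: `c₆` of the universal curve over the cone over `X(5)` -/
def c6K (a b : R) : R :=
  -a ^ 30 - 522 * a ^ 25 * b ^ 5 + 10005 * a ^ 20 * b ^ 10 + 10005 * a ^ 10 * b ^ 20
    + 522 * a ^ 5 * b ^ 25 - b ^ 30

theorem klein_syzygy (a b : R) : c4K a b ^ 3 - c6K a b ^ 2 = 1728 * fK a b ^ 5 := by
  unfold c4K c6K fK; ring

theorem klein_euler (a b : R) : a * fKa a b + b * fKb a b = 12 * fK a b := by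
  unfold fKa fKb fK; ring

set_option maxHeartbeats 4000000 in
theorem klein_D (a b t : R) :
    fK (a - t * fKb a b) (b + t * fKa a b) = fK a b * Dp (c4K a b) (c6K a b) t := by
  unfold fK fKa fKb c4K c6K Dp
  ring

end Fermat.Agent.S52Lib
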