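import Fermat.Statements.S52
import Fermat.Agent.S52.Coprime

/-!
# S52: the integral model `famW W m` of the member `t = 1728 m` of the family
-/

set_option autoImplicit false

namespace Fermat.Agent.S52Lib

open WeierstrassCurve

/-- integral Weierstrass model of `E_t`, `t = 1728 m` -/
def famW (W : WeierstrassCurve ℤ) (m : ℤ) : WeierstrassCurve ℤ :=
  ⟨W.a₁, W.a₂, W.a₃, W.a₄ - 36 * m * G4 W.c₄ W.c₆ (1728 * m),
    W.a₆ - 3 * W.b₂ * m * G4 W.c₄ W.c₆ (1728 * m) - 2 * m * G6 W.c₄ W.c₆ (1728 * m)⟩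

variable (W : WeierstrassCurve ℤ) (m : ℤ)

theorem famW_c₄ : (famW W m).c₄ = C4p W.c₄ W.c₆ (1728 * m) := by
  have key : ∀ g4 g6 : ℤ, (⟨W.a₁, W.a₂, W.a₃, W.a₄ - 36 * m * g4,
      W.a₆ - 3 * W.b₂ * m * g4 - 2 * m * g6⟩ : WeierstrassCurve ℤ).c₄ = W.c₄ + 1728 * m * g4 := by
    intro g4 g6
    simp only [WeierstrassCurve.c₄, WeierstrassCurve.b₂, WeierstrassCurve.b₄]
    ring
  exact key _ _

theorem famW_c₆ : (famW W m).c₆ = C6p W.c₄ W.c₆ (1728 * m) := by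
  have key : ∀ g4 g6 : ℤ, (⟨W.a₁, W.a₂, W.a₃, W.a₄ - 36 * m * g4,
      W.a₆ - 3 * W.b₂ * m * g4 - 2 * m * g6⟩ : WeierstrassCurve ℤ).c₆ = W.c₆ + 1728 * m * g6 := by
    intro g4 g6
    simp only [WeierstrassCurve.c₆, WeierstrassCurve.b₂, WeierstrassCurve.b₄, WeierstrassCurve.b₆]
    ring
  exact key _ _

theorem famW_Δ : (famW W m).Δ = W.Δ * Dp W.c₄ W.c₆ (1728 * m) ^ 5 := by
  have h1 := (famW W m).c_relation
  have h2 := W.c_relation
  have h3 := syzygy W.c₄ W.c₆ (1728 * m)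
  rw [famW_c₄, famW_c₆, h3, ← h2] at h1
  have : (1728 : ℤ) * (famW W m).Δ = 1728 * (W.Δ * Dp W.c₄ W.c₆ (1728 * m) ^ 5) := by
    rw [h1]; ring
  exact mul_left_cancel₀ (by norm_num) this

theorem famW_reductionMod {ℓ : ℕ} (h : (ℓ : ℤ) ∣ m) :
    (famW W m).reductionMod ℓ = W.reductionMod ℓ := by
  have hm : ((m : ℤ) : ZMod ℓ) = 0 := (CharP.intCast_eq_zero_iff (ZMod ℓ) ℓ m).mpr h
  unfold WeierstrassCurve.reductionMod famW
  ext <;> simp [hm]

theorem famW_semistable (hW : W.IsSemistableModel) (hm : 30 * W.Δ ∣ m) :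
    (famW W m).IsSemistableModel := by
  intro p hp hpΔ
  rw [famW_Δ] at hpΔ
  rw [famW_c₄]
  have hpp : Prime (p : ℤ) := Nat.prime_iff_prime_int.mp hp
  by_cases h30 : (p : ℤ) ∣ 30 * W.Δ
  · have hpt : (p : ℤ) ∣ 1728 * m := Dvd.dvd.mul_left (h30.trans hm) _
    have hD : ¬ (p : ℤ) ∣ Dp W.c₄ W.c₆ (1728 * m) := by
      intro hd
      haveI := Fact.mk hp
      have e := map_Dp (Int.castRingHom (ZMod p)) W.c₄ W.c₆ (1728 * m)
      simp only [eq_intCast] at e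
      rw [(CharP.intCast_eq_zero_iff (ZMod p) p _).mpr hd,
        (CharP.intCast_eq_zero_iff (ZMod p) p _).mpr hpt, Dp_zero] at e
      exact zero_ne_one e
    have hΔ : (p : ℤ) ∣ W.Δ := by
      rcases hpp.dvd_or_dvd hpΔ with h | h
      · exact h
      · exact absurd (hpp.dvd_of_dvd_pow h) hD
    intro hc
    apply hW p hp hΔ
    unfold C4p at hc
    exact (Int.dvd_add_left (Dvd.dvd.mul_right hpt _)).mp hc
  · have hΔ : ¬ (p : ℤ) ∣ W.Δ := fun h => h30 (Dvd.dvd.mul_left h _)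
    have hD : (p : ℤ) ∣ Dp W.c₄ W.c₆ (1728 * m) := by
      rcases hpp.dvd_or_dvd hpΔ with h | h
      · exact absurd h hΔ
      · exact hpp.dvd_of_dvd_pow h
    exact coprime_int hp W.c₄ W.c₆ W.Δ (1728 * m) W.c_relation.symm h30 hD

end Fermat.Agent.S52Lib
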