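import Mathlib

/-!
# S52: functions satisfying the parallelogram law; the abstract Frobenius relation
-/

set_option autoImplicit false

namespace Fermat.Agent.S52Lib

variable {G : Type*} [AddCommGroup G]

theorem QF_zero (h : G → ℤ) (hPL : ∀ P Q, h (P + Q) + h (P - Q) = 2 * h P + 2 * h Q) : h 0 = 0 := by
  have := hPL 0 0
  simp at this
  omega

theorem QF_neg (h : G → ℤ) (hPL : ∀ P Q, h (P + Q) + h (P - Q) = 2 * h P + 2 * h Q) (P : G) :
    h (-P) = h P := by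
  have h0 := QF_zero h hPL
  have := hPL 0 P
  simp at this
  omega

/-- (QF1) the polar form of a function satisfying the parallelogram law is biadditive -/
theorem qf_biadd (h : G → ℤ) (hPL : ∀ P Q, h (P + Q) + h (P - Q) = 2 * h P + 2 * h Q) (P P' Q : G) :
    h (P + P' + Q) - h (P + P') - h Q = (h (P + Q) - h P - h Q) + (h (P' + Q) - h P' - h Q) := by
  -- standard: four instances of the parallelogram law
  have e1 := hPL (P + Q) P'
  have e2 := hPL (P' + Q) P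
  have e3 := hPL (P - P') Q
  have e4 := hPL P P'
  have e5 := hPL (P + P') Q
  have e6 := hPL (P + Q) (P' + Q)
  have e7 := hPL (P + P' + Q) Q
  have e8 := hPL P (P' + Q)
  have e9 := hPL P' (P + Q)
  have e10 := hPL (P + Q) (P' - Q)
  have e11 := hPL P Q
  have e12 := hPL P' Q
  have r1 : P + Q + P' = P + P' + Q := by abel
  have r2 : P' + Q + P = P + P' + Q := by abel
  have r3 : P + Q - P' = P - P' + Q := by abel
  have r4 : P' + Q - P = -(P - P' - Q) := by abel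
  have r6 : P + Q + (P' + Q) = P + P' + Q + Q := by abel
  have r6' : P + Q - (P' + Q) = P - P' := by abel
  have r7 : P + P' + Q - Q = P + P' := by abel
  rw [r1, r3] at e1
  rw [r2, r4, QF_neg h hPL] at e2
  rw [r6, r6'] at e6
  rw [r7] at e7
  omega

/-- (QF2) -/
theorem qf_eq_of_le (h : G → ℤ) (hPL : ∀ P Q, h (P + Q) + h (P - Q) = 2 * h P + 2 * h Q)
    (η Φ : G) (ℓ N : ℤ) (h1 : h η = 1) (h2 : h Φ = ℓ) (hle : h (Φ - η) ≤ N)
    (hle' : h (Φ + η) ≤ 2 * ℓ + 2 - N) : h (Φ - η) = N := by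
  have := hPL Φ η
  omega

/-- the polar form as a biadditive map -/
noncomputable def QF_B (h : G → ℤ) (hPL : ∀ P Q, h (P + Q) + h (P - Q) = 2 * h P + 2 * h Q) :
    G →+ G →+ ℤ :=
  AddMonoidHom.mk' (fun P => AddMonoidHom.mk' (fun Q => h (P + Q) - h P - h Q) (by
    intro Q Q'
    have := qf_biadd h hPL Q Q' P
    have r1 : Q + Q' + P = P + (Q + Q') := by abel
    have r2 : Q + P = P + Q := by abel
    have r3 : Q' + P = P + Q' := by abel
    rw [r1, r2, r3] at this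
    omega)) (by
    intro P P'
    ext Q
    simp only [AddMonoidHom.mk'_apply, AddMonoidHom.add_apply]
    have := qf_biadd h hPL P P' Q
    omega)

theorem QF_B_apply (h : G → ℤ) (hPL : ∀ P Q, h (P + Q) + h (P - Q) = 2 * h P + 2 * h Q) (P Q : G) :
    QF_B h hPL P Q = h (P + Q) - h P - h Q := rfl

theorem QF_add (h : G → ℤ) (hPL : ∀ P Q, h (P + Q) + h (P - Q) = 2 * h P + 2 * h Q) (P Q : G) :
    h (P + Q) = h P + h Q + QF_B h hPL P Q := by
  rw [QF_B_apply]; ring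

theorem QF_B_comm (h : G → ℤ) (hPL : ∀ P Q, h (P + Q) + h (P - Q) = 2 * h P + 2 * h Q) (P Q : G) :
    QF_B h hPL P Q = QF_B h hPL Q P := by
  rw [QF_B_apply, QF_B_apply, add_comm P Q]; ring

theorem QF_B_self (h : G → ℤ) (hPL : ∀ P Q, h (P + Q) + h (P - Q) = 2 * h P + 2 * h Q) (P : G) :
    QF_B h hPL P P = 2 * h P := by
  rw [QF_B_apply]
  have := hPL P P
  rw [sub_self, QF_zero h hPL] at this
  omega

theorem QF_zsmul (h : G → ℤ) (hPL : ∀ P Q, h (P + Q) + h (P - Q) = 2 * h P + 2 * h Q) (n : ℤ)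
    (P : G) : h (n • P) = n ^ 2 * h P := by
  have h1 := QF_B_self h hPL (n • P)
  have h2 := QF_B_self h hPL P
  rw [map_zsmul, map_zsmul, AddMonoidHom.zsmul_apply, h2] at h1
  simp only [smul_eq_mul] at h1
  have : 2 * h (n • P) = 2 * (n ^ 2 * h P) := by rw [← h1]; ring
  omega

/-- (QF3) the abstract form of `φ² - a φ + ℓ = 0` -/
theorem qf_main (h : G → ℤ) (hPL : ∀ P Q, h (P + Q) + h (P - Q) = 2 * h P + 2 * h Q)
    (η Φ Φ₂ : G) (Fr Cb : G →+ G) (ℓ N : ℤ) (h1 : h η = 1) (h2 : h Φ = ℓ) (hN : h (Φ - η) = N)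
    (hFr : ∀ P, h (Fr P) = ℓ * h P) (hFrη : Fr η = Φ) (hFrΦ : Fr Φ = Φ₂)
    (hC : ∀ P, h (Cb P) = h P * N) (hCη : Cb η = Φ - η) (hCΦ : Cb Φ = Fr (Φ - η)) :
    h (Φ₂ - (ℓ + 1 - N) • Φ + ℓ • η) = 0 := by
  set B := QF_B h hPL with hB
  have hΦ₂ : h Φ₂ = ℓ ^ 2 := by rw [← hFrΦ, hFr, h2]; ring
  -- `B(Φ, η) = ℓ + 1 - N`
  have b1 : B Φ η = ℓ + 1 - N := by
    have e := QF_add h hPL Φ (-η)
    rw [← sub_eq_add_neg, hN, QF_neg h hPL, h1, h2, map_neg] at e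
    rw [hB]; linarith
  -- `B(Fr x, Fr y) = ℓ B(x, y)`
  have bFr : ∀ x y, B (Fr x) (Fr y) = ℓ * B x y := by
    intro x y
    rw [hB, QF_B_apply, QF_B_apply, ← map_add, hFr, hFr, hFr]; ring
  have b2 : B Φ₂ Φ = ℓ * (ℓ + 1 - N) := by
    rw [← hFrΦ, ← hFrη, bFr, hFrη, b1]
  -- `B(Φ₂, η)`
  have b3 : B Φ₂ η = (ℓ + 1 - N) ^ 2 - 2 * ℓ := by
    have e1 : Cb (Φ - η) = Φ₂ + ((-2 : ℤ) • Φ + η) := by
      rw [map_sub, hCΦ, hCη, map_sub, hFrΦ, hFrη]
      simp only [neg_smul, two_zsmul]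
      abel
    have e2 := hC (Φ - η)
    rw [e1, hN, QF_add h hPL, QF_add h hPL ((-2 : ℤ) • Φ) η, QF_zsmul h hPL, hΦ₂, h1, h2, map_add,
      map_zsmul, map_zsmul, AddMonoidHom.zsmul_apply, ← hB, b1, b2] at e2
    simp only [smul_eq_mul] at e2
    linarith
  have e : Φ₂ - (ℓ + 1 - N) • Φ + ℓ • η = Φ₂ + ((-(ℓ + 1 - N)) • Φ + ℓ • η) := by
    rw [neg_smul]; abel
  rw [e, QF_add h hPL, QF_add h hPL ((-(ℓ + 1 - N)) • Φ) (ℓ • η), QF_zsmul h hPL, QF_zsmul h hPL,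
    hΦ₂, h1, h2, map_add, map_zsmul, map_zsmul, map_zsmul, map_zsmul, AddMonoidHom.zsmul_apply,
    ← hB, b1, b2, b3]
  simp only [smul_eq_mul]
  ring

end Fermat.Agent.S52Lib
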