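import Fermat.Agent.S52.Hom

/-!
# S52: the reduction homomorphism at a place of good reduction
-/

set_option autoImplicit false

namespace Fermat.Agent.S52Lib

variable {K κ : Type*} [Field K] [DecidableEq K] [Field κ] [DecidableEq κ]

section RedAux

variable (O : ValuationSubring K) (π : O →+* κ) [IsLocalHom π]

theorem red_mem_of_sq {z : K} (h : z ^ 2 ∈ O) : z ∈ O := by
  rcases O.mem_or_inv_mem z with h1 | h1
  · exact h1
  · by_cases hz : z = 0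
    · rw [hz]; exact O.zero_mem
    · have : z = z ^ 2 * z⁻¹ := by field_simp
      rw [this]; exact O.mul_mem _ _ h h1

theorem red_pi_inv {z : K} (hz : z ∉ O) : ∃ h : z⁻¹ ∈ O, π ⟨z⁻¹, h⟩ = 0 := by
  have h1 : z⁻¹ ∈ O := (O.mem_or_inv_mem z).resolve_left hz
  refine ⟨h1, ?_⟩
  by_contra hne
  have hu : IsUnit (π ⟨z⁻¹, h1⟩) := isUnit_iff_ne_zero.mpr hne
  have hu' : IsUnit (⟨z⁻¹, h1⟩ : O) := (isUnit_map_iff π _).mp hu
  obtain ⟨w, hw⟩ := hu'.exists_right_inv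
  apply hz
  have h3 : (z⁻¹ : K) * (w : K) = 1 := congrArg Subtype.val hw
  have hz0 : z ≠ 0 := by rintro rfl; exact hz O.zero_mem
  have h4 : (w : K) = z := by
    field_simp at h3
    exact h3
  rw [← h4]; exact w.2

variable {O π}

theorem red_case_all (h2 : (2 : κ) ≠ 0) {A B : O} {R₁ R₂ R₃ : Pt (π A) (π B)}
    {x₁ y₁ x₂ y₂ x₃ y₃ : O} {l n : K}
    (c₁ : co R₁ = some (π x₁, π y₁)) (c₂ : co R₂ = some (π x₂, π y₂))
    (c₃ : co R₃ = some (π x₃, π y₃))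
    (e₁ : (y₁ : K) = l * x₁ + n) (e₂ : (y₂ : K) = l * x₂ + n) (e₃ : (y₃ : K) = l * x₃ + n)
    (s₁ : (x₁ : K) + x₂ + x₃ = l ^ 2)
    (s₂ : (x₁ : K) * x₂ + x₁ * x₃ + x₂ * x₃ = A - 2 * l * n)
    (s₃ : (x₁ : K) * x₂ * x₃ = n ^ 2 - B) : R₁ + R₂ + R₃ = 0 := by
  have hl : l ∈ O := red_mem_of_sq O (by
    rw [← s₁]; exact O.add_mem _ _ (O.add_mem _ _ x₁.2 x₂.2) x₃.2)
  have hn : n ∈ O := by
    have : n = y₁ - l * x₁ := by rw [e₁]; ring
    rw [this]; exact O.sub_mem y₁.2 (O.mul_mem _ _ hl x₁.2)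
  lift l to O using hl
  lift n to O using hn
  have e₁' : y₁ = l * x₁ + n := Subtype.ext e₁
  have e₂' : y₂ = l * x₂ + n := Subtype.ext e₂
  have e₃' : y₃ = l * x₃ + n := Subtype.ext e₃
  have s₁' : x₁ + x₂ + x₃ = l ^ 2 := Subtype.ext s₁
  have s₂' : x₁ * x₂ + x₁ * x₃ + x₂ * x₃ = A - 2 * l * n := Subtype.ext s₂
  have s₃' : x₁ * x₂ * x₃ = n ^ 2 - B := Subtype.ext s₃
  refine col h2 c₁ c₂ c₃ (l := π l) (n := π n) ?_ ?_ ?_ ?_ ?_ ?_
  · rw [e₁']; simp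
  · rw [e₂']; simp
  · rw [e₃']; simp
  · have := congrArg π s₁'; simpa using this
  · have := congrArg π s₂'
    simpa [map_ofNat] using this
  · have := congrArg π s₃'; simpa using this

theorem red_case_one {A B : O} {R₁ R₂ : Pt (π A) (π B)}
    {x₁ y₁ x₂ y₂ : O} {x₃ l n : K}
    (c₁ : co R₁ = some (π x₁, π y₁)) (c₂ : co R₂ = some (π x₂, π y₂)) (hx₃ : x₃ ∉ O)
    (e₁ : (y₁ : K) = l * x₁ + n) (e₂ : (y₂ : K) = l * x₂ + n)
    (s₁ : (x₁ : K) + x₂ + x₃ = l ^ 2)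
    (s₂ : (x₁ : K) * x₂ + x₁ * x₃ + x₂ * x₃ = A - 2 * l * n) : R₁ + R₂ = 0 := by
  have hl : l ∉ O := fun h => hx₃ (by
    have : x₃ = l ^ 2 - x₁ - x₂ := by rw [← s₁]; ring
    rw [this]
    exact O.sub_mem (O.sub_mem (O.pow_mem h 2) x₁.2) x₂.2)
  obtain ⟨hm, hπ⟩ := red_pi_inv O π hl
  have hl0 : l ≠ 0 := by rintro rfl; exact hl O.zero_mem
  have k₁ : x₁ - x₂ = (y₁ - y₂) * ⟨l⁻¹, hm⟩ := Subtype.ext (by
    show (x₁ : K) - x₂ = ((y₁ : K) - y₂) * l⁻¹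
    rw [e₁, e₂]; field_simp; ring)
  have k₂ : y₁ + y₂ = (x₁ ^ 2 + x₁ * x₂ + x₂ ^ 2 + A) * ⟨l⁻¹, hm⟩ := Subtype.ext (by
    show (y₁ : K) + y₂ = ((x₁ : K) ^ 2 + x₁ * x₂ + x₂ ^ 2 + A) * l⁻¹
    have hA : (A : K) = (x₁ : K) * x₂ + x₁ * x₃ + x₂ * x₃ + 2 * l * n := by rw [s₂]; ring
    have h3 : x₃ = l ^ 2 - x₁ - x₂ := by rw [← s₁]; ring
    rw [hA, h3, e₁, e₂]; field_simp; ring)
  have p₁ : π x₁ = π x₂ := by
    have := congrArg π k₁
    rw [map_sub, map_mul, hπ, mul_zero] at this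
    exact sub_eq_zero.mp this
  have p₂ : π y₂ = -π y₁ := by
    have := congrArg π k₂
    rw [map_add, map_mul, hπ, mul_zero] at this
    exact eq_neg_of_add_eq_zero_right this
  have : R₂ = -R₁ := co_injective (by rw [co_neg c₁, c₂, p₁, p₂])
  rw [this, add_neg_cancel]

theorem red_case_two (π : O →+* κ) [IsLocalHom π] {A : O} {x₁ y₁ : O} {x₂ x₃ l n : K}
    (hx₂ : x₂ ∉ O) (hx₃ : x₃ ∉ O)
    (e₁ : (y₁ : K) = l * x₁ + n) (s₁ : (x₁ : K) + x₂ + x₃ = l ^ 2)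
    (s₂ : (x₁ : K) * x₂ + x₁ * x₃ + x₂ * x₃ = A - 2 * l * n) : False := by
  have E₁ : x₂ + x₃ = l ^ 2 - x₁ := by rw [← s₁]; ring
  have E₂ : x₂ * x₃ = l ^ 2 * x₁ - 2 * l * y₁ + (x₁ : K) ^ 2 + A := by
    linear_combination s₂ - (x₁ : K) * s₁ + 2 * l * e₁
  obtain ⟨ha, hπa⟩ := red_pi_inv O π hx₂
  obtain ⟨hb, hπb⟩ := red_pi_inv O π hx₃
  have hx₂0 : x₂ ≠ 0 := by rintro rfl; exact hx₂ O.zero_mem
  have hx₃0 : x₃ ≠ 0 := by rintro rfl; exact hx₃ O.zero_mem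
  by_cases hl : l ∈ O
  · apply hx₂
    have : x₂ = (l ^ 2 - x₁) - (l ^ 2 * x₁ - 2 * l * y₁ + (x₁ : K) ^ 2 + A) * x₂⁻¹ := by
      rw [← E₁, ← E₂]; field_simp; ring
    rw [this]
    refine O.sub_mem (O.sub_mem (O.pow_mem hl 2) x₁.2) (O.mul_mem _ _ ?_ ha)
    refine O.add_mem _ _ (O.add_mem _ _ (O.sub_mem (O.mul_mem _ _ (O.pow_mem hl 2) x₁.2) ?_)
      (O.pow_mem x₁.2 2)) A.2
    exact O.mul_mem _ _ (O.mul_mem _ _ (by exact_mod_cast (2 : O).2) hl) y₁.2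
  · obtain ⟨hm, hπm⟩ := red_pi_inv O π hl
    have hl0 : l ≠ 0 := by rintro rfl; exact hl O.zero_mem
    have key : ((⟨x₂⁻¹, ha⟩ : O) + ⟨x₃⁻¹, hb⟩) *
        (x₁ - 2 * y₁ * ⟨l⁻¹, hm⟩ + (x₁ ^ 2 + A) * (⟨l⁻¹, hm⟩ : O) ^ 2)
          = 1 - x₁ * (⟨l⁻¹, hm⟩ : O) ^ 2 := Subtype.ext (by
      show (x₂⁻¹ + x₃⁻¹) * ((x₁ : K) - 2 * y₁ * l⁻¹ + ((x₁ : K) ^ 2 + A) * l⁻¹ ^ 2)
        = 1 - x₁ * l⁻¹ ^ 2
      have h1 : (x₁ : K) - 2 * y₁ * l⁻¹ + ((x₁ : K) ^ 2 + A) * l⁻¹ ^ 2 = (x₂ * x₃) * l⁻¹ ^ 2 := by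
        rw [E₂]; field_simp; ring
      have h2 : 1 - (x₁ : K) * l⁻¹ ^ 2 = (x₂ + x₃) * l⁻¹ ^ 2 := by
        rw [E₁]; field_simp
      rw [h1, h2]; field_simp; ring)
    have := congrArg π key
    rw [map_mul, map_add, hπa, hπb, add_zero, zero_mul, map_sub, map_mul, map_pow, hπm, map_one] at this
    simp at this


theorem red_two_ne_zero (π : O →+* κ) (h2 : (2 : κ) ≠ 0) : (2 : K) ≠ 0 := by
  intro h
  apply h2
  have h' : (2 : O) = 0 := Subtype.ext (by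
    have h'' : ((2 : O) : K) = 2 := rfl
    rw [h'', h]; rfl)
  have := congrArg π h'
  simpa [map_ofNat] using this

/-- one duplication step in the kernel of reduction -/
theorem red_dbl_step (π : O →+* κ) [IsLocalHom π] (h2K : (2 : K) ≠ 0) {A B : O} {x y : K}
    (hE : y ^ 2 = x ^ 3 + (A : K) * x + B) (hx : x ∉ O) (hy : y ≠ 0) :
    ∃ a b : O, π a = 1 ∧ π b = 1 ∧
      4 * (a : K) * (((3 * x ^ 2 + (A : K)) / (2 * y)) ^ 2 - 2 * x) = b * x ∧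
      (((3 * x ^ 2 + (A : K)) / (2 * y)) ^ 2 - 2 * x) ∉ O := by
  obtain ⟨hw, hπw⟩ := red_pi_inv O π hx
  have hx0 : x ≠ 0 := by rintro rfl; exact hx O.zero_mem
  set w : O := ⟨x⁻¹, hw⟩ with hwdef
  have hwx : (w : K) = x⁻¹ := rfl
  set x' : K := ((3 * x ^ 2 + (A : K)) / (2 * y)) ^ 2 - 2 * x with hx'
  have ha : π (1 + A * w ^ 2 + B * w ^ 3) = 1 := by
    simp [hπw]
  have hb : π (1 - 2 * A * w ^ 2 - 8 * B * w ^ 3 + A ^ 2 * w ^ 4) = 1 := by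
    simp [hπw]
  have hab : 4 * ((1 + A * w ^ 2 + B * w ^ 3 : O) : K) * x'
      = ((1 - 2 * A * w ^ 2 - 8 * B * w ^ 3 + A ^ 2 * w ^ 4 : O) : K) * x := by
    have h1 : 4 * y ^ 2 * x' = (3 * x ^ 2 + (A : K)) ^ 2 - 8 * x * y ^ 2 := by
      rw [hx']; field_simp; ring
    have h2 : 4 * (x ^ 3 + (A : K) * x + B) * x'
        = x ^ 4 - 2 * (A : K) * x ^ 2 - 8 * B * x + (A : K) ^ 2 := by
      rw [← hE, h1, hE]; ring
    show 4 * (1 + (A : K) * (w : K) ^ 2 + B * (w : K) ^ 3) * x'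
      = (1 - 2 * (A : K) * (w : K) ^ 2 - 8 * B * (w : K) ^ 3 + (A : K) ^ 2 * (w : K) ^ 4) * x
    rw [hwx]
    field_simp
    linear_combination h2
  refine ⟨_, _, ha, hb, hab, ?_⟩
  intro hmem
  have hbb : (1 - 2 * A * w ^ 2 - 8 * B * w ^ 3 + A ^ 2 * w ^ 4 : O)
      = 4 * (1 + A * w ^ 2 + B * w ^ 3) * ⟨x', hmem⟩ * w := Subtype.ext (by
    have : ((4 * (1 + A * w ^ 2 + B * w ^ 3) * ⟨x', hmem⟩ * w : O) : K)
      = 4 * ((1 + A * w ^ 2 + B * w ^ 3 : O) : K) * x' * x⁻¹ := rfl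
    rw [this, hab]
    field_simp)
  have := congrArg π hbb
  rw [hb, map_mul, hπw, mul_zero] at this
  exact one_ne_zero this

end RedAux

/-- (RED) reduction is a group homomorphism.  `O` is a valuation subring of `K`, `π : O → κ` a local
ring homomorphism to a field, `y² = x³ + A x + B` has coefficients in `O` and good reduction. -/
theorem exists_red (O : ValuationSubring K) (π : O →+* κ) [IsLocalHom π] (h2 : (2 : κ) ≠ 0)
    (A B : O) (hd : π (4 * A ^ 3 + 27 * B ^ 2) ≠ 0) :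
    ∃ r : Pt (A : K) (B : K) →+ Pt (π A) (π B),
      (∀ (P : Pt (A : K) (B : K)) (x y : K), co P = some (x, y) → ∀ hx : x ∈ O,
        ∃ hy : y ∈ O, co (r P) = some (π ⟨x, hx⟩, π ⟨y, hy⟩)) ∧
      (∀ (P : Pt (A : K) (B : K)) (x y : K), co P = some (x, y) → x ∉ O → r P = 0) := by
  have h2K : (2 : K) ≠ 0 := red_two_ne_zero π h2
  have hd' : 4 * (π A) ^ 3 + 27 * (π B) ^ 2 ≠ 0 := by simpa [map_ofNat] using hd
  have hex : ∀ P : Pt (A : K) (B : K), ∃ R : Pt (π A) (π B),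
      (P = 0 → R = 0) ∧
      (∀ x y : K, co P = some (x, y) → ∀ hx : x ∈ O,
        ∃ hy : y ∈ O, co R = some (π ⟨x, hx⟩, π ⟨y, hy⟩)) ∧
      (∀ x y : K, co P = some (x, y) → x ∉ O → R = 0) := by
    intro P
    rcases hP : co P with _ | ⟨x, y⟩
    · exact ⟨0, fun _ => rfl, fun x y h => by simp at h, fun x y h => by simp at h⟩
    · by_cases hx : x ∈ O
      · have hE := co_eqn hP
        have hy : y ∈ O := red_mem_of_sq O (by
          rw [hE]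
          exact O.add_mem _ _ (O.add_mem _ _ (O.pow_mem hx 3) (O.mul_mem _ _ A.2 hx)) B.2)
        have hE' : (⟨y, hy⟩ : O) ^ 2 = ⟨x, hx⟩ ^ 3 + A * ⟨x, hx⟩ + B := Subtype.ext hE
        obtain ⟨R, hR⟩ := exists_pt h2 hd' (x := π ⟨x, hx⟩) (y := π ⟨y, hy⟩) (by
          have := congrArg π hE'
          rw [map_pow, map_add, map_add, map_pow, map_mul] at this
          exact this)
        refine ⟨R, ?_, ?_, ?_⟩
        · intro h
          rw [h, co_zero] at hP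
          simp at hP
        · intro x' y' h hx'
          obtain ⟨rfl, rfl⟩ : x = x' ∧ y = y' := by simpa using h
          exact ⟨hy, hR⟩
        · intro x' y' h hx'
          obtain ⟨rfl, rfl⟩ : x = x' ∧ y = y' := by simpa using h
          exact absurd hx hx'
      · refine ⟨0, fun _ => rfl, ?_, fun _ _ _ _ => rfl⟩
        intro x' y' h hx'
        obtain ⟨rfl, rfl⟩ : x = x' ∧ y = y' := by simpa using h
        exact absurd hx' hx
  choose r hr0 hr1 hr2 using hex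
  have hcases : ∀ (P : Pt (A : K) (B : K)) (x y : K), co P = some (x, y) →
      (∃ X Y : O, (X : K) = x ∧ (Y : K) = y ∧ co (r P) = some (π X, π Y)) ∨
        (x ∉ O ∧ r P = 0) := by
    intro P x y hP
    by_cases hx : x ∈ O
    · obtain ⟨hy, h⟩ := hr1 P x y hP hx
      exact Or.inl ⟨⟨x, hx⟩, ⟨y, hy⟩, rfl, rfl, h⟩
    · exact Or.inr ⟨hx, hr2 P x y hP hx⟩
  have hco : ∀ P : Pt (A : K) (B : K), P ≠ 0 → ∃ x y : K, co P = some (x, y) := by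
    intro P hP
    rcases h : co P with _ | ⟨x, y⟩
    · exact absurd (co_eq_none.mp h) hP
    · exact ⟨x, y, rfl⟩
  have hadd : ∀ P Q, r (P + Q) = r P + r Q := by
    refine additive_of_col r (hr0 0 rfl) ?_ ?_
    · intro P
      by_cases hP0 : P = 0
      · rw [hP0, neg_zero, hr0 0 rfl, neg_zero]
      · obtain ⟨x, y, hP⟩ := hco P hP0
        by_cases hx : x ∈ O
        · obtain ⟨hy, h⟩ := hr1 P x y hP hx
          obtain ⟨hy', h'⟩ := hr1 (-P) x (-y) (co_neg hP) hx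
          apply co_injective
          rw [h', co_neg h, ← map_neg]
          rfl
        · rw [hr2 P x y hP hx, hr2 (-P) x (-y) (co_neg hP) hx, neg_zero]
    · intro P₁ P₂ P₃ n₁ n₂ n₃ hsum
      obtain ⟨x₁, y₁, h₁⟩ := hco P₁ n₁
      obtain ⟨x₂, y₂, h₂⟩ := hco P₂ n₂
      obtain ⟨x₃, y₃, h₃⟩ := hco P₃ n₃
      obtain ⟨l, n, e₁, e₂, e₃, s₁, s₂, s₃⟩ := col' h2K h₁ h₂ h₃ hsum
      rcases hcases P₁ x₁ y₁ h₁ with ⟨X₁, Y₁, rfl, rfl, c₁⟩ | ⟨o₁, z₁⟩ <;>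
      rcases hcases P₂ x₂ y₂ h₂ with ⟨X₂, Y₂, rfl, rfl, c₂⟩ | ⟨o₂, z₂⟩ <;>
      rcases hcases P₃ x₃ y₃ h₃ with ⟨X₃, Y₃, rfl, rfl, c₃⟩ | ⟨o₃, z₃⟩
      · exact red_case_all h2 c₁ c₂ c₃ e₁ e₂ e₃ s₁ s₂ s₃
      · rw [z₃, add_zero]
        exact red_case_one c₁ c₂ o₃ e₁ e₂ s₁ s₂
      · rw [z₂, add_zero]
        exact red_case_one c₁ c₃ o₂ e₁ e₃ (by rw [← s₁]; ring) (by rw [← s₂]; ring)
      · exact (red_case_two π o₂ o₃ e₁ s₁ s₂).elim
      · rw [z₁, zero_add]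
        exact red_case_one c₂ c₃ o₁ e₂ e₃ (by rw [← s₁]; ring) (by rw [← s₂]; ring)
      · exact (red_case_two π o₁ o₃ e₂ (by rw [← s₁]; ring) (by rw [← s₂]; ring)).elim
      · exact (red_case_two π o₁ o₂ e₃ (by rw [← s₁]; ring) (by rw [← s₂]; ring)).elim
      · rw [z₁, z₂, z₃, add_zero, add_zero]
  exact ⟨AddMonoidHom.mk' r hadd, hr1, hr2⟩

noncomputable def red (O : ValuationSubring K) (π : O →+* κ) [IsLocalHom π] (h2 : (2 : κ) ≠ 0)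
    (A B : O) (hd : π (4 * A ^ 3 + 27 * B ^ 2) ≠ 0) : Pt (A : K) (B : K) →+ Pt (π A) (π B) :=
  Classical.choose (exists_red O π h2 A B hd)

section

variable (O : ValuationSubring K) (π : O →+* κ) [IsLocalHom π] (h2 : (2 : κ) ≠ 0)
    (A B : O) (hd : π (4 * A ^ 3 + 27 * B ^ 2) ≠ 0)

theorem co_red_of_mem {P : Pt (A : K) (B : K)} {x y : K} (h : co P = some (x, y)) (hx : x ∈ O) :
    ∃ hy : y ∈ O, co (red O π h2 A B hd P) = some (π ⟨x, hx⟩, π ⟨y, hy⟩) :=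
  (Classical.choose_spec (exists_red O π h2 A B hd)).1 P x y h hx

theorem red_of_not_mem {P : Pt (A : K) (B : K)} {x y : K} (h : co P = some (x, y)) (hx : x ∉ O) :
    red O π h2 A B hd P = 0 :=
  (Classical.choose_spec (exists_red O π h2 A B hd)).2 P x y h hx

/-- (RED5) the kernel of reduction has no `5`-torsion when `30` is a unit. -/
theorem red_ne_zero_of_five (h3 : (3 : κ) ≠ 0) (h5 : (5 : κ) ≠ 0) {P : Pt (A : K) (B : K)}
    (hP : P ≠ 0) (h5P : (5 : ℕ) • P = 0) : red O π h2 A B hd P ≠ 0 := by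
  have h2K : (2 : K) ≠ 0 := red_two_ne_zero π h2
  intro hred
  rcases hc : co P with _ | ⟨x, y⟩
  · exact hP (co_eq_none.mp hc)
  have hx : x ∉ O := by
    intro hx
    obtain ⟨hy, h⟩ := co_red_of_mem O π h2 A B hd hc hx
    rw [hred, co_zero] at h
    simp at h
  have h4 : (P + P) + (P + P) = -P := by
    apply eq_neg_of_add_eq_zero_left
    rw [← h5P]
    abel
  have hy : y ≠ 0 := by
    rintro rfl
    have h0 := dbl_eq_zero h2K hc
    rw [h0, add_zero] at h4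
    exact hP (neg_eq_zero.mp h4.symm)
  have hc2 := co_dbl h2K hc hy
  obtain ⟨a, b, ha, hb, hab, hx'⟩ := red_dbl_step π h2K (co_eqn hc) hx hy
  have hy' : -(((3 * x ^ 2 + (A : K)) / (2 * y)) * (((3 * x ^ 2 + (A : K)) / (2 * y)) ^ 2
      - 2 * x - x) + y) ≠ 0 := by
    intro h0
    rw [h0] at hc2
    have h0' := dbl_eq_zero h2K hc2
    rw [h0'] at h4
    exact hP (neg_eq_zero.mp h4.symm)
  have hc4 := co_dbl h2K hc2 hy'
  obtain ⟨a', b', ha', hb', hab', -⟩ := red_dbl_step π h2K (co_eqn hc2) hx' hy'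
  rw [h4, co_neg hc] at hc4
  have hxx := (Prod.ext_iff.mp (Option.some.inj hc4)).1
  simp only at hxx
  rw [← hxx] at hab'
  have hx0 : x ≠ 0 := by rintro rfl; exact hx O.zero_mem
  have hfin : (16 * a * a' : O) = b * b' := Subtype.ext (by
    show (16 : K) * a * a' = b * b'
    apply mul_right_cancel₀ hx0
    linear_combination 4 * (a : K) * hab' + (b' : K) * hab)
  have := congrArg π hfin
  rw [map_mul, map_mul, map_mul, ha, ha', hb, hb', map_ofNat] at this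
  apply mul_ne_zero h3 h5
  linear_combination this

/-- (REDF) functoriality of reduction. -/
theorem red_mapPt (h2K : (2 : K) ≠ 0) (σ : K →+* K) (τ : κ →+* κ) (hO : ∀ x : K, σ x ∈ O ↔ x ∈ O)
    (hπ : ∀ (x : O) (h : σ (x : K) ∈ O), π ⟨σ (x : K), h⟩ = τ (π x))
    (hA : σ (A : K) = A) (hB : σ (B : K) = B) (hA' : τ (π A) = π A) (hB' : τ (π B) = π B)
    (P : Pt (A : K) (B : K)) :
    red O π h2 A B hd (mapPt h2K σ hA hB P) = mapPt h2 τ hA' hB' (red O π h2 A B hd P) := by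
  rcases hc : co P with _ | ⟨x, y⟩
  · rw [co_eq_none.mp hc, map_zero, map_zero, map_zero]
  have hc' : co (mapPt h2K σ hA hB P) = some (σ x, σ y) := by
    rw [co_mapPt, hc]; rfl
  by_cases hx : x ∈ O
  · obtain ⟨hy, h⟩ := co_red_of_mem O π h2 A B hd hc hx
    obtain ⟨hy', h'⟩ := co_red_of_mem O π h2 A B hd hc' ((hO x).mpr hx)
    apply co_injective
    rw [h', co_mapPt, h]
    have e₁ := hπ ⟨x, hx⟩ ((hO x).mpr hx)
    have e₂ := hπ ⟨y, hy⟩ hy'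
    simp only [Option.map_some]
    rw [← e₁, ← e₂]
  · rw [red_of_not_mem O π h2 A B hd hc hx,
      red_of_not_mem O π h2 A B hd hc' (fun h => hx ((hO x).mp h)), map_zero]

end

end Fermat.Agent.S52Lib
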