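import Fermat.Agent.S52.TwistDefs
import Fermat.Agent.S52.Red
import Fermat.Agent.S52.Ev

/-!
# S52: specialisation of the twisted curve at a point of `y² = x³ + A x + B`  (leaf SPEC)
-/

set_option autoImplicit false

namespace Fermat.Agent.S52Lib

open Polynomial

variable {F : Type*} [Field F] [DecidableEq F]

omit [DecidableEq F] in
theorem spec_fT_eq (A B : F) :
    fT A B = algebraMap F[X] (RatFunc F) (X ^ 3 + C A * X + C B) := by
  unfold fT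
  rw [map_add, map_add, map_mul, map_pow, RatFunc.algebraMap_X, RatFunc.algebraMap_C,
    RatFunc.algebraMap_C]

omit [DecidableEq F] in
theorem spec_A_eq (A B : F) :
    RatFunc.C A * fT A B ^ 2
      = algebraMap F[X] (RatFunc F) (C A * (X ^ 3 + C A * X + C B) ^ 2) := by
  rw [spec_fT_eq, map_mul, map_pow, RatFunc.algebraMap_C]

omit [DecidableEq F] in
theorem spec_B_eq (A B : F) :
    RatFunc.C B * fT A B ^ 3
      = algebraMap F[X] (RatFunc F) (C B * (X ^ 3 + C A * X + C B) ^ 3) := by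
  rw [spec_fT_eq, map_mul, map_pow, RatFunc.algebraMap_C]

omit [DecidableEq F] in
theorem spec_evπ_of_eq (x₀ : F) {g : RatFunc F} {p : F[X]} (h : g = algebraMap F[X] (RatFunc F) p)
    (hg : g ∈ evO x₀) : evπ x₀ ⟨g, hg⟩ = p.eval x₀ := by
  subst h
  exact evπ_algebraMap x₀ p

/-- (SPEC) specialisation `t ↦ x₀` of the twisted curve at a point `Q = (x₀, y₀)`, `y₀ ≠ 0`:
reduction at the place `evO x₀` followed by the scaling `(ξ, υ) ↦ (ξ / y₀², υ / y₀³)`. -/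
theorem exists_spec [DecidableEq (RatFunc F)] (h2 : (2 : F) ≠ 0) (A B : F)
    (hd : 4 * A ^ 3 + 27 * B ^ 2 ≠ 0) {x₀ y₀ : F} (hy : y₀ ≠ 0) (hQ : y₀ ^ 2 = x₀ ^ 3 + A * x₀ + B) :
    ∃ sp : TwPt A B →+ Pt A B, ∀ (P : TwPt A B) (n m : F[X]),
      co P = some (algebraMap F[X] (RatFunc F) n, algebraMap F[X] (RatFunc F) m) →
      co (sp P) = some (n.eval x₀ / y₀ ^ 2, m.eval x₀ / y₀ ^ 3) := by
  have hAm : RatFunc.C A * fT A B ^ 2 ∈ evO x₀ := by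
    rw [spec_A_eq]; exact algebraMap_mem_evO _ _
  have hBm : RatFunc.C B * fT A B ^ 3 ∈ evO x₀ := by
    rw [spec_B_eq]; exact algebraMap_mem_evO _ _
  have hπA : evπ x₀ ⟨_, hAm⟩ = A * y₀ ^ 4 := by
    rw [spec_evπ_of_eq x₀ (spec_A_eq A B) hAm]
    simp only [eval_mul, eval_C, eval_pow, eval_add, eval_X]
    rw [← hQ]; ring
  have hπB : evπ x₀ ⟨_, hBm⟩ = B * y₀ ^ 6 := by
    rw [spec_evπ_of_eq x₀ (spec_B_eq A B) hBm]
    simp only [eval_mul, eval_C, eval_pow, eval_add, eval_X]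
    rw [← hQ]; ring
  have hd' : evπ x₀ (4 * (⟨_, hAm⟩ : evO x₀) ^ 3 + 27 * (⟨_, hBm⟩ : evO x₀) ^ 2) ≠ 0 := by
    rw [map_add, map_mul, map_mul, map_pow, map_pow, hπA, hπB, map_ofNat, map_ofNat]
    have : 4 * (A * y₀ ^ 4) ^ 3 + 27 * (B * y₀ ^ 6) ^ 2 = (4 * A ^ 3 + 27 * B ^ 2) * y₀ ^ 12 := by
      ring
    rw [this]
    exact mul_ne_zero hd (pow_ne_zero _ hy)
  have hu : (y₀⁻¹ : F) ≠ 0 := inv_ne_zero hy
  have hA' : A = y₀⁻¹ ^ 4 * (RingHom.id F) (evπ x₀ ⟨_, hAm⟩) := by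
    rw [hπA, RingHom.id_apply]; field_simp
  have hB' : B = y₀⁻¹ ^ 6 * (RingHom.id F) (evπ x₀ ⟨_, hBm⟩) := by
    rw [hπB, RingHom.id_apply]; field_simp
  refine ⟨(mapScale h2 (RingHom.id F) y₀⁻¹ hu hA' hB').comp
    (red (evO x₀) (evπ x₀) h2 ⟨_, hAm⟩ ⟨_, hBm⟩ hd'), ?_⟩
  intro P n m hP
  obtain ⟨hy', h⟩ := co_red_of_mem (evO x₀) (evπ x₀) h2 ⟨_, hAm⟩ ⟨_, hBm⟩ hd' (P := P) hP
    (algebraMap_mem_evO x₀ n)
  rw [AddMonoidHom.comp_apply, co_mapScale, h, evπ_algebraMap, spec_evπ_of_eq x₀ rfl hy']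
  simp only [Option.map_some, RingHom.id_apply]
  congr 2 <;> field_simp

end Fermat.Agent.S52Lib
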