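import Fermat.Agent.S52.Twist
import Fermat.Agent.S52.Spec_SPEC

/-!
# S52: specialisation of the twisted curve at a point

`exists_spec` (leaf SPEC) is proved in `Spec_SPEC.lean`.
-/

set_option autoImplicit false

namespace Fermat.Agent.S52Lib

variable {ℓ : ℕ} [Fact ℓ.Prime] {F : Type*} [Field F] [CharP F ℓ] [DecidableEq F]

theorem frobenius_intCast (a : ℤ) : frobenius F ℓ (a : F) = a := by
  simp

end Fermat.Agent.S52Lib
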