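import Fermat.Agent.S52.Hom
import Fermat.Agent.S52.Maps

/-!
# S52: Tate normal form: an explicit point of order 5
-/

set_option autoImplicit false

namespace Fermat.Agent.S52Lib

section
variable {R : Type*} [CommRing R]

/-- `c₄` of `y² + (q-p) x y - p q² y = x³ - p q x²` -/
def c4T (p q : R) : R := p ^ 4 - 12 * p ^ 3 * q + 14 * p ^ 2 * q ^ 2 + 12 * p * q ^ 3 + q ^ 4
/-- `c₆` of `y² + (q-p) x y - p q² y = x³ - p q x²` -/
def c6T (p q : R) : R :=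
  -p ^ 6 + 18 * p ^ 5 * q - 75 * p ^ 4 * q ^ 2 - 75 * p ^ 2 * q ^ 4 - 18 * p * q ^ 5 - q ^ 6

def pK (a b : R) : R := a * (a ^ 4 - 3 * a ^ 3 * b + 4 * a ^ 2 * b ^ 2 - 2 * a * b ^ 3 + b ^ 4)
def qK (a b : R) : R := -b * (a ^ 4 + 2 * a ^ 3 * b + 4 * a ^ 2 * b ^ 2 + 3 * a * b ^ 3 + b ^ 4)

theorem c4T_K (a b : R) : c4T (pK a b) (qK a b) = c4K a b := by
  unfold c4T pK qK c4K; ring

theorem c6T_K (a b : R) : c6T (pK a b) (qK a b) = c6K a b := by
  unfold c6T pK qK c6K; ring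

theorem disc_K (a b : R) :
    pK a b * qK a b * (pK a b ^ 2 - 11 * pK a b * qK a b - qK a b ^ 2)
      = fK a b * (a ^ 2 + a * b - b ^ 2) ^ 4 := by
  unfold pK qK fK; ring

theorem fK_factor (a b : R) : fK a b = pK a b * qK a b * (a ^ 2 + a * b - b ^ 2) := by
  unfold pK qK fK; ring

end

variable {K : Type*} [Field K] [DecidableEq K]

/-- (TATE) `T = (3(p²-6pq+q²), -108 p q²)` has order 5:  `2T = Q := (36pq + 3(p²-6pq+q²), 108 p² q)`
(tangent line at `T` has slope `3(q-p)`), and `T + Q + Q = 0` (line of slope `3(p+q)`). -/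
theorem tate_point (h2 : (2 : K) ≠ 0) (h3 : (3 : K) ≠ 0) (p q : K)
    (hΔ : p * q * (p ^ 2 - 11 * p * q - q ^ 2) ≠ 0) :
    ∃ T : Pt (-27 * c4T p q) (-54 * c6T p q), T ≠ 0 ∧ (5 : ℕ) • T = 0 := by
  have hd : 4 * (-27 * c4T p q) ^ 3 + 27 * (-54 * c6T p q) ^ 2 ≠ 0 := by
    have e : 4 * (-27 * c4T p q) ^ 3 + 27 * (-54 * c6T p q) ^ 2
        = -(2 ^ 8 * 3 ^ 12 * (p * q) ^ 4 * (p * q * (p ^ 2 - 11 * p * q - q ^ 2))) := by
      unfold c4T c6T; ring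
    rw [e]
    have hpq : p * q ≠ 0 := left_ne_zero_of_mul hΔ
    exact neg_ne_zero.mpr (mul_ne_zero (mul_ne_zero (mul_ne_zero (pow_ne_zero _ h2)
      (pow_ne_zero _ h3)) (pow_ne_zero _ hpq)) hΔ)
  obtain ⟨T, hT⟩ := exists_pt (A := -27 * c4T p q) (B := -54 * c6T p q) h2 hd
    (x := 3 * (p ^ 2 - 6 * p * q + q ^ 2)) (y := -108 * p * q ^ 2) (by unfold c4T c6T; ring)
  obtain ⟨Q, hQ⟩ := exists_pt (A := -27 * c4T p q) (B := -54 * c6T p q) h2 hd
    (x := 36 * p * q + 3 * (p ^ 2 - 6 * p * q + q ^ 2)) (y := 108 * p ^ 2 * q)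
    (by unfold c4T c6T; ring)
  have hnQ := co_neg hQ
  have c1 : T + T + -Q = 0 :=
    col h2 (l := 3 * (q - p))
      (n := -108 * p * q ^ 2 - 3 * (q - p) * (3 * (p ^ 2 - 6 * p * q + q ^ 2))) hT hT hnQ
      (by ring) (by ring) (by ring) (by ring) (by unfold c4T; ring) (by unfold c6T; ring)
  have c2 : T + Q + Q = 0 :=
    col h2 (l := 3 * (p + q))
      (n := -108 * p * q ^ 2 - 3 * (p + q) * (3 * (p ^ 2 - 6 * p * q + q ^ 2))) hT hQ hQ
      (by ring) (by ring) (by ring) (by ring) (by unfold c4T; ring) (by unfold c6T; ring)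
  refine ⟨T, ?_, ?_⟩
  · intro h
    rw [h, co_zero] at hT
    simp at hT
  · have hQ2 : Q = T + T := by
      rw [add_neg_eq_zero] at c1; exact c1.symm
    rw [hQ2] at c2
    rw [← c2]
    abel

end Fermat.Agent.S52Lib
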