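import Fermat.Agent.S52.SW

/-!
# S52 (CNT): counting points of `y² = x³ + a x + b` over `ZMod ℓ` with Euler's criterion
-/

set_option autoImplicit false

namespace Fermat.Agent.S52Lib

open Polynomial

variable {ℓ : ℕ} [Fact ℓ.Prime]

theorem CNT_half (h3 : 3 ≤ ℓ) : (ℓ - 1) / 2 = ℓ / 2 ∧ (ℓ - 1) / 2 ≠ 0 := by
  have hodd : ℓ % 2 = 1 := by
    rcases (Fact.out : ℓ.Prime).eq_two_or_odd with h | h
    · omega
    · exact h
  constructor <;> omega

theorem CNT_one_ne_neg_one (h3 : 3 ≤ ℓ) : (1 : ZMod ℓ) ≠ -1 := by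
  intro h
  have h2 : (2 : ZMod ℓ) = 0 := by linear_combination h
  have : ((2 : ℕ) : ZMod ℓ) = 0 := by exact_mod_cast h2
  rw [ZMod.natCast_eq_zero_iff] at this
  have := Nat.le_of_dvd (by norm_num) this
  omega

theorem CNT_card_sqrt (h3 : 3 ≤ ℓ) (v : ZMod ℓ) :
    (Finset.univ.filter (fun y : ZMod ℓ => y ^ 2 = v)).card
      = (if v = 0 then 1 else 0) + 2 * (if v ^ ((ℓ - 1) / 2) = 1 then 1 else 0) := by
  obtain ⟨hh, hh0⟩ := CNT_half h3
  by_cases hv : v = 0
  · subst hv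
    have : (Finset.univ.filter (fun y : ZMod ℓ => y ^ 2 = 0)) = {0} := by
      ext y; simp
    rw [this, zero_pow hh0]
    simp
  · rw [if_neg hv, hh]
    have hE := ZMod.euler_criterion ℓ hv
    by_cases hs : IsSquare v
    · rw [if_pos (hE.mp hs)]
      obtain ⟨w, rfl⟩ := hs
      have hw : w ≠ 0 := by rintro rfl; simp at hv
      have hne : w ≠ -w := by
        intro h
        have h2 : (1 : ZMod ℓ) = -1 := by
          have : w * 1 = w * (-1) := by linear_combination h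
          exact mul_left_cancel₀ hw this
        exact CNT_one_ne_neg_one h3 h2
      have : (Finset.univ.filter (fun y : ZMod ℓ => y ^ 2 = w * w)) = {w, -w} := by
        ext y
        simp only [Finset.mem_filter, Finset.mem_univ, true_and, Finset.mem_insert,
          Finset.mem_singleton]
        rw [← pow_two, sq_eq_sq_iff_eq_or_eq_neg]
      rw [this, Finset.card_pair hne]
    · rw [if_neg (fun h => hs (hE.mpr h))]
      have : (Finset.univ.filter (fun y : ZMod ℓ => y ^ 2 = v)) = ∅ := by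
        ext y
        simp only [Finset.mem_filter, Finset.mem_univ, true_and, Finset.notMem_empty, iff_false]
        intro h
        exact hs ⟨y, by rw [← h, pow_two]⟩
      rw [this]; simp

/-- (CNT) counting points with Euler's criterion -/
theorem card_pt_zmod (h3 : 3 ≤ ℓ) (a b : ℤ) (hd : ((4 * a ^ 3 + 27 * b ^ 2 : ℤ) : ZMod ℓ) ≠ 0) :
    Nat.card (Pt ((a : ℤ) : ZMod ℓ) ((b : ℤ) : ZMod ℓ)) =
      1 + (Finset.univ.filter (fun c : ZMod ℓ => c ^ 3 + a * c + b = 0)).card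
        + 2 * (Finset.univ.filter (fun c : ZMod ℓ => (c ^ 3 + a * c + b) ^ ((ℓ - 1) / 2) = 1)).card := by
  have h2 : (2 : ZMod ℓ) ≠ 0 := by
    intro h
    exact CNT_one_ne_neg_one h3 (by linear_combination h)
  have hd' : 4 * ((a : ℤ) : ZMod ℓ) ^ 3 + 27 * ((b : ℤ) : ZMod ℓ) ^ 2 ≠ 0 := by
    intro h; apply hd; push_cast; exact h
  set S : Set (ZMod ℓ × ZMod ℓ) := {p | p.2 ^ 2 = p.1 ^ 3 + (a : ZMod ℓ) * p.1 + (b : ZMod ℓ)} with hS
  have hrange : Set.range (co : Pt ((a : ℤ) : ZMod ℓ) ((b : ℤ) : ZMod ℓ) → Option (ZMod ℓ × ZMod ℓ))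
      = insert none (some '' S) := by
    ext o
    constructor
    · rintro ⟨P, rfl⟩
      rcases hP : co P with _ | ⟨x, y⟩
      · exact Set.mem_insert _ _
      · exact Set.mem_insert_of_mem _ ⟨(x, y), co_eqn hP, rfl⟩
    · intro h
      rcases h with rfl | ⟨⟨x, y⟩, hp, rfl⟩
      · exact ⟨0, co_zero⟩
      · exact exists_pt h2 hd' hp
  rw [Nat.card_congr (Equiv.ofInjective co co_injective), hrange, Nat.card_coe_set_eq,
    Set.ncard_insert_of_notMem (by simp) (Set.toFinite _),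
    Set.ncard_image_of_injective _ (Option.some_injective _), Set.ncard_eq_toFinset_card']
  have h1 : S.toFinset.card = ∑ x : ZMod ℓ,
      (Finset.univ.filter (fun y : ZMod ℓ => y ^ 2 = x ^ 3 + (a : ZMod ℓ) * x + (b : ZMod ℓ))).card := by
    have : S.toFinset = Finset.univ.filter
        (fun p : ZMod ℓ × ZMod ℓ => p.2 ^ 2 = p.1 ^ 3 + (a : ZMod ℓ) * p.1 + (b : ZMod ℓ)) := by
      ext p; simp [hS]
    rw [this, Finset.card_filter, Fintype.sum_prod_type]
    refine Finset.sum_congr rfl fun x _ => ?_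
    rw [Finset.card_filter]
  rw [h1]
  simp_rw [CNT_card_sqrt h3]
  rw [Finset.sum_add_distrib, ← Finset.mul_sum, Finset.card_filter, Finset.card_filter]
  ring

/-- (CNT) -/
theorem card_filter_sum (h3 : 3 ≤ ℓ) (a b : ℤ) :
    (Finset.univ.filter (fun c : ZMod ℓ => c ^ 3 + a * c + b = 0)).card
      + (Finset.univ.filter (fun c : ZMod ℓ => (c ^ 3 + a * c + b) ^ ((ℓ - 1) / 2) = 1)).card
      + (Finset.univ.filter (fun c : ZMod ℓ => (c ^ 3 + a * c + b) ^ ((ℓ - 1) / 2) = -1)).card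
      = ℓ := by
  obtain ⟨hh, hh0⟩ := CNT_half h3
  rw [Finset.card_filter, Finset.card_filter, Finset.card_filter, ← Finset.sum_add_distrib,
    ← Finset.sum_add_distrib]
  have : ∀ c : ZMod ℓ, ((if c ^ 3 + (a : ZMod ℓ) * c + b = 0 then 1 else 0)
      + (if (c ^ 3 + (a : ZMod ℓ) * c + b) ^ ((ℓ - 1) / 2) = 1 then 1 else 0)
      + (if (c ^ 3 + (a : ZMod ℓ) * c + b) ^ ((ℓ - 1) / 2) = -1 then 1 else 0) : ℕ) = 1 := by
    intro c
    set v := c ^ 3 + (a : ZMod ℓ) * c + b
    by_cases hv : v = 0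
    · rw [hv, zero_pow hh0]
      have h01 : (0 : ZMod ℓ) ≠ 1 := zero_ne_one
      have h02 : (0 : ZMod ℓ) ≠ -1 := by
        intro h; apply h01; linear_combination -h
      simp [h01, h02]
    · rw [if_neg hv, hh]
      rcases ZMod.pow_div_two_eq_neg_one_or_one ℓ hv with h | h
      · rw [h]
        simp [CNT_one_ne_neg_one h3]
      · rw [h]
        simp [(CNT_one_ne_neg_one h3).symm]
  simp_rw [this]
  simp

end Fermat.Agent.S52Lib
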