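import Fermat.Agent.S52.Twist

/-!
# S52 (MAN): Manin's degree computation, upper bounds
-/

set_option autoImplicit false
set_option linter.unusedSectionVars false

namespace Fermat.Agent.S52Lib

open Polynomial

variable {ℓ : ℕ} [Fact ℓ.Prime] {F : Type*} [Field F] [CharP F ℓ]

/-- `f` as a polynomial -/
noncomputable def MAN_f (F : Type*) [Field F] (a b : ℤ) : F[X] := X ^ 3 + C (a : F) * X + C (b : F)

/-- the numerator -/
noncomputable def MAN_num (ℓ : ℕ) (F : Type*) [Field F] (a b : ℤ) (σ : F) : F[X] :=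
  MAN_f F a b * (MAN_f F a b ^ ((ℓ - 1) / 2) - C σ) ^ 2 - (X ^ ℓ + X) * (X ^ ℓ - X) ^ 2

/-- the denominator -/
noncomputable def MAN_den (ℓ : ℕ) (F : Type*) [Field F] : F[X] := (X ^ ℓ - X) ^ 2

theorem MAN_natDegree_f (a b : ℤ) : (MAN_f F a b).natDegree ≤ 3 := by
  unfold MAN_f
  compute_degree

theorem MAN_f_pow (a b : ℤ) : MAN_f F a b ^ ℓ = X ^ (3 * ℓ) + C (a : F) * X ^ ℓ + C (b : F) := by
  have ha : (a : F) ^ ℓ = a := by
    have := map_intCast (frobenius F ℓ) a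
    rwa [frobenius_def] at this
  have hb : (b : F) ^ ℓ = b := by
    have := map_intCast (frobenius F ℓ) b
    rwa [frobenius_def] at this
  unfold MAN_f
  rw [add_pow_char, add_pow_char, mul_pow, ← C_pow, ← C_pow, ha, hb, ← pow_mul]

theorem MAN_num_eq (h3 : 3 ≤ ℓ) (a b : ℤ) (σ : F) (hσ : σ ^ 2 = 1) :
    MAN_num ℓ F a b σ = C (a : F) * X ^ ℓ + C (b : F) - C (2 * σ) * MAN_f F a b ^ ((ℓ - 1) / 2 + 1)
      + MAN_f F a b + X ^ (2 * ℓ + 1) + X ^ (ℓ + 2) - X ^ 3 := by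
  have hodd : ℓ % 2 = 1 := by
    rcases (Fact.out : ℓ.Prime).eq_two_or_odd with h | h
    · omega
    · exact h
  have he : 2 * ((ℓ - 1) / 2) + 1 = ℓ := by omega
  have h1 : MAN_f F a b * (MAN_f F a b ^ ((ℓ - 1) / 2)) ^ 2 = MAN_f F a b ^ ℓ := by
    rw [← pow_mul, ← pow_succ', mul_comm, he]
  have h2 : C σ ^ 2 = (1 : F[X]) := by rw [← C_pow, hσ, C_1]
  unfold MAN_num
  have h3' : MAN_f F a b * (MAN_f F a b ^ ((ℓ - 1) / 2) - C σ) ^ 2
      = MAN_f F a b * (MAN_f F a b ^ ((ℓ - 1) / 2)) ^ 2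
        - C (2 * σ) * MAN_f F a b ^ ((ℓ - 1) / 2 + 1) + MAN_f F a b * C σ ^ 2 := by
    rw [C_mul, pow_succ]
    simp only [map_ofNat]
    ring
  rw [h3', h1, h2, MAN_f_pow]
  ring

theorem MAN_natDegree_num (h3 : 3 ≤ ℓ) (a b : ℤ) (σ : F) (hσ : σ ^ 2 = 1) :
    (MAN_num ℓ F a b σ).natDegree ≤ 2 * ℓ + 1 := by
  rw [MAN_num_eq h3 a b σ hσ]
  have hodd : ℓ % 2 = 1 := by
    rcases (Fact.out : ℓ.Prime).eq_two_or_odd with h | h
    · omega
    · exact h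
  have hf : (MAN_f F a b ^ ((ℓ - 1) / 2 + 1)).natDegree ≤ 2 * ℓ + 1 := by
    refine (natDegree_pow_le_of_le _ (MAN_natDegree_f a b)).trans ?_
    omega
  have hf1 : (MAN_f F a b).natDegree ≤ 2 * ℓ + 1 := (MAN_natDegree_f a b).trans (by omega)
  have hsub : ∀ {p q : F[X]}, p.natDegree ≤ 2 * ℓ + 1 → q.natDegree ≤ 2 * ℓ + 1 →
      (p - q).natDegree ≤ 2 * ℓ + 1 := fun hp hq => (natDegree_sub_le _ _).trans (max_le hp hq)
  refine hsub (natDegree_add_le_of_degree_le (natDegree_add_le_of_degree_le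
    (natDegree_add_le_of_degree_le (hsub (natDegree_add_le_of_degree_le ?_ ?_) ?_) hf1) ?_) ?_) ?_
  · refine (natDegree_C_mul_le _ _).trans ?_
    rw [natDegree_X_pow]; omega
  · rw [natDegree_C]; omega
  · exact (natDegree_C_mul_le _ _).trans hf
  · rw [natDegree_X_pow]
  · rw [natDegree_X_pow]; omega
  · rw [natDegree_X_pow]; omega

theorem MAN_X_pow_sub_X_ne_zero (h3 : 3 ≤ ℓ) : (X ^ ℓ - X : F[X]) ≠ 0 := by
  intro h
  have := congrArg (fun p : F[X] => p.coeff 1) h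
  simp only [coeff_sub, coeff_X_pow, coeff_X_one, coeff_zero] at this
  rw [if_neg (by omega)] at this
  simp at this

theorem MAN_natDegree_den (h3 : 3 ≤ ℓ) : (MAN_den ℓ F).natDegree = 2 * ℓ := by
  unfold MAN_den
  rw [natDegree_pow, natDegree_sub_eq_left_of_natDegree_lt, natDegree_X_pow]
  rw [natDegree_X_pow, natDegree_X]; omega

/-- the embedding of the prime field -/
noncomputable def MAN_ι (ℓ : ℕ) (F : Type*) [Field F] [CharP F ℓ] : ZMod ℓ →+* F :=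
  ZMod.castHom (dvd_refl ℓ) F

theorem MAN_eval_f (a b : ℤ) (c : ZMod ℓ) :
    (MAN_f F a b).eval (MAN_ι ℓ F c) = MAN_ι ℓ F (c ^ 3 + a * c + b) := by
  unfold MAN_f
  simp

theorem MAN_X_sub_dvd (c : ZMod ℓ) : (X - C (MAN_ι ℓ F c)) ∣ (X ^ ℓ - X : F[X]) := by
  rw [dvd_iff_isRoot, IsRoot.def]
  simp only [eval_sub, eval_pow, eval_X]
  rw [← map_pow, ZMod.pow_card, sub_self]

/-- the exponents of the common factor -/
def MAN_k (ℓ : ℕ) (a b : ℤ) (s : ZMod ℓ) (c : ZMod ℓ) : ℕ :=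
  if c ^ 3 + a * c + b = 0 then 1 else if (c ^ 3 + a * c + b) ^ ((ℓ - 1) / 2) = s then 2 else 0

/-- the common factor -/
noncomputable def MAN_G (ℓ : ℕ) [Fact ℓ.Prime] (F : Type*) [Field F] [CharP F ℓ] (a b : ℤ)
    (s : ZMod ℓ) : F[X] :=
  ∏ c : ZMod ℓ, (X - C (MAN_ι ℓ F c)) ^ MAN_k ℓ a b s c

theorem MAN_G_monic (a b : ℤ) (s : ZMod ℓ) : (MAN_G ℓ F a b s).Monic :=
  monic_prod_of_monic _ _ fun c _ => (monic_X_sub_C _).pow _

theorem MAN_natDegree_G (h3 : 3 ≤ ℓ) (a b : ℤ) (s : ZMod ℓ) (hs : s ^ 2 = 1) :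
    (MAN_G ℓ F a b s).natDegree
      = (Finset.univ.filter (fun c : ZMod ℓ => c ^ 3 + a * c + b = 0)).card
        + 2 * (Finset.univ.filter (fun c : ZMod ℓ => (c ^ 3 + a * c + b) ^ ((ℓ - 1) / 2) = s)).card := by
  unfold MAN_G
  rw [natDegree_prod_of_monic _ _ fun c _ => (monic_X_sub_C _).pow _, Finset.card_filter,
    Finset.card_filter, Finset.mul_sum, ← Finset.sum_add_distrib]
  refine Finset.sum_congr rfl fun c _ => ?_
  rw [natDegree_pow, natDegree_X_sub_C, mul_one, MAN_k]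
  have he : (ℓ - 1) / 2 ≠ 0 := by omega
  have hs0 : (0 : ZMod ℓ) ≠ s := by
    rintro rfl
    simp at hs
  by_cases hv : c ^ 3 + (a : ZMod ℓ) * c + b = 0
  · rw [hv, zero_pow he, if_pos rfl, if_pos rfl, if_neg hs0]; rfl
  · rw [if_neg hv, if_neg hv]
    split_ifs <;> simp

theorem MAN_G_dvd (a b : ℤ) (s : ZMod ℓ) {z : F[X]}
    (h : ∀ c : ZMod ℓ, (X - C (MAN_ι ℓ F c)) ^ MAN_k ℓ a b s c ∣ z) : MAN_G ℓ F a b s ∣ z := by
  unfold MAN_G
  refine Finset.prod_dvd_of_coprime ?_ fun c _ => h c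
  intro c _ c' _ hne
  exact (pairwise_coprime_X_sub_C (ZMod.castHom_injective F) hne).pow

theorem MAN_G_dvd_den (a b : ℤ) (s : ZMod ℓ) : MAN_G ℓ F a b s ∣ MAN_den ℓ F := by
  refine MAN_G_dvd a b s fun c => ?_
  have h2 : MAN_k ℓ a b s c ≤ 2 := by
    unfold MAN_k; split_ifs <;> omega
  exact (pow_dvd_pow _ h2).trans (pow_dvd_pow_of_dvd (MAN_X_sub_dvd c) 2)

theorem MAN_G_dvd_num (a b : ℤ) (s : ZMod ℓ) : MAN_G ℓ F a b s ∣ MAN_num ℓ F a b (MAN_ι ℓ F s) := by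
  refine MAN_G_dvd a b s fun c => ?_
  unfold MAN_num
  have hden : (X - C (MAN_ι ℓ F c)) ^ 2 ∣ (X ^ ℓ + X) * (X ^ ℓ - X : F[X]) ^ 2 :=
    Dvd.dvd.mul_left (pow_dvd_pow_of_dvd (MAN_X_sub_dvd c) 2) _
  unfold MAN_k
  split_ifs with h0 h1
  · refine dvd_sub (Dvd.dvd.mul_right ?_ _) ((pow_dvd_pow _ (by norm_num)).trans hden)
    rw [pow_one, dvd_iff_isRoot, IsRoot.def, MAN_eval_f, h0, map_zero]
  · refine dvd_sub (Dvd.dvd.mul_left (pow_dvd_pow_of_dvd ?_ 2) _) hden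
    rw [dvd_iff_isRoot, IsRoot.def]
    simp only [eval_sub, eval_pow, eval_C]
    rw [MAN_eval_f, ← map_pow, h1, sub_self]
  · simp

/-- the main estimate -/
theorem MAN_rdeg (h3 : 3 ≤ ℓ) (a b : ℤ) (s : ZMod ℓ) (hs : s ^ 2 = 1) :
    rdeg (algebraMap F[X] (RatFunc F) (MAN_num ℓ F a b (MAN_ι ℓ F s))
        / algebraMap F[X] (RatFunc F) (MAN_den ℓ F))
      + (Finset.univ.filter (fun c : ZMod ℓ => c ^ 3 + a * c + b = 0)).card
      + 2 * (Finset.univ.filter (fun c : ZMod ℓ => (c ^ 3 + a * c + b) ^ ((ℓ - 1) / 2) = s)).card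
      ≤ 2 * ℓ + 1 := by
  obtain ⟨n', hn'⟩ := MAN_G_dvd_num (F := F) a b s
  obtain ⟨d', hd'⟩ := MAN_G_dvd_den (F := F) a b s
  have hden0 : MAN_den ℓ F ≠ 0 := pow_ne_zero 2 (MAN_X_pow_sub_X_ne_zero h3)
  have hG0 : MAN_G ℓ F a b s ≠ 0 := (MAN_G_monic a b s).ne_zero
  have hd0 : d' ≠ 0 := by
    rintro rfl
    rw [mul_zero] at hd'
    exact hden0 hd'
  have hσ : (MAN_ι ℓ F s) ^ 2 = 1 := by rw [← map_pow, hs, map_one]
  have hdeg := MAN_natDegree_G (F := F) h3 a b s hs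
  have e1 : (MAN_G ℓ F a b s).natDegree + d'.natDegree = 2 * ℓ := by
    rw [← (MAN_G_monic a b s).natDegree_mul' hd0, ← hd', MAN_natDegree_den h3]
  have e2 : (MAN_G ℓ F a b s).natDegree + n'.natDegree ≤ 2 * ℓ + 1 := by
    by_cases hn0 : n' = 0
    · rw [hn0, natDegree_zero]; omega
    · rw [← (MAN_G_monic a b s).natDegree_mul' hn0, ← hn']
      exact MAN_natDegree_num h3 a b _ hσ
  have e3 : algebraMap F[X] (RatFunc F) (MAN_num ℓ F a b (MAN_ι ℓ F s))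
        / algebraMap F[X] (RatFunc F) (MAN_den ℓ F)
      = algebraMap F[X] (RatFunc F) n' / algebraMap F[X] (RatFunc F) d' := by
    rw [hn', hd', map_mul, map_mul]
    have : algebraMap F[X] (RatFunc F) (MAN_G ℓ F a b s) ≠ 0 := by
      intro h0
      exact hG0 ((map_eq_zero_iff _ (RatFunc.algebraMap_injective F)).mp h0)
    rw [mul_div_mul_left _ _ this]
  rw [e3]
  have e4 := rdeg_div_le n' d' hd0
  have e5 : max n'.natDegree d'.natDegree + (MAN_G ℓ F a b s).natDegree ≤ 2 * ℓ + 1 := by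
    rcases max_cases n'.natDegree d'.natDegree with ⟨h, _⟩ | ⟨h, _⟩ <;> rw [h] <;> omega
  omega

theorem MAN_map_f (a b : ℤ) : algebraMap F[X] (RatFunc F) (MAN_f F a b) = fT (a : F) (b : F) := by
  unfold MAN_f fT
  simp only [map_add, map_mul, map_pow, RatFunc.algebraMap_X, RatFunc.algebraMap_C]

variable [DecidableEq (RatFunc F)]

theorem MAN_ht_le (h3 : 3 ≤ ℓ) (a b : ℤ) (s : ZMod ℓ) (hs : s ^ 2 = 1)
    (Q Φ : TwPt (a : F) (b : F))
    (hQ : co Q = some (fT (a : F) (b : F) * RatFunc.X,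
      RatFunc.C (MAN_ι ℓ F s) * fT (a : F) (b : F) ^ 2))
    (hΦ : co Φ = some (fT (a : F) (b : F) * RatFunc.X ^ ℓ,
        fT (a : F) (b : F) ^ 2 * fT (a : F) (b : F) ^ ((ℓ - 1) / 2))) :
    ht (Φ + Q) + (Finset.univ.filter (fun c : ZMod ℓ => c ^ 3 + a * c + b = 0)).card
      + 2 * (Finset.univ.filter (fun c : ZMod ℓ => (c ^ 3 + a * c + b) ^ ((ℓ - 1) / 2) = s)).card
      ≤ 2 * ℓ + 1 := by
  have hf : fT (a : F) (b : F) ≠ 0 := fT_ne_zero _ _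
  have hU : (RatFunc.X ^ ℓ - RatFunc.X : RatFunc F) ≠ 0 := by
    intro h
    have h1 : algebraMap F[X] (RatFunc F) (X ^ ℓ - X) = 0 := by
      simpa only [map_sub, map_pow, RatFunc.algebraMap_X] using h
    exact MAN_X_pow_sub_X_ne_zero h3 ((map_eq_zero_iff _ (RatFunc.algebraMap_injective F)).mp h1)
  have hx : fT (a : F) (b : F) * RatFunc.X ^ ℓ ≠ fT (a : F) (b : F) * RatFunc.X := by
    intro h
    exact hU (sub_eq_zero.mpr (mul_left_cancel₀ hf h))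
  rw [ht_of_co (co_add_of_ne hΦ hQ hx)]
  have key : (((fT (a : F) (b : F) ^ 2 * fT (a : F) (b : F) ^ ((ℓ - 1) / 2)
        - RatFunc.C (MAN_ι ℓ F s) * fT (a : F) (b : F) ^ 2)
        / (fT (a : F) (b : F) * RatFunc.X ^ ℓ - fT (a : F) (b : F) * RatFunc.X)) ^ 2
        - fT (a : F) (b : F) * RatFunc.X ^ ℓ - fT (a : F) (b : F) * RatFunc.X) / fT (a : F) (b : F)
      = algebraMap F[X] (RatFunc F) (MAN_num ℓ F a b (MAN_ι ℓ F s))
        / algebraMap F[X] (RatFunc F) (MAN_den ℓ F) := by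
    unfold MAN_num MAN_den
    simp only [map_sub, map_mul, map_pow, map_add, RatFunc.algebraMap_X, RatFunc.algebraMap_C,
      MAN_map_f]
    have hd : fT (a : F) (b : F) * RatFunc.X ^ ℓ - fT (a : F) (b : F) * RatFunc.X
        = fT (a : F) (b : F) * (RatFunc.X ^ ℓ - RatFunc.X) := by ring
    rw [hd]
    generalize fT (a : F) (b : F) ^ ((ℓ - 1) / 2) = g
    generalize RatFunc.C (MAN_ι ℓ F s) = σ
    generalize (RatFunc.X : RatFunc F) ^ ℓ = U at hU ⊢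
    field_simp
    ring
  rw [key]
  exact MAN_rdeg h3 a b s hs

/-- (MAN) Manin's computation, upper bounds.  `ε = 1`: `Φ - η`;  `ε = -1`: `Φ + η`.
`X(Φ ∓ η) = (f (f^e ± 1)² - (t^ℓ + t)(t^ℓ - t)²) / (t^ℓ - t)²`, `e = (ℓ-1)/2`; numerator of degree
`≤ 2ℓ+1`; numerator and denominator are both divisible by
`∏_{f(c)^e = ∓1} (t - c)² ∏_{f(c) = 0} (t - c)`. -/
theorem ht_sub_le (h3 : 3 ≤ ℓ) (a b : ℤ) (hd : ((4 * a ^ 3 + 27 * b ^ 2 : ℤ) : F) ≠ 0)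
    (η Φ : TwPt (a : F) (b : F))
    (hη : co η = some (fT (a : F) (b : F) * RatFunc.X, fT (a : F) (b : F) ^ 2))
    (hΦ : co Φ = some (fT (a : F) (b : F) * RatFunc.X ^ ℓ,
        fT (a : F) (b : F) ^ 2 * fT (a : F) (b : F) ^ ((ℓ - 1) / 2))) :
    ht (Φ - η) + (Finset.univ.filter (fun c : ZMod ℓ => c ^ 3 + a * c + b = 0)).card
      + 2 * (Finset.univ.filter (fun c : ZMod ℓ => (c ^ 3 + a * c + b) ^ ((ℓ - 1) / 2) = -1)).card
      ≤ 2 * ℓ + 1 := by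
  rw [sub_eq_add_neg]
  refine MAN_ht_le h3 a b (-1) (by ring) (-η) Φ ?_ hΦ
  rw [co_neg hη]
  simp

/-- (MAN) -/
theorem ht_add_le (h3 : 3 ≤ ℓ) (a b : ℤ) (hd : ((4 * a ^ 3 + 27 * b ^ 2 : ℤ) : F) ≠ 0)
    (η Φ : TwPt (a : F) (b : F))
    (hη : co η = some (fT (a : F) (b : F) * RatFunc.X, fT (a : F) (b : F) ^ 2))
    (hΦ : co Φ = some (fT (a : F) (b : F) * RatFunc.X ^ ℓ,
        fT (a : F) (b : F) ^ 2 * fT (a : F) (b : F) ^ ((ℓ - 1) / 2))) :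
    ht (Φ + η) + (Finset.univ.filter (fun c : ZMod ℓ => c ^ 3 + a * c + b = 0)).card
      + 2 * (Finset.univ.filter (fun c : ZMod ℓ => (c ^ 3 + a * c + b) ^ ((ℓ - 1) / 2) = 1)).card
      ≤ 2 * ℓ + 1 := by
  refine MAN_ht_le h3 a b 1 (by ring) η Φ ?_ hΦ
  rw [hη]
  simp

end Fermat.Agent.S52Lib
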