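import Fermat.Agent.S52.Twist_TWH

/-!
# S52: the points `η`, `Φ`, `Φ₂` on the twisted curve and the Frobenius endomorphism
-/

set_option autoImplicit false
set_option linter.unusedSectionVars false
set_option linter.unusedVariables false

namespace Fermat.Agent.S52Lib

open Polynomial

variable {ℓ : ℕ} [Fact ℓ.Prime] {F : Type*} [Field F] [CharP F ℓ] [DecidableEq (RatFunc F)]

theorem TWP_two_ne_zero (h3 : 3 ≤ ℓ) : (2 : F) ≠ 0 := by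
  intro h
  have h' : ((2 : ℕ) : F) = 0 := by exact_mod_cast h
  rw [CharP.cast_eq_zero_iff F ℓ] at h'
  have := Nat.le_of_dvd (by norm_num) h'
  omega

theorem TWP_charP : CharP (RatFunc F) ℓ :=
  charP_of_injective_algebraMap (algebraMap F (RatFunc F)).injective ℓ

theorem TWP_C_int (a : ℤ) : RatFunc.C ((a : ℤ) : F) = ((a : ℤ) : RatFunc F) := map_intCast _ a

theorem TWP_odd (h3 : 3 ≤ ℓ) : 2 * ((ℓ - 1) / 2) = ℓ - 1 := by
  have hp : ℓ.Prime := Fact.out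
  rcases hp.eq_two_or_odd with h | h
  · omega
  · omega

theorem TWP_odd_sq (h3 : 3 ≤ ℓ) : 2 * ((ℓ ^ 2 - 1) / 2) = ℓ ^ 2 - 1 := by
  have hp : ℓ.Prime := Fact.out
  have hodd : ℓ % 2 = 1 := by
    rcases hp.eq_two_or_odd with h | h
    · omega
    · exact h
  have h2 : ℓ ^ 2 % 2 = 1 := by
    rw [Nat.pow_mod, hodd]
  omega

/-- `(T³ + a T + b)^ℓ = (T^ℓ)³ + a T^ℓ + b` -/
theorem TWP_cubic_pow (a b : ℤ) (T : RatFunc F) :
    (T ^ 3 + RatFunc.C ((a : ℤ) : F) * T + RatFunc.C ((b : ℤ) : F)) ^ ℓ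
      = (T ^ ℓ) ^ 3 + RatFunc.C ((a : ℤ) : F) * T ^ ℓ + RatFunc.C ((b : ℤ) : F) := by
  have : CharP (RatFunc F) ℓ := TWP_charP
  have h := fun x : RatFunc F => frobenius_def ℓ x
  rw [← h, map_add, map_add, map_mul, map_pow, TWP_C_int, TWP_C_int, map_intCast, map_intCast, h]

/-- (TWP) the Frobenius endomorphism of the twisted curve -/
theorem exists_twFrob (h3 : 3 ≤ ℓ) (a b : ℤ) :
    ∃ Fr : TwPt (a : F) (b : F) →+ TwPt (a : F) (b : F),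
      (∀ P, co (Fr P) = (co P).map (fun c =>
        (c.1 ^ ℓ / fT (a : F) (b : F) ^ (ℓ - 1), c.2 ^ ℓ / fT (a : F) (b : F) ^ (3 * ((ℓ - 1) / 2))))) ∧
      (∀ P, ht (Fr P) = ℓ * ht P) := by
  have : CharP (RatFunc F) ℓ := TWP_charP
  have h2 : (2 : F) ≠ 0 := TWP_two_ne_zero h3
  have hf0 := fT_ne_zero (a : F) (b : F)
  have hodd := TWP_odd h3
  have hl : ℓ = 1 + (ℓ - 1) := by omega
  obtain ⟨T, hT1, hT2⟩ := exists_twHom (A := (a : F)) (B := (b : F)) h2 (frobenius (RatFunc F) ℓ)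
    (fT (a : F) (b : F) ^ ((ℓ - 1) / 2)) (pow_ne_zero _ hf0)
    (by rw [TWP_C_int, map_intCast]) (by rw [TWP_C_int, map_intCast])
    (by
      rw [frobenius_def, ← pow_mul, mul_comm _ 2, hodd, ← pow_succ', ]
      congr 1
      omega)
  refine ⟨T, ?_, ?_⟩
  · intro P
    rw [hT1]
    congr 1
    funext c
    rw [frobenius_def, frobenius_def, ← pow_mul, ← pow_mul, mul_comm _ 2, hodd, mul_comm _ 3]
  · intro P
    by_cases hP : P = 0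
    · subst hP
      rw [map_zero, ht_zero, mul_zero]
    · obtain ⟨ξ, υ, hco⟩ := Hom_exists_co P hP
      rw [hT2 P ξ υ hco, ht_of_co hco, frobenius_def, rdeg_pow]

/-- points of the twisted curve from "endomorphisms" `(T, w)` with `f w² = T³ + a T + b` -/
theorem TWP_exists_pt (h3 : 3 ≤ ℓ) (a b : ℤ) (hd : ((4 * a ^ 3 + 27 * b ^ 2 : ℤ) : F) ≠ 0)
    (T w : RatFunc F)
    (h : fT (a : F) (b : F) * w ^ 2 = T ^ 3 + RatFunc.C ((a : ℤ) : F) * T + RatFunc.C ((b : ℤ) : F)) :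
    ∃ P : TwPt (a : F) (b : F), co P = some (fT (a : F) (b : F) * T, fT (a : F) (b : F) ^ 2 * w) := by
  have h2 : (2 : RatFunc F) ≠ 0 := TWH_two_ne_zero (TWP_two_ne_zero h3)
  have hf0 := fT_ne_zero (a : F) (b : F)
  apply exists_pt h2
  · have e : 4 * (RatFunc.C ((a : ℤ) : F) * fT (a : F) (b : F) ^ 2) ^ 3
        + 27 * (RatFunc.C ((b : ℤ) : F) * fT (a : F) (b : F) ^ 3) ^ 2
        = fT (a : F) (b : F) ^ 6 * RatFunc.C (((4 * a ^ 3 + 27 * b ^ 2 : ℤ) : F)) := by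
      rw [TWP_C_int, TWP_C_int, TWP_C_int]
      push_cast
      ring
    rw [e]
    refine mul_ne_zero (pow_ne_zero _ hf0) ?_
    intro h0
    apply hd
    apply RatFunc.C_injective
    rw [h0, map_zero]
  · linear_combination fT (a : F) (b : F) ^ 3 * h

/-- (TWP) the points `η = (t, 1)`, `Φ = (t^ℓ, f^((ℓ-1)/2))`, `Φ₂ = (t^(ℓ²), f^((ℓ²-1)/2))` -/
theorem exists_tw_points (h3 : 3 ≤ ℓ) (a b : ℤ) (hd : ((4 * a ^ 3 + 27 * b ^ 2 : ℤ) : F) ≠ 0) :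
    ∃ η Φ Φ₂ : TwPt (a : F) (b : F),
      co η = some (fT (a : F) (b : F) * RatFunc.X, fT (a : F) (b : F) ^ 2) ∧
      co Φ = some (fT (a : F) (b : F) * RatFunc.X ^ ℓ,
        fT (a : F) (b : F) ^ 2 * fT (a : F) (b : F) ^ ((ℓ - 1) / 2)) ∧
      co Φ₂ = some (fT (a : F) (b : F) * RatFunc.X ^ (ℓ ^ 2),
        fT (a : F) (b : F) ^ 2 * fT (a : F) (b : F) ^ ((ℓ ^ 2 - 1) / 2)) := by
  have hodd := TWP_odd h3
  have hodd2 := TWP_odd_sq h3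
  have hpos : 1 ≤ ℓ ^ 2 := Nat.one_le_pow _ _ (by omega)
  have hfl : fT (a : F) (b : F) ^ ℓ = (RatFunc.X ^ ℓ) ^ 3 + RatFunc.C ((a : ℤ) : F) * RatFunc.X ^ ℓ
      + RatFunc.C ((b : ℤ) : F) := by
    unfold fT
    exact TWP_cubic_pow a b RatFunc.X
  have hfl2 : fT (a : F) (b : F) ^ (ℓ ^ 2) = (RatFunc.X ^ (ℓ ^ 2)) ^ 3
      + RatFunc.C ((a : ℤ) : F) * RatFunc.X ^ (ℓ ^ 2) + RatFunc.C ((b : ℤ) : F) := by
    rw [sq, pow_mul, hfl, TWP_cubic_pow, pow_mul RatFunc.X ℓ ℓ]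
  obtain ⟨η, hη⟩ := TWP_exists_pt h3 a b hd RatFunc.X 1 (by rw [one_pow, mul_one]; rfl)
  obtain ⟨Φ, hΦ⟩ := TWP_exists_pt h3 a b hd (RatFunc.X ^ ℓ) (fT (a : F) (b : F) ^ ((ℓ - 1) / 2)) (by
    rw [← hfl, ← pow_mul, mul_comm _ 2, hodd, ← pow_succ']
    congr 1
    omega)
  obtain ⟨Φ₂, hΦ₂⟩ := TWP_exists_pt h3 a b hd (RatFunc.X ^ (ℓ ^ 2))
    (fT (a : F) (b : F) ^ ((ℓ ^ 2 - 1) / 2)) (by
    rw [← hfl2, ← pow_mul, mul_comm _ 2, hodd2, ← pow_succ']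
    congr 1
    omega)
  refine ⟨η, Φ, Φ₂, ?_, hΦ, hΦ₂⟩
  rw [hη, mul_one]

end Fermat.Agent.S52Lib
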