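import Fermat.Agent.S52.Twist
import Fermat.Agent.S52.QF
import Fermat.Agent.S52.TwFrob_TWP
import Fermat.Agent.S52.TwFrob_CNT
import Fermat.Agent.S52.TwFrob_MAN

/-!
# S52: the points `η`, `Φ`, `Φ₂` on the twisted curve, Frobenius, Manin's degree computation
-/
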