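import Fermat.Agent.S52.TwistDefs

/-!
# S52: the exact parallelogram law for the degree on Manin's twisted curve (PL), and points of
degree `0` (HZ)
-/

set_option autoImplicit false
set_option linter.unusedSectionVars false

namespace Fermat.Agent.S52Lib

open Polynomial

variable {F : Type*} [Field F] [DecidableEq (RatFunc F)]

variable {A B : F}

omit [DecidableEq (RatFunc F)] in
private theorem Twist_two_ne (h2 : (2 : F) ≠ 0) : (2 : RatFunc F) ≠ 0 := by
  have : (2 : RatFunc F) = RatFunc.C 2 := (map_ofNat RatFunc.C 2).symm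
  rw [this]
  exact (_root_.map_ne_zero _).2 h2

private theorem Twist_pdeg (P : TwPt A B) :
    pdeg (xr P).1 (fT A B * (xr P).2) = ht P ∧ ((xr P).1 ≠ 0 ∨ fT A B * (xr P).2 ≠ 0) := by
  rcases hP : co P with _ | ⟨ξ, υ⟩
  · have : xr P = (1, 0) := by unfold xr; rw [hP]
    rw [this]
    refine ⟨?_, Or.inl one_ne_zero⟩
    unfold ht; rw [hP]
    simp [pdeg]
  · have : xr P = (ξ, 1) := by unfold xr; rw [hP]
    rw [this, ht_of_co hP]
    refine ⟨?_, Or.inr ?_⟩
    · simp [pdeg, fT_ne_zero]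
    · simpa using fT_ne_zero A B

/-- (PL) the exact parallelogram law -/
theorem ht_parallelogram (h2 : (2 : F) ≠ 0) (hd : 4 * A ^ 3 + 27 * B ^ 2 ≠ 0) (P Q : TwPt A B) :
    ht (P + Q) + ht (P - Q) = 2 * ht P + 2 * ht Q := by
  obtain ⟨c, hc, e₀, e₁, e₂⟩ := addsub (Twist_two_ne h2) P Q
  obtain ⟨d₁, n₁⟩ := Twist_pdeg P
  obtain ⟨d₂, n₂⟩ := Twist_pdeg Q
  obtain ⟨d₃, n₃⟩ := Twist_pdeg (P + Q)
  obtain ⟨d₄, n₄⟩ := Twist_pdeg (P - Q)
  rw [← d₁, ← d₂, ← d₃, ← d₄]
  refine deg_addsub h2 A B hd _ _ _ _ _ _ _ _ c n₁ n₂ n₃ n₄ hc ?_ ?_ ?_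
  · rw [← e₀]
    simp only [AS0]
    ring
  · have : c * ((xr (P + Q)).1 * (fT A B * (xr (P - Q)).2)
        + (xr (P - Q)).1 * (fT A B * (xr (P + Q)).2))
        = fT A B * (c * ((xr (P + Q)).1 * (xr (P - Q)).2 + (xr (P - Q)).1 * (xr (P + Q)).2)) := by
      ring
    rw [this, ← e₁]
    simp only [AS1]
    ring
  · have : c * (fT A B * (xr (P + Q)).2 * (fT A B * (xr (P - Q)).2))
        = fT A B ^ 2 * (c * ((xr (P + Q)).2 * (xr (P - Q)).2)) := by
      ring
    rw [this, ← e₂]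
    simp only [AS2]
    ring

/-- (HZ) points of degree `0` are `2`-torsion -/
theorem two_nsmul_eq_zero_of_ht (h2 : (2 : F) ≠ 0) {P : TwPt A B} (h : ht P = 0) :
    (2 : ℕ) • P = 0 := by
  rcases hP : co P with _ | ⟨ξ, υ⟩
  · rw [co_eq_none.mp hP, nsmul_zero]
  · rw [ht_of_co hP, rdeg_eq_zero_iff] at h
    obtain ⟨c, hc⟩ := h
    have hf := fT_ne_zero A B
    have hξ : ξ = RatFunc.C c * fT A B := by
      rw [← hc, div_mul_cancel₀ _ hf]
    have he := co_eqn hP
    have he' : υ ^ 2 = RatFunc.C (c ^ 3 + A * c + B) * fT A B ^ 3 := by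
      rw [he, hξ]
      simp only [map_add, map_mul, map_pow]
      ring
    have hυ : υ = 0 := by
      by_contra hυ
      have hne : RatFunc.C (c ^ 3 + A * c + B) ≠ 0 := by
        intro h0
        rw [h0, zero_mul] at he'
        exact hυ (pow_eq_zero_iff (by norm_num) |>.1 he')
      have hdf : (fT A B).intDegree = 3 := by
        rw [fT_eq_algebraMap, RatFunc.intDegree_polynomial, fT_poly_natDegree]
        rfl
      have := congrArg RatFunc.intDegree he'
      rw [pow_two, RatFunc.intDegree_mul hυ hυ, RatFunc.intDegree_mul hne (pow_ne_zero 3 hf),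
        RatFunc.intDegree_C, pow_succ, pow_two, RatFunc.intDegree_mul (mul_ne_zero hf hf) hf,
        RatFunc.intDegree_mul hf hf, hdf] at this
      omega
    subst hυ
    rw [two_nsmul]
    exact dbl_eq_zero (Twist_two_ne h2) hP

end Fermat.Agent.S52Lib
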