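import Fermat.Agent.S52.TwistDefs
import Fermat.Agent.S52.DM

/-!
# S52: endomorphisms of Manin's twisted curve induced by field endomorphisms of `F(t)`
-/

set_option autoImplicit false
set_option linter.unusedSectionVars false
set_option linter.unusedVariables false

namespace Fermat.Agent.S52Lib

open Polynomial

variable {F : Type*} [Field F] [DecidableEq (RatFunc F)]

variable {A B : F}

theorem TWH_two_ne_zero (h2 : (2 : F) ≠ 0) : (2 : RatFunc F) ≠ 0 := by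
  intro h
  apply h2
  have h' : RatFunc.C (2 : F) = RatFunc.C (0 : F) := by
    rw [map_ofNat, map_zero]; exact h
  exact RatFunc.C_injective h'

/-- (TWH) the endomorphism of the twisted curve induced by a field endomorphism `σ` of `F(t)` with
`σ f = f u²` -/
theorem exists_twHom (h2 : (2 : F) ≠ 0) (σ : RatFunc F →+* RatFunc F) (u : RatFunc F) (hu : u ≠ 0)
    (hA : σ (RatFunc.C A) = RatFunc.C A) (hB : σ (RatFunc.C B) = RatFunc.C B)
    (hf : σ (fT A B) = fT A B * u ^ 2) :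
    ∃ T : TwPt A B →+ TwPt A B,
      (∀ P, co (T P) = (co P).map (fun c => (σ c.1 / u ^ 2, σ c.2 / u ^ 3))) ∧
      (∀ (P : TwPt A B) (ξ υ : RatFunc F), co P = some (ξ, υ) → ht (T P) = rdeg (σ (ξ / fT A B))) := by
  have h2' := TWH_two_ne_zero h2
  have hf0 := fT_ne_zero A B
  have eA : RatFunc.C A * fT A B ^ 2 = u⁻¹ ^ 4 * σ (RatFunc.C A * fT A B ^ 2) := by
    rw [map_mul, map_pow, hA, hf]; field_simp
  have eB : RatFunc.C B * fT A B ^ 3 = u⁻¹ ^ 6 * σ (RatFunc.C B * fT A B ^ 3) := by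
    rw [map_mul, map_pow, hB, hf]; field_simp
  have hco : ∀ P, co (mapScale h2' σ u⁻¹ (inv_ne_zero hu) eA eB P)
      = (co P).map (fun c => (σ c.1 / u ^ 2, σ c.2 / u ^ 3)) := by
    intro P
    rw [co_mapScale]
    congr 1
    funext c
    rw [inv_pow, inv_pow, div_eq_inv_mul, div_eq_inv_mul]
  refine ⟨mapScale h2' σ u⁻¹ (inv_ne_zero hu) eA eB, hco, ?_⟩
  intro P ξ υ hP
  have h1 : co (mapScale h2' σ u⁻¹ (inv_ne_zero hu) eA eB P) = some (σ ξ / u ^ 2, σ υ / u ^ 3) := by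
    rw [hco, hP]; rfl
  rw [ht_of_co h1, map_div₀, hf]
  congr 1
  field_simp

/-- (TWC) composition with a nonconstant `β` -/
theorem exists_comp (h2 : (2 : F) ≠ 0) (β : TwPt A B) (hβ : ht β ≠ 0) :
    ∃ (Cb : TwPt A B →+ TwPt A B) (σ : RatFunc F →ₐ[F] RatFunc F) (ξ υ : RatFunc F),
      co β = some (ξ, υ) ∧ υ ≠ 0 ∧ σ RatFunc.X = ξ / fT A B ∧
      (∀ P, co (Cb P) = (co P).map
        (fun c => (σ c.1 / (υ / fT A B ^ 2) ^ 2, σ c.2 / (υ / fT A B ^ 2) ^ 3))) ∧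
      (∀ P, ht (Cb P) = ht P * ht β) := by
  have hf0 := fT_ne_zero A B
  have hβ0 : β ≠ 0 := by
    rintro rfl
    exact hβ ht_zero
  obtain ⟨ξ, υ, hco⟩ := Hom_exists_co β hβ0
  have hht := ht_of_co hco
  obtain ⟨σ, hσ⟩ := exists_subst (ξ / fT A B) (by rw [← hht]; exact hβ)
  have hC : ∀ c : F, σ (RatFunc.C c) = RatFunc.C c := by
    intro c
    rw [← RatFunc.algebraMap_eq_C]
    exact σ.commutes c
  have heq := co_eqn hco
  have hσf : σ (fT A B) = fT A B * (υ / fT A B ^ 2) ^ 2 := by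
    unfold fT
    rw [map_add, map_add, map_mul, map_pow, hC, hC, hσ]
    change _ = fT A B * (υ / fT A B ^ 2) ^ 2
    rw [div_pow υ, heq]
    field_simp
  have hυ : υ ≠ 0 := by
    rintro rfl
    have h0 : σ (fT A B) = 0 := by rw [hσf]; simp
    exact hf0 ((map_eq_zero σ).mp h0)
  have hu : υ / fT A B ^ 2 ≠ 0 := div_ne_zero hυ (pow_ne_zero _ hf0)
  obtain ⟨T, hT1, hT2⟩ := exists_twHom h2 (σ : RatFunc F →+* RatFunc F) (υ / fT A B ^ 2) hu
    (hC A) (hC B) hσf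
  refine ⟨T, σ, ξ, υ, hco, hυ, hσ, hT1, ?_⟩
  intro P
  by_cases hP : P = 0
  · subst hP
    rw [map_zero, ht_zero, zero_mul]
  · obtain ⟨ξ', υ', hco'⟩ := Hom_exists_co P hP
    rw [hT2 P ξ' υ' hco', ht_of_co hco', hht, ← hσ]
    exact rdeg_algHom σ _

end Fermat.Agent.S52Lib
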