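import Fermat.Agent.S52.TwistDefs
import Fermat.Agent.S52.Twist_PL
import Fermat.Agent.S52.Twist_TWH

/-!
# S52: Manin's twisted curve `f(t) Y² = X³ + A X + B` over `F(t)` and the degree function on it

Definitions in `TwistDefs`, parallelogram law in `Twist_PL`, endomorphisms in `Twist_TWH`.
-/
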