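import Fermat.Agent.S52.AddSub
import Fermat.Agent.S52.Hom
import Fermat.Agent.S52.Deg

/-!
# S52: Manin's twisted curve `f(t) Y² = X³ + A X + B` over `F(t)` and the degree function on it
(definitions only)

In Weierstrass form: `υ² = ξ³ + A f² ξ + B f³` with `ξ = f X`, `υ = f² Y`, `f = t³ + A t + B`.
Its `F(t)`-points are the "endomorphisms" `(x, y) ↦ (X(x), y Y(x))` of `y² = x³ + A x + B`.
-/

set_option autoImplicit false
set_option linter.unusedSectionVars false

namespace Fermat.Agent.S52Lib

open Polynomial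

variable {F : Type*} [Field F] [DecidableEq (RatFunc F)]

/-- `f = t³ + A t + B` -/
noncomputable def fT (A B : F) : RatFunc F :=
  RatFunc.X ^ 3 + RatFunc.C A * RatFunc.X + RatFunc.C B

/-- points of the twisted curve -/
abbrev TwPt (A B : F) := Pt (RatFunc.C A * fT A B ^ 2) (RatFunc.C B * fT A B ^ 3)

/-- the degree of the "endomorphism" `P` -/
noncomputable def ht {A B : F} (P : TwPt A B) : ℕ :=
  match co P with
  | none => 0
  | some (ξ, _) => rdeg (ξ / fT A B)

variable {A B : F}

theorem fT_eq_algebraMap (A B : F) :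
    fT A B = algebraMap F[X] (RatFunc F) (X ^ 3 + C A * X + C B) := by
  simp [fT, RatFunc.algebraMap_X, RatFunc.algebraMap_C]

theorem fT_poly_natDegree (A B : F) : (X ^ 3 + C A * X + C B : F[X]).natDegree = 3 := by
  compute_degree!

theorem fT_ne_zero (A B : F) : fT A B ≠ 0 := by
  rw [fT_eq_algebraMap]
  intro h
  have h0 : (X ^ 3 + C A * X + C B : F[X]) = 0 := by
    apply RatFunc.algebraMap_injective F
    rw [h, map_zero]
  have := fT_poly_natDegree A B
  rw [h0] at this
  simp at this

theorem ht_zero : ht (0 : TwPt A B) = 0 := rfl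

theorem ht_of_co {P : TwPt A B} {ξ υ : RatFunc F} (h : co P = some (ξ, υ)) :
    ht P = rdeg (ξ / fT A B) := by
  unfold ht; rw [h]

end Fermat.Agent.S52Lib
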